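import Fermat.Prelude.Def_CuspForm_HeckeAlgebra
import Fermat.Prelude.Def_ModularCurve_HeckeModule
import Fermat.Agent.EichlerShimura.BaseChange
import Fermat.Agent.Periods.HeckeCoeff

/-!
# The Hecke algebra acting on weight two forms, and the class of `P - ∞`

`formsAct p t` is the endomorphism of `S₂(Γ₀(p))` attached to `t`, every generator `ℓ` acting by
`T_ℓ` (or `U_ℓ` if `ℓ ∣ p`).
-/

set_option autoImplicit false

noncomputable section

open ModularCurve AlgebraicCurve

namespace Fermat.Agent.Mazur.Immersion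

variable (N : ℕ) [NeZero N]

open Classical in
/-- The image of a generator in the Hecke algebra of forms. -/
def formsGen (ℓ : Nat.Primes) : CuspForm.heckeAlgebra N 2 ∅ :=
  if h : (ℓ : ℕ) ∣ N then CuspForm.heckeAlgebra.U ℓ.2 h (Set.notMem_empty _)
  else CuspForm.heckeAlgebra.T ℓ.2 h (Set.notMem_empty _)

/-- The action of the abstract Hecke algebra on weight two forms. -/
def formsAct : HeckeAlg →+* Module.End ℂ (CuspForm (CongruenceSubgroup.Gamma0 N) 2) :=
  (CuspForm.heckeAlgebra N 2 ∅).val.toRingHom.comp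
    (MvPolynomial.eval₂Hom (Int.castRingHom _) (formsGen N))

@[simp] theorem formsAct_C (a : ℤ) : formsAct N (MvPolynomial.C a) = (a : Module.End ℂ _) := by
  simp [formsAct]

theorem formsAct_heckeGen_of_dvd (ℓ : Nat.Primes) (h : (ℓ : ℕ) ∣ N) :
    formsAct N (heckeGen ℓ) = CuspForm.heckeULin 2 h := by
  simp [formsAct, heckeGen, formsGen, h]

theorem formsAct_heckeGen_of_not_dvd (ℓ : Nat.Primes) (h : ¬(ℓ : ℕ) ∣ N) :
    formsAct N (heckeGen ℓ) = CuspForm.heckeTLin 2 ℓ.2 h := by
  simp [formsAct, heckeGen, formsGen, h]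

omit [NeZero N] in
theorem jq_mem_full : jq ∈ modularFunctionFieldFull N := by
  simpa [qExpand_one_apply] using jqd_mem_full N (one_dvd N)

instance fact_jq_mem : Fact (jq ∈ modularFunctionFieldFull N) := ⟨jq_mem_full N⟩

/-- The cusp `∞` of `X₀(N)`. -/
abbrev cuspInfty : Place (AlgebraicClosure ℚ) (modularFunctionFieldBar N) :=
  EichlerShimura.cuspPlace (AlgebraicClosure ℚ) (modularFunctionFieldFull N)

/-- `j` in the function field over `ℚ̄`. -/
def jBar : modularFunctionFieldBar N :=
  ⟨coeffEmb (AlgebraicClosure ℚ) jq, coeffEmb_mem_laurentBaseChange _ (jq_mem_full N)⟩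

/-- `j(q^N)` in the function field over `ℚ̄`. -/
def jNBar : modularFunctionFieldBar N :=
  ⟨coeffEmb (AlgebraicClosure ℚ) (qExpand ℚ N jq),
    coeffEmb_mem_laurentBaseChange _ (jqd_mem_full N dvd_rfl)⟩

end Fermat.Agent.Mazur.Immersion
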