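import Fermat.Agent.Mazur.Immersion.HeckeDisc
import Mathlib.NumberTheory.Padics.PadicNumbers

/-!
# A rational point near `∞` is a disc place

The places with `j = a` are the disc place with parameter `r`, `J(r) = a`, and the Atkin–Lehner
images of those with parameters `r^(1/p)`; the value of `j_p` separates them.
-/

set_option autoImplicit false
set_option synthInstance.maxHeartbeats 400000

noncomputable section

open ModularCurve AlgebraicCurve
open scoped IntermediateField

namespace Fermat.Agent.Mazur.Immersion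

open Fermat.Agent.Curve

local notation "Qb" => AlgebraicClosure ℚ
local notation "ιC" => Fermat.Agent.Reduction.qbarToComplex

variable {p : ℕ} [hp : Fact p.Prime] [NeZero p]

/-- The Atkin–Lehner involution of level `p` exchanges `j` and `j_p`. -/
theorem exists_swap : ∃ w : modularFunctionFieldBar p →ₐ[Qb] modularFunctionFieldBar p,
    w (jBar p) = jNBar p ∧ w (jNBar p) = jBar p ∧ Function.Bijective w := by
  have h : ∀ M : ℕ, M = 1 * p →
      ∃ w : modularFunctionFieldBar M →ₐ[Qb] modularFunctionFieldBar M,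
        ∀ x y : modularFunctionFieldBar M,
          (x : LaurentSeries Qb) = coeffEmb Qb jq →
          (y : LaurentSeries Qb) = coeffEmb Qb (ModularCurve.qExpand ℚ p jq) →
          w x = y ∧ w y = x := by
    rintro M rfl
    obtain ⟨w, hw⟩ := Reduction.exists_atkinLehner_gens (N := 1) (L := Qb) ιC hp.out
      fun h => hp.out.ne_one (Nat.dvd_one.1 h)
    haveI : NeZero (p * 1) := ⟨by rw [mul_one]; exact NeZero.ne p⟩
    refine ⟨w, fun x y hx hy => ?_⟩
    have := hw 1 inferInstance inferInstance (one_dvd _) (dvd_of_eq (mul_comm p 1)) dvd_rfl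
    rwa [show x = Reduction.jdElem Qb (one_dvd (1 * p)) from
        Subtype.ext (hx.trans (Reduction.coe_jdElem_one Qb (1 * p)).symm),
      show y = Reduction.jdElem Qb (dvd_of_eq (mul_comm p 1) : p * 1 ∣ 1 * p) from
        Subtype.ext (by rw [hy, Reduction.coe_jdElem, qExpand_congr (mul_one p)])]
  obtain ⟨w, hw⟩ := h p (one_mul p).symm
  obtain ⟨h1, h2⟩ := hw (jBar p) (jNBar p) rfl rfl
  have hid : w.comp w = AlgHom.id Qb _ := Reduction.algHom_ext_jdElem Qb fun d hd0 hd => by
    rcases (Nat.dvd_prime hp.out).1 hd with hd' | hd' <;> subst hd'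
    · rw [AlgHom.comp_apply, show Reduction.jdElem Qb hd = jBar p from
        Subtype.ext (Reduction.coe_jdElem_one Qb p), h1, h2]
      rfl
    · rw [AlgHom.comp_apply, show Reduction.jdElem Qb hd = jNBar d from Subtype.ext rfl, h2, h1]
      rfl
  exact ⟨w, h1, h2, w.toRingHom.injective, fun x => ⟨w x, AlgHom.congr_fun hid x⟩⟩

omit hp in
theorem eq_of_ord_sub_pos {Q : Place Qb (modularFunctionFieldBar p)}
    {f : modularFunctionFieldBar p} {c d : Qb} (hc : 0 < Q.ord (f - algebraMap Qb _ c))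
    (hd : 0 < Q.ord (f - algebraMap Qb _ d)) : c = d := by
  by_contra hne
  have e : (f - algebraMap Qb _ c) + -(f - algebraMap Qb _ d) =
      algebraMap Qb (modularFunctionFieldBar p) (d - c) := by rw [map_sub]; ring
  have h := min_ord_le_ord_add Q (f := f - algebraMap Qb _ c) (g := -(f - algebraMap Qb _ d))
    (by rw [e, map_ne_zero_iff _ (algebraMap Qb (modularFunctionFieldBar p)).injective]
        exact sub_ne_zero.2 (Ne.symm hne))
  rw [e, ord_neg, ord_algebraMap] at h
  omega

theorem finrank_jBar_eq :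
    Module.finrank Qb⟮jBar p⟯ (modularFunctionFieldBar p) = p + 1 := by
  refine (Fermat.Agent.Modular.finrank_FL p ιC).trans ?_
  conv_lhs => rw [← one_mul p]
  rw [Reduction.dedekindPsi_mul_prime one_ne_zero hp.out fun h => hp.out.ne_one (Nat.dvd_one.1 h),
    dedekindPsi_one, one_mul]

/-- At most `p + 1` places have `j = c`. -/
theorem card_le_of_forall_ord_pos (c : Qb) (Z : Finset (Place Qb (modularFunctionFieldBar p)))
    (hZ : ∀ Q ∈ Z, 0 < Q.ord (jBar p - algebraMap Qb _ c)) : Z.card ≤ p + 1 := by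
  classical
  set x := jBar p - algebraMap Qb _ c with hx
  have hjt : Transcendental Qb (jBar p) := Fermat.Agent.Modular.transcendental_jL p ιC
  have hfield : Qb⟮x⁻¹⟯ = Qb⟮jBar p⟯ := by
    refine le_antisymm (IntermediateField.adjoin_simple_le_iff.mpr (inv_mem (sub_mem
      (IntermediateField.mem_adjoin_simple_self Qb _) (IntermediateField.algebraMap_mem _ _))))
      (IntermediateField.adjoin_simple_le_iff.mpr ?_)
    have : x ∈ Qb⟮x⁻¹⟯ := by
      simpa using inv_mem (IntermediateField.mem_adjoin_simple_self Qb x⁻¹)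
    simpa [hx] using add_mem this (IntermediateField.algebraMap_mem Qb⟮x⁻¹⟯ c)
  have hxt : Transcendental Qb x⁻¹ := fun h => hjt (by
    have h1 : IsAlgebraic Qb x := by simpa using h.inv
    simpa [hx] using h1.add (isAlgebraic_algebraMap c))
  have hdeg := degree_poleDivisor (K := Qb) hxt
  rw [hfield, finrank_jBar_eq, Divisor.degree, Finsupp.liftAddHom_apply, Finsupp.sum] at hdeg
  have hmem : ∀ Q ∈ Z, Q ∈ (poleDivisor (K := Qb) x⁻¹).support := fun Q hQ => by
    rw [Finsupp.mem_support_iff, poleDivisor_apply, Place.ord_inv, neg_neg]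
    have := hZ Q hQ
    omega
  have h1 : (Z.card : ℤ) ≤ (p + 1 : ℕ) := by
    rw [← hdeg, Finset.card_eq_sum_ones, Nat.cast_sum]
    refine (Finset.sum_le_sum_of_subset_of_nonneg hmem fun _ _ _ => by simp).trans
      (Finset.sum_le_sum fun Q hQ => ?_)
    rw [Finsupp.mem_support_iff, poleDivisor_apply] at hQ
    simp only [AddMonoidHom.coe_mulRight, deg_eq_one, Nat.cast_one, mul_one, poleDivisor_apply]
    omega
  exact_mod_cast h1

variable {l : ℕ} [Fact l.Prime]

theorem norm_embPadic_ratCast {a : ℚ} (ha : a ≠ 0) :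
    ‖embPadic l (algebraMap ℚ Qb a)‖ = (l : ℝ) ^ (-padicValRat l a) := by
  have h : embPadic l (algebraMap ℚ Qb a) =
      algebraMap ℚ_[l] (PadicComplex l) (a : ℚ_[l]) := by
    rw [eq_ratCast (algebraMap ℚ Qb), map_ratCast, map_ratCast]
  rw [h, norm_algebraMap', Padic.norm_eq_zpow_neg_valuation (Rat.cast_ne_zero.2 ha),
    Padic.valuation_ratCast]

/-- A rational point in the disc of `∞` is a disc place. -/
theorem exists_pt_eq (P : Place Qb (modularFunctionFieldBar p)) (a b : ℚ)
    (ha : 0 < P.ord (jBar p - algebraMap Qb _ (algebraMap ℚ Qb a)))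
    (hb : 0 < P.ord (jNBar p - algebraMap Qb _ (algebraMap ℚ Qb b)))
    (hav : padicValRat l a < 0) (hbv : padicValRat l b = p * padicValRat l a) :
    ∃ Pr : PtX l p, Pr.a = algebraMap ℚ Qb a ∧ Pr.place = P := by
  classical
  have ha0 : a ≠ 0 := fun h => by simp [h] at hav
  have hb0 : b ≠ 0 := fun h => by
    rw [h, padicValRat.zero] at hbv
    have := hp.out.pos
    nlinarith
  have hl1 : (1 : ℝ) < l := by exact_mod_cast (Fact.out : l.Prime).one_lt
  obtain ⟨Pr, hPr⟩ := (discX0 l p).exists_pt_of_one_lt_norm (a := algebraMap ℚ Qb a)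
    (by rw [norm_embPadic_ratCast ha0]; exact one_lt_zpow₀ hl1 (by omega))
  refine ⟨Pr, hPr, ?_⟩
  have hnr : ‖embPadic l (algebraMap ℚ Qb a)‖ = ‖Pr.r‖⁻¹ := by
    rw [← hPr, ← Pr.sval_eq, (discX0 l p).isJ_ser.norm_sval Pr.ne_zero Pr.norm_lt]
  have hnb : ‖embPadic l (algebraMap ℚ Qb b)‖ = (‖Pr.r‖ ^ p)⁻¹ := by
    rw [norm_embPadic_ratCast hb0, hbv, ← inv_pow, ← hnr, norm_embPadic_ratCast ha0,
      ← zpow_natCast, ← zpow_mul]
    ring_nf
  obtain ⟨w, hw1, hw2, hwb⟩ := exists_swap (p := p)
  obtain ⟨S, hcard, hSm, -⟩ := exists_roots (m := p) Pr.ne_zero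
  choose Qf hQf using fun s : S => exists_pt_root Pr hp.out (hSm s.1 s.2)
  let e : modularFunctionFieldBar p ≃ₐ[Qb] modularFunctionFieldBar p := AlgEquiv.ofBijective w hwb
  set V : S → Place Qb (modularFunctionFieldBar p) := fun s => placeComap e (Qf s).place
  have hVinj : Function.Injective V := fun s t h => Subtype.ext (by
    rw [← hQf s, ← hQf t, DiscData.Pt.place_injective ((placeComap e).injective h)])
  have hjF : (discX0 l p).jF = jBar p := rfl
  -- the values at the disc place
  have hval : ∀ (Q : PtX l p) (c : Qb), sval (Q.r ^ p) (serK (embPadic l) (Modular.serJ Qb)) =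
      embPadic l c → 0 < Q.place.ord (jNBar p - algebraMap Qb _ c) := fun Q c hc => by
    have hmem : jNBar p - algebraMap Qb _ c ∈ (discX0 l p).bddIn :=
      sub_mem (jNBar_mem_bddIn l p) ((discX0 l p).algebraMap_mem_bddIn c)
    have hne : jNBar p - algebraMap Qb (modularFunctionFieldBar p) c ≠ 0 := fun h => by
      have h1 := congrArg (fun f : modularFunctionFieldBar p => (f : LaurentSeries Qb).coeff (-p))
        (sub_eq_zero.1 h)
      simp only [coe_jNBar] at h1
      revert h1
      show (ModularCurve.qExpand Qb p (Modular.serJ Qb)).coeff (-(p : ℤ)) =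
        (algebraMap Qb (LaurentSeries Qb) c).coeff (-(p : ℤ)) → False
      rw [show -(p : ℤ) = p * (-1) by ring, qExpand_coeff_mul, Modular.serJ, coeffEmb,
        coeffMap_coeff, coeff_jq_neg_one, map_one, algebraMap_laurentSeries_eq_single,
        HahnSeries.coeff_single_of_ne (by have := hp.out.pos; omega)]
      exact one_ne_zero
    refine (Q.sval_eq_zero_iff hmem hne).1 ?_
    rw [map_sub, ser_jNBar, DiscData.ser_algebraMap, sub_eq_add_neg,
      sval_add Q.norm_lt (by rw [← ser_jNBar]; exact jNBar_mem_bddIn l p)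
        (neg_mem (bdd_C _) : _ ∈ bddSubring _), ← map_neg, sval_C,
      sval_serK_qExpand, hc, add_neg_cancel]
  have hVa : ∀ s, 0 < (V s).ord (jBar p - algebraMap Qb _ (algebraMap ℚ Qb a)) := fun s => by
    rw [ord_placeComap, map_sub, AlgEquiv.commutes, show e (jBar p) = jNBar p from hw1, ← hPr]
    exact hval _ _ (by rw [hQf, hSm s.1 s.2, PtX.sval_serJ Pr])
  have hVb : ∀ s, 0 < (V s).ord (jNBar p - algebraMap Qb _ (Qf s).a) := fun s => by
    rw [ord_placeComap, map_sub, AlgEquiv.commutes, show e (jNBar p) = jBar p from hw2,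
      show jBar p - algebraMap Qb _ (Qf s).a = (Qf s).jsub from rfl, (Qf s).ord_jsub]
    exact one_pos
  have hPra : 0 < Pr.place.ord (jBar p - algebraMap Qb _ (algebraMap ℚ Qb a)) := by
    rw [← hPr, show jBar p - algebraMap Qb _ Pr.a = Pr.jsub from rfl, Pr.ord_jsub]
    exact one_pos
  obtain ⟨Q₀, hQ₀⟩ := exists_pt_pow Pr p
  have hPrb : 0 < Pr.place.ord (jNBar p - algebraMap Qb _ Q₀.a) :=
    hval Pr Q₀.a (by rw [← hQ₀, PtX.sval_serJ Q₀])
  have hnQ₀ : ‖embPadic l Q₀.a‖ = (‖Pr.r‖ ^ p)⁻¹ := by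
    rw [← Q₀.sval_eq, (discX0 l p).isJ_ser.norm_sval Q₀.ne_zero Q₀.norm_lt, hQ₀, norm_pow]
  have hnQf : ∀ s, ‖embPadic l (Qf s).a‖ ≠ (‖Pr.r‖ ^ p)⁻¹ := fun s h => by
    rw [← (Qf s).sval_eq, (discX0 l p).isJ_ser.norm_sval (Qf s).ne_zero (Qf s).norm_lt, inv_inj,
      ← hSm s.1 s.2, norm_pow, hQf, ← pow_mul] at h
    have hs1 : ‖(s : PadicComplex l)‖ < 1 := hQf s ▸ (Qf s).norm_lt
    have hs0 : (0 : ℝ) < ‖(s : PadicComplex l)‖ := norm_pos_iff.2 (hQf s ▸ (Qf s).ne_zero)
    have h2 : ‖(s : PadicComplex l)‖ ^ (p * p) < ‖(s : PadicComplex l)‖ ^ 1 :=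
      pow_lt_pow_right_of_lt_one₀ hs0 hs1 (Nat.lt_of_lt_of_le hp.out.one_lt (Nat.le_mul_self p))
    rw [← h, pow_one] at h2
    exact lt_irrefl _ h2
  have hne : Pr.place ∉ Finset.univ.image V := by
    simp only [Finset.mem_image, Finset.mem_univ, true_and, not_exists]
    intro s h
    refine hnQf s ?_
    rw [eq_of_ord_sub_pos (hVb s) (h ▸ hPrb), hnQ₀]
  have hP : P ∈ insert Pr.place (Finset.univ.image V) := by
    by_contra hnot
    have := card_le_of_forall_ord_pos (algebraMap ℚ Qb a)
      (insert P (insert Pr.place (Finset.univ.image V))) fun Q hQ => by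
        rcases Finset.mem_insert.1 hQ with rfl | hQ
        · exact ha
        rcases Finset.mem_insert.1 hQ with rfl | hQ
        · exact hPra
        obtain ⟨s, -, rfl⟩ := Finset.mem_image.1 hQ
        exact hVa s
    rw [Finset.card_insert_of_notMem hnot, Finset.card_insert_of_notMem hne,
      Finset.card_image_of_injective _ hVinj, Finset.card_univ, Fintype.card_coe, hcard] at this
    omega
  rcases Finset.mem_insert.1 hP with h | h
  · exact h.symm
  obtain ⟨s, -, rfl⟩ := Finset.mem_image.1 h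
  exact absurd (by rw [eq_of_ord_sub_pos (hVb s) hb, hnb]) (hnQf s)

end Fermat.Agent.Mazur.Immersion
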