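import Fermat.Agent.Mazur.Immersion.HeckeLog
import Fermat.Agent.Mazur.Immersion.RationalPoint
import Fermat.Agent.Periods.Integral

/-!
# The formal immersion argument

A rational point of `X₀(p)` in the disc of the cusp `∞` at an odd prime `l` spans, with `∞`, a
class of infinite order under every Hecke operator that is nonzero on weight two forms.
-/

set_option autoImplicit false
set_option synthInstance.maxHeartbeats 400000

noncomputable section

open ModularCurve AlgebraicCurve Filter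
open scoped Topology

namespace Fermat.Agent.Mazur.Immersion

local notation "Qb" => AlgebraicClosure ℚ

variable {p : ℕ} [hp : Fact p.Prime] [NeZero p] {l : ℕ} [hl : Fact l.Prime]

omit hp in
/-- The Hecke algebra on forms is the image of the abstract one. -/
theorem exists_formsAct_eq {T : Module.End ℂ (CuspForm (CongruenceSubgroup.Gamma0 p) 2)}
    (hT : T ∈ CuspForm.heckeAlgebra p 2 ∅) : ∃ u, formsAct p u = T := by
  induction hT using Algebra.adjoin_induction with
  | mem T hT =>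
    rcases hT with ⟨q, hq, hqp, -, rfl⟩ | ⟨q, hqp, hq, -, rfl⟩
    · exact ⟨heckeGen ⟨q, hq⟩, formsAct_heckeGen_of_not_dvd p _ hqp⟩
    · exact ⟨heckeGen ⟨q, hq⟩, formsAct_heckeGen_of_dvd p _ hqp⟩
  | algebraMap a => exact ⟨MvPolynomial.C a, by rw [formsAct_C]; rfl⟩
  | add S T _ _ hS hT =>
    obtain ⟨u, rfl⟩ := hS
    obtain ⟨v, rfl⟩ := hT
    exact ⟨u + v, map_add _ _ _⟩
  | mul S T _ _ hS hT =>
    obtain ⟨u, rfl⟩ := hS
    obtain ⟨v, rfl⟩ := hT
    exact ⟨u * v, map_mul _ _ _⟩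

theorem natCast_pow_le_aux {l v n : ℕ} (hl : 3 ≤ l) (h : l ^ v ∣ n) (hn : 2 ≤ n) :
    v + 2 ≤ n := by
  have h1 : l ^ v ≤ n := Nat.le_of_dvd (by omega) h
  have h2 : 3 ^ v ≤ l ^ v := Nat.pow_le_pow_left hl v
  rcases v with _ | v
  · omega
  · have h3 : v + 3 ≤ 3 ^ (v + 1) := by
      clear h h1 h2
      induction v with
      | zero => norm_num
      | succ v ih => rw [pow_succ]; omega
    omega

omit hp [NeZero p] in
/-- The logarithm of a sequence with unit first term does not vanish near zero. -/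
theorem logInt_ne_zero (hl2 : l ≠ 2) {z : ℕ → ℤ} (h1 : ¬ (l : ℤ) ∣ z 1) {r : PadicComplex l}
    (hr0 : r ≠ 0) (hr : ‖r‖ ≤ (l : ℝ)⁻¹) : logInt z r ≠ 0 := by
  have hl3 : 3 ≤ l := by have := hl.out.two_le; omega
  have hlR : (1 : ℝ) < l := by exact_mod_cast hl.out.one_lt
  have hr1 : ‖r‖ < 1 := hr.trans_lt (inv_lt_one_of_one_lt₀ hlR)
  have hpos : 0 < ‖r‖ := norm_pos_iff.2 hr0
  have hz1 : ‖(z 1 : PadicComplex l)‖ = 1 := by
    rw [← map_intCast (algebraMap ℚ_[l] (PadicComplex l)), norm_algebraMap']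
    exact (Padic.norm_int_le_one _).antisymm (not_lt.1 fun h => h1 ((Padic.norm_intCast_lt_one_iff).1 h))
  set f : ℕ → PadicComplex l := fun n => (z n : PadicComplex l) * r ^ n / (n : PadicComplex l)
  have hf : Summable f := summable_logInt (natNormBound_padicComplex l) z hr1
  have hb : ∀ n, ‖(Function.update f 1 0) n‖ ≤ ‖r‖ / l := fun n => by
    rcases eq_or_ne n 1 with rfl | hn1
    · simp [div_nonneg hpos.le]
    rw [Function.update_of_ne hn1]
    rcases eq_or_ne n 0 with rfl | hn0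
    · simp [f, div_nonneg hpos.le]
    obtain ⟨v, u, hu, hnu⟩ := Nat.exists_eq_pow_mul_and_not_dvd hn0 l hl.out.ne_one
    have hnorm : ‖(n : PadicComplex l)‖ = ((l : ℝ) ^ v)⁻¹ := by
      rw [norm_natCast_padicComplex, hnu, Nat.cast_mul, Nat.cast_pow, norm_mul, norm_pow,
        Padic.norm_p, Padic.norm_natCast_eq_one_iff.2 (hl.out.coprime_iff_not_dvd.2 hu), mul_one,
        inv_pow]
    have hv : v + 2 ≤ n := natCast_pow_le_aux hl3 ⟨u, hnu⟩ (by omega)
    rw [norm_div, norm_mul, norm_pow, hnorm, div_inv_eq_mul, div_eq_mul_inv]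
    calc ‖(z n : PadicComplex l)‖ * ‖r‖ ^ n * (l : ℝ) ^ v
        ≤ ‖r‖ ^ n * (l : ℝ) ^ v := by
          gcongr
          exact mul_le_of_le_one_left (by positivity) (IsUltrametricDist.norm_intCast_le_one _ _)
      _ = ‖r‖ * (‖r‖ ^ (n - 1) * (l : ℝ) ^ v) := by
          rw [← mul_assoc, ← pow_succ', Nat.sub_add_cancel (by omega)]
      _ ≤ ‖r‖ * (((l : ℝ)⁻¹) ^ (v + 1) * (l : ℝ) ^ v) := by
          gcongr
          exact (pow_le_pow_left₀ hpos.le hr _).trans (pow_le_pow_of_le_one (by positivity)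
            (inv_le_one_of_one_le₀ hlR.le) (by omega))
      _ = ‖r‖ * (l : ℝ)⁻¹ := by
          have : (l : ℝ) ≠ 0 := by positivity
          rw [pow_succ, inv_pow]; field_simp
  intro h
  rw [logInt, logSum, hf.tsum_eq_add_tsum_ite 1, add_eq_zero_iff_eq_neg] at h
  have h2 : ‖∑' n, if n = 1 then 0 else f n‖ ≤ ‖r‖ / l := by
    refine IsUltrametricDist.norm_tsum_le_of_forall_le_of_nonneg (by positivity) fun n => ?_
    simpa [Function.update_apply] using hb n
  have h3 : ‖f 1‖ = ‖r‖ := by simp [f, hz1]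
  rw [← h3, show f 1 = _ from h, norm_neg] at h2
  have : ‖r‖ ≤ ‖r‖ / l := by rw [← h3, show f 1 = _ from h, norm_neg]; exact h2
  rw [le_div_iff₀ (by positivity)] at this
  nlinarith

omit hl hp in
/-- Some form in the image of `t` is primitive at `l` in degree one. -/
theorem exists_primitive (t : HeckeAlg) (ht : formsAct p t ≠ 0) (hl : l.Prime) :
    ∃ (φ : CuspForm (CongruenceSubgroup.Gamma0 p) 2) (z z' w : ℕ → ℤ) (d : ℤ),
      d ≠ 0 ∧ IsIntSeq φ z ∧ IsIntSeq (formsAct p t φ) z' ∧ (∀ n, z' n = d * w n) ∧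
      ¬ (l : ℤ) ∣ w 1 := by
  classical
  obtain ⟨φ, hφ, hne⟩ : ∃ φ : CuspForm (CongruenceSubgroup.Gamma0 p) 2,
      (∃ z, IsIntSeq φ z) ∧ formsAct p t φ ≠ 0 := by
    by_contra! hall
    refine ht (LinearMap.ext_on (Periods.hasIntegralStructure_two (N := p)) fun f hf => ?_)
    rw [LinearMap.zero_apply]
    induction hf using Submodule.span_induction with
    | mem f hf =>
      choose z hz using hf
      exact hall f ⟨z, hz⟩
    | zero => exact map_zero _
    | add f g _ _ hf hg => rw [map_add, hf, hg, add_zero]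
    | smul c f _ hf => rw [map_zsmul, hf, smul_zero]
  obtain ⟨z, hz⟩ := hφ
  obtain ⟨z₀, hz₀⟩ := exists_intSeq_formsAct t φ z hz
  have hex : ∃ v n, ¬ (l : ℤ) ^ (v + 1) ∣ z₀ n := by
    obtain ⟨n, hn⟩ : ∃ n, z₀ n ≠ 0 := by
      by_contra! h
      exact hne (Periods.ext_qCoeff fun n => by
        rw [hz₀, h, Int.cast_zero]
        exact (map_zero (Periods.qCoeffLin p n)).symm)
    refine ⟨(z₀ n).natAbs, n, fun h => ?_⟩
    have h1 := Nat.le_of_dvd (Int.natAbs_pos.2 hn) (by simpa [Int.natAbs_pow] using Int.natAbs_dvd_natAbs.2 h)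
    have h2 := Nat.lt_pow_self (n := (z₀ n).natAbs + 1) hl.one_lt
    omega
  obtain ⟨n, hn⟩ := Nat.find_spec hex
  set v := Nat.find hex
  have hdvd : ∀ k, (l : ℤ) ^ v ∣ z₀ k := fun k => by
    rcases Nat.eq_zero_or_pos v with h | h
    · simp [h]
    · by_contra hk
      exact Nat.find_min hex (show v - 1 < v by omega) ⟨k, by rwa [Nat.sub_add_cancel h]⟩
  choose q hq using hdvd
  have hd0 : ((l : ℤ) ^ v) ≠ 0 := pow_ne_zero _ (by exact_mod_cast hl.ne_zero)
  have hψ : IsIntSeq ((((l : ℤ) ^ v : ℤ) : ℂ)⁻¹ • formsAct p t φ) q := fun k => by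
    rw [Periods.qCoeff_smul, hz₀, hq, Int.cast_mul, ← mul_assoc,
      inv_mul_cancel₀ (Int.cast_ne_zero.2 hd0), one_mul]
  obtain ⟨T, hT, hTn⟩ := Periods.exists_coeffOp p n
  obtain ⟨u, rfl⟩ := exists_formsAct_eq hT
  obtain ⟨w, hw⟩ := exists_intSeq_formsAct u _ q hψ
  obtain ⟨zu, hzu⟩ := exists_intSeq_formsAct u φ z hz
  obtain ⟨z', hz'⟩ := exists_intSeq_formsAct t _ zu hzu
  refine ⟨_, zu, z', w, (l : ℤ) ^ v, hd0, hzu, hz', fun k => ?_, ?_⟩
  · have h := hw k
    rw [map_smul, Periods.qCoeff_smul, ← Module.End.mul_apply, ← map_mul, mul_comm u t, map_mul,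
      Module.End.mul_apply, hz', inv_mul_eq_iff_eq_mul₀ (Int.cast_ne_zero.2 hd0)] at h
    exact_mod_cast h
  · have h := hTn ((((l : ℤ) ^ v : ℤ) : ℂ)⁻¹ • formsAct p t φ)
    rw [hψ, hw, Int.cast_inj] at h
    rw [← h]
    intro hd
    exact hn (by rw [hq, pow_succ]; exact mul_dvd_mul_left _ hd)

omit hl hp in
theorem cuspInfty_ne_place [Fact l.Prime] (Q : PtX l p) : Q.place ≠ cuspInfty p := fun h => by
  have h1 : 0 ≤ Q.place.ord (jBar p) := Q.ord_nonneg (discX0 l p).jF_mem_bddIn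
  have hne : jBar p ≠ 0 := fun e => (Fermat.Agent.Igusa.hasLead_jqModC (R := Qb)).ne_zero
    one_ne_zero ((coe_jBar p).symm.trans (congrArg Subtype.val e))
  rw [h, EichlerShimura.ord_cuspPlace _ hne, coe_jBar,
    (Fermat.Agent.Igusa.hasLead_jqModC (R := Qb)).order_eq one_ne_zero] at h1
  omega

theorem not_isOfFinAddOrder_hecke_smul {p : ℕ} [Fact p.Prime] [NeZero p] {l : ℕ}
    [Fact l.Prime] (hl : l ≠ 2) (_hlp : l ≠ p)
    (P : Place (AlgebraicClosure ℚ) (modularFunctionFieldBar p)) (a b : ℚ)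
    (ha : 0 < P.ord (jBar p - algebraMap (AlgebraicClosure ℚ) _ (algebraMap ℚ _ a)))
    (hb : 0 < P.ord (jNBar p - algebraMap (AlgebraicClosure ℚ) _ (algebraMap ℚ _ b)))
    (hav : padicValRat l a < 0) (hbv : padicValRat l b = p * padicValRat l a)
    (hdeg : Finsupp.single P (1 : ℤ) - Finsupp.single (cuspInfty p) 1 ∈
      Divisor.degZero (K := AlgebraicClosure ℚ) (F := modularFunctionFieldBar p))
    (t : HeckeAlg) (ht : formsAct p t ≠ 0) :
    ¬ IsOfFinAddOrder (letI := heckeModuleBar p;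
      t • (Pic0.mk ⟨Finsupp.single P (1 : ℤ) - Finsupp.single (cuspInfty p) 1, hdeg⟩ : JZero p)) := by
  classical
  letI := heckeModuleBar p
  obtain ⟨Pr, hPra, hPr⟩ := exists_pt_eq P a b ha hb hav hbv
  have e0 : Finsupp.single P (1 : ℤ) - Finsupp.single (cuspInfty p) 1 =
      discDiv (Finsupp.single Pr 1) (-1) := by
    rw [discDiv, Finsupp.mapDomain_single, hPr, Finsupp.single_neg, sub_eq_add_neg]
  obtain ⟨D₀, k, hd, he, hlog⟩ := exists_smul_eq_discDiv Pr (e0 ▸ hdeg) t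
  intro hfin
  have hx : IsOfFinAddOrder (Pic0.mk ⟨discDiv D₀ k, hd⟩ : JZero p) := by
    rw [← he, show (Pic0.mk ⟨discDiv (Finsupp.single Pr 1) (-1), e0 ▸ hdeg⟩ : JZero p) =
      Pic0.mk ⟨_, hdeg⟩ from congrArg Pic0.mk (Subtype.ext e0.symm)]
    exact hfin
  obtain ⟨N, hN, hN0⟩ := isOfFinAddOrder_iff_nsmul_eq_zero.1 hx
  rw [show (Pic0.mk ⟨discDiv D₀ k, hd⟩ : JZero p) = QuotientAddGroup.mk
      (⟨discDiv D₀ k, hd⟩ : Divisor.degZero (K := Qb) (F := modularFunctionFieldBar p)) from rfl,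
    ← QuotientAddGroup.mk_nsmul, QuotientAddGroup.eq_zero_iff,
    AddSubgroup.mem_addSubgroupOf] at hN0
  obtain ⟨f, hf, hford⟩ := hN0
  -- the divisor of `f`
  have hinfty : D₀.mapDomain DiscData.Pt.place (cuspInfty p) = 0 :=
    Finsupp.mapDomain_of_notMem_range _ _ fun ⟨Q, hQ⟩ => cuspInfty_ne_place Q hQ
  have hk : k = -∑ Q ∈ D₀.support, D₀ Q := by
    have h := hd
    rw [Divisor.mem_degZero, discDiv, map_add, Divisor.degree_single,
      Fermat.Agent.Curve.deg_eq_one, Nat.cast_one, mul_one, Finsupp.mapDomain, Finsupp.sum,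
      map_sum] at h
    simp only [Divisor.degree_single, Fermat.Agent.Curve.deg_eq_one, Nat.cast_one, mul_one] at h
    exact eq_neg_iff_add_eq_zero.2 ((add_comm _ _).trans h)
  have hdiv : ∀ Q, Q ≠ cuspInfty p →
      Q.ord f = ((N : ℤ) • D₀).mapDomain DiscData.Pt.place Q := fun Q hQ => by
    rw [← hford, Finsupp.mapDomain_smul]
    simp [discDiv, Finsupp.single_eq_of_ne hQ]
  have horder : (f : LaurentSeries Qb).order =
      -∑ Q ∈ ((N : ℤ) • D₀).support, ((N : ℤ) • D₀) Q := by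
    rw [← EichlerShimura.ord_cuspPlace _ hf, ← hford,
      Finsupp.support_smul_eq (by exact_mod_cast hN.ne' : (N : ℤ) ≠ 0)]
    simp only [Finsupp.smul_apply, smul_eq_mul, ← Finset.mul_sum]
    rw [← mul_neg, ← hk]
    simp [discDiv, hinfty]
  obtain ⟨φ, z, z', w, d, hd0, hz, hz', hzw, hw⟩ :=
    exists_primitive t ht (Fact.out : l.Prime)
  have h0 := sum_logSum_disc l p hf φ z hz ((N : ℤ) • D₀) hdiv horder
  rw [← logDiv_apply, map_zsmul, hlog φ z z' hz hz', zsmul_eq_mul, mul_eq_zero] at h0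
  have h1 : logInt z' Pr.r = 0 := h0.resolve_left (by exact_mod_cast hN.ne')
  have h2 : (d : PadicComplex l) * logInt w Pr.r = 0 := by
    rw [← h1, logInt, logInt, logSum, logSum, ← tsum_mul_left]
    refine tsum_congr fun n => ?_
    rw [hzw]; push_cast; ring
  refine logInt_ne_zero hl hw Pr.ne_zero ?_
    ((mul_eq_zero.1 h2).resolve_left (Int.cast_ne_zero.2 hd0))
  have ha0 : a ≠ 0 := fun h => by simp [h] at hav
  have hn := norm_embPadic_ratCast (l := l) ha0
  rw [← hPra, ← Pr.sval_eq, (discX0 l p).isJ_ser.norm_sval Pr.ne_zero Pr.norm_lt,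
    inv_eq_iff_eq_inv, ← zpow_neg, neg_neg] at hn
  rw [hn, ← zpow_neg_one]
  exact zpow_le_zpow_right₀ (by exact_mod_cast (Fact.out : l.Prime).one_lt.le) (by omega)

end Fermat.Agent.Mazur.Immersion
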