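import Fermat.Agent.Mazur.Immersion.AbelPrep
import Fermat.Agent.Curve.Degree

/-!
# A nonarchimedean Abel theorem in the disc of a cusp

If a divisor supported in the disc is, up to a multiple of the cusp, the divisor of a function, then
the formal logarithms of weight two cusp forms vanish on it.
-/

set_option autoImplicit false

noncomputable section

open Filter Topology ModularCurve AlgebraicCurve

namespace Fermat.Agent.Mazur.Immersion

theorem order_serK {L : Type*} [Field L] {K : Type*} [NormedField K] (ι : L →+* K)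
    (x : LaurentSeries L) : (serK ι x).order = x.order := by
  rcases eq_or_ne x 0 with rfl | hx
  · simp
  have hne : ∀ n, (serK ι x).coeff n ≠ 0 ↔ x.coeff n ≠ 0 := fun n => by
    rw [coeffMap_coeff, ne_eq, map_eq_zero_iff ι ι.injective]
  have h1 : (serK ι x).coeff x.order ≠ 0 :=
    (hne _).2 (HahnSeries.coeff_order_eq_zero.not.2 hx)
  refine le_antisymm (HahnSeries.order_le_of_coeff_ne_zero h1)
    (HahnSeries.order_le_of_coeff_ne_zero ((hne _).1 (HahnSeries.coeff_order_eq_zero.not.2 ?_)))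
  exact fun h => h1 (by rw [h]; rfl)

variable {L : Type*} [Field L] [IsAlgClosed L] {K : Type*} [NormedField K] [IsUltrametricDist K]
  [CompleteSpace K] {ι : L →+* K} {F : IntermediateField L (LaurentSeries L)}
  [Fermat.Agent.Curve.IsFunctionField1 L F]

/-- The functions regular outside one place. -/
def regularAway (Pinf : Place L F) : Subring F where
  carrier := {g | ∀ Q, Q ≠ Pinf → g ∈ Q.toValuationSubring}
  zero_mem' _ _ := zero_mem _
  one_mem' _ _ := one_mem _
  add_mem' hf hg Q hQ := add_mem (hf Q hQ) (hg Q hQ)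
  neg_mem' hf Q hQ := neg_mem (hf Q hQ)
  mul_mem' hf hg Q hQ := mul_mem (hf Q hQ) (hg Q hQ)

theorem mem_regularAway_iff {Pinf : Place L F} {g : F} :
    g ∈ regularAway Pinf ↔ ∀ Q, Q ≠ Pinf → 0 ≤ Q.ord g :=
  forall₂_congr fun Q _ => Fermat.Agent.Curve.mem_iff_ord_nonneg Q

theorem algebraMap_mem_regularAway (Pinf : Place L F) (c : L) :
    algebraMap L F c ∈ regularAway Pinf :=
  fun Q _ => Q.algebraMap_mem' c

theorem eq_zero_of_regularAway {Pinf : Place L F}
    (hPinf : ∀ f : F, f ≠ 0 → Pinf.ord f = (f : LaurentSeries L).order) {g : F}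
    (hg : g ∈ regularAway Pinf) (h : ∀ n ≤ (0 : ℤ), (g : LaurentSeries L).coeff n = 0) : g = 0 := by
  by_contra hg0
  have hne : (g : LaurentSeries L) ≠ 0 := fun h' => hg0 (Subtype.ext h')
  have hpos : 0 < Pinf.ord g := by
    rw [hPinf g hg0]
    by_contra! hle
    exact HahnSeries.coeff_order_eq_zero.not.2 hne (h _ hle)
  have halg := Fermat.Agent.Curve.isAlgebraic_of_forall_ord_nonneg (f := g) fun Q => by
    rcases eq_or_ne Q Pinf with rfl | hQ
    · exact hpos.le
    · exact mem_regularAway_iff.1 hg Q hQ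
  rw [Fermat.Agent.Curve.ord_eq_zero_of_isAlgebraic Pinf halg] at hpos
  exact lt_irrefl 0 hpos

namespace DiscData

variable (D : DiscData ι F) {Pinf : Place L F}
  (hPinf : ∀ f : F, f ≠ 0 → Pinf.ord f = (f : LaurentSeries L).order)

include hPinf in
theorem Pt.place_ne (P : D.Pt) : P.place ≠ Pinf := fun h => by
  have h1 := P.ord_nonneg D.jF_mem_bddIn
  have h2 : (D.jF : LaurentSeries L).order = -1 := by
    rw [← order_serK ι]
    refine le_antisymm (HahnSeries.order_le_of_coeff_ne_zero (by simp [D.isJ.coeff_neg_one])) ?_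
    by_contra! hlt
    refine HahnSeries.coeff_order_eq_zero.not.2 ?_ (D.isJ.coeff_lt _ hlt)
    exact fun h0 => by simpa [h0] using D.isJ.coeff_neg_one
  have hj0 : D.jF ≠ 0 := fun h0 => by simp [h0] at h2
  rw [h, hPinf _ hj0, h2] at h1
  omega

theorem Pt.ord_jsub_ne {P Q : D.Pt} (h : Q ≠ P) : Q.place.ord P.jsub = 0 := by
  refine Q.ord_eq_zero P.jsub_mem ?_
  rw [Pt.jsub, map_sub, D.ser_algebraMap, sub_eq_add_neg,
    sval_add Q.norm_lt D.isJ_ser.bdd (neg_mem (bdd_C _) : _ ∈ bddSubring K), ← map_neg, sval_C,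
    Q.sval_eq, ← sub_eq_add_neg, ← map_sub, ne_eq, map_eq_zero_iff ι ι.injective, sub_eq_zero]
  exact fun ha => h (Pt.eq_of_a_eq ha)

/-- The value at a point of an integral function with a unit pole at infinity. -/
theorem Pt.exists_value (P : D.Pt) {d : ℕ} (hd : 0 < d) {u : F}
    (hu : HasUnitPole ι (u : LaurentSeries L) d) :
    ∃ c : L, c ≠ 0 ∧ ‖(ι c)⁻¹‖ ≤ ‖P.r‖ ∧
      ∃ y : LaurentSeries K, BddBy 1 y ∧ D.ser (1 - algebraMap L F c⁻¹ * u) = qsub P.r * y := by
  have hub : u ∈ D.bddIn := ⟨1, hu.bddBy⟩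
  have hubs : D.ser u ∈ bddSubring K := hub
  obtain ⟨c, hc⟩ := Fermat.Agent.Curve.exists_sub_algebraMap_ord_pos P.place
    (f := u) (P.mem_regular hub)
  have hcu : sval P.r (D.ser u) = ι c := by
    have hmem : u - algebraMap L F c ∈ D.bddIn := sub_mem hub (D.algebraMap_mem_bddIn c)
    have h0 : sval P.r (D.ser (u - algebraMap L F c)) = 0 := by
      rcases eq_or_ne (u - algebraMap L F c) 0 with h | h
      · simp [h]
      · exact (P.sval_eq_zero_iff hmem h).2 (hc.resolve_left h)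
    rw [map_sub, D.ser_algebraMap, sub_eq_add_neg,
      sval_add P.norm_lt hubs (neg_mem (bdd_C _) : _ ∈ bddSubring K), ← map_neg, sval_C,
      add_eq_zero_iff_eq_neg, neg_neg] at h0
    exact h0
  have hr : 0 < ‖P.r‖ := norm_pos_iff.2 P.ne_zero
  set lead : LaurentSeries K := HahnSeries.single (-(d : ℤ)) (1 : K) with hlead
  have hrest : ‖sval P.r (D.ser u - lead)‖ ≤ ‖P.r‖ ^ (1 - (d : ℤ)) := by
    refine IsUltrametricDist.norm_tsum_le_of_forall_le_of_nonneg (by positivity) fun n => ?_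
    rcases lt_trichotomy n (-(d : ℤ)) with h | rfl | h
    · simp [hlead, coeffMap_coeff, hu.coeff_lt n h, HahnSeries.coeff_single_of_ne h.ne]
      positivity
    · simp [hlead, coeffMap_coeff, hu.coeff_eq]
      positivity
    · rw [norm_mul, norm_zpow, HahnSeries.coeff_sub, hlead, HahnSeries.coeff_single_of_ne h.ne',
        sub_zero]
      exact (mul_le_of_le_one_left (by positivity) (hu.bddBy n)).trans
        (zpow_le_zpow_right_of_le_one₀ hr P.norm_lt.le (by omega))
  have hnorm : ‖ι c‖ = ‖P.r‖ ^ (-(d : ℤ)) := by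
    have hsplit : ι c = P.r ^ (-(d : ℤ)) + sval P.r (D.ser u - lead) := by
      rw [← hcu]
      conv_lhs => rw [← add_sub_cancel lead (D.ser u)]
      rw [sval_add P.norm_lt (bdd_single _ _ : lead ∈ bddSubring K) (sub_mem hubs (bdd_single _ _) : D.ser u - lead ∈ bddSubring K),
        hlead, sval_single, one_mul]
    have hlt : ‖sval P.r (D.ser u - lead)‖ < ‖P.r ^ (-(d : ℤ))‖ := by
      rw [norm_zpow]
      exact hrest.trans_lt (zpow_lt_zpow_right_of_lt_one₀ hr P.norm_lt (by omega))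
    rw [hsplit, IsUltrametricDist.norm_add_eq_max_of_norm_ne_norm hlt.ne', max_eq_left hlt.le,
      norm_zpow]
  have hc0 : c ≠ 0 := fun h => by
    rw [h, map_zero, norm_zero] at hnorm
    exact absurd hnorm.symm (zpow_ne_zero _ hr.ne')
  have hinv : ‖(ι c)⁻¹‖ ≤ ‖P.r‖ := by
    rw [norm_inv, hnorm, ← zpow_neg, neg_neg, zpow_natCast]
    exact pow_le_of_le_one hr.le P.norm_lt.le hd.ne'
  refine ⟨c, hc0, hinv, ?_⟩
  have hb : BddBy 1 (D.ser (1 - algebraMap L F c⁻¹ * u)) := by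
    rw [map_sub, map_one, map_mul, D.ser_algebraMap, map_inv₀]
    refine bddBy_one.sub (((bddBy_C _).mul hu.bddBy).mono ?_)
    rw [mul_one]
    exact hinv.trans P.norm_lt.le
  have h0 : sval P.r (D.ser (1 - algebraMap L F c⁻¹ * u)) = 0 := by
    rw [map_sub, map_one, map_mul, D.ser_algebraMap, sub_eq_add_neg,
      sval_add P.norm_lt (one_mem (bddSubring K) : _) (neg_mem (mul_mem (bdd_C _) hubs) : _ ∈ bddSubring K),
      ← neg_mul, ← map_neg, sval_mul P.ne_zero P.norm_lt (bdd_C _) hubs, sval_C, sval_one,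
      hcu, map_inv₀, neg_mul, inv_mul_cancel₀ ((map_ne_zero ι).2 hc0), add_neg_cancel]
  obtain ⟨y, hy, -, e⟩ := exists_eq_qsub_mul P.ne_zero P.norm_lt hb h0
  exact ⟨y, hy, e⟩

theorem Pt.ser_jsub_unit (P : D.Pt) :
    ∃ w ∈ bddSubring K, w⁻¹ ∈ bddSubring K ∧ w ≠ 0 ∧ D.ser P.jsub = qsub P.r * w := by
  obtain ⟨z, hz, w, hw, hzw, e⟩ := P.exists_units
  refine ⟨w, hw, ?_, right_ne_zero_of_mul_eq_one hzw, ?_⟩
  · rwa [inv_eq_of_mul_eq_one_left hzw]
  · rw [← e, mul_assoc, hzw, mul_one]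

include hPinf in
/-- **Abel's theorem**: formal logarithms of forms vanish on principal divisors of the disc. -/
theorem sum_logSum_eq_zero [CharZero K] (hK : NatNormBound K) {d : ℕ} (hd : 0 < d) {u v : F}
    (huR : u ∈ regularAway Pinf) (hvR : v ∈ regularAway Pinf)
    (hu : HasUnitPole ι (u : LaurentSeries L) d)
    (hv : HasUnitPole ι (v : LaurentSeries L) (2 * d + 1))
    (hgap : ∀ g : F, (∀ n, ‖ι ((g : LaurentSeries L).coeff n)‖ < 1) →
      ∃ δ < 1, ∀ n, ‖ι ((g : LaurentSeries L).coeff n)‖ ≤ δ)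
    {a : ℕ → K} (ha : ∀ n, ‖a n‖ ≤ 1) (ha0 : a 0 = 0)
    (hres : ∀ g ∈ regularAway Pinf,
      ∑' n : ℕ, a n * ι ((g : LaurentSeries L).coeff (-(n : ℤ))) = 0)
    {f : F} (hf : f ≠ 0) (D₀ : D.Pt →₀ ℤ)
    (hdiv : ∀ Q, Q ≠ Pinf → Q.ord f = D₀.mapDomain Pt.place Q)
    (horder : (f : LaurentSeries L).order = -∑ P ∈ D₀.support, D₀ P) :
    ∑ P ∈ D₀.support, (D₀ P : K) * logSum a P.r = 0 := by
  classical
  set s := D₀.support
  have hord_f : ∀ Q : D.Pt, Q.place.ord f = D₀ Q := fun Q => by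
    rw [hdiv _ (Pt.place_ne D hPinf Q), Finsupp.mapDomain_apply Pt.place_injective]
  have hj : ∀ P : D.Pt, P.jsub ≠ 0 := fun P => P.jsub_ne_zero
  -- the function without zeros or poles in the disc
  set h : F := f * ∏ P ∈ s, P.jsub ^ (-D₀ P) with hdef
  have hh0 : h ≠ 0 := mul_ne_zero hf (Finset.prod_ne_zero_iff.2 fun P _ => zpow_ne_zero _ (hj P))
  have hord_h : ∀ Q : D.Pt, Q.place.ord h = 0 := fun Q => by
    rw [hdef, Q.place.ord_mul hf (Finset.prod_ne_zero_iff.2 fun P _ => zpow_ne_zero _ (hj P)),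
      Fermat.Agent.Curve.ord_prod _ _ _ fun P _ => zpow_ne_zero _ (hj P), hord_f,
      Finset.sum_eq_single Q]
    · rw [Q.place.ord_zpow, Q.ord_jsub]; ring
    · intro P _ hne
      rw [Q.place.ord_zpow, Pt.ord_jsub_ne D (Ne.symm hne), mul_zero]
    · intro hQ
      simp [Finsupp.notMem_support_iff.1 hQ]
  have hhb : h ∈ D.bddIn ∧ h⁻¹ ∈ D.bddIn :=
    ⟨D.mem_bddIn_of_forall_ord_nonneg fun Q => (hord_h Q).ge,
      D.mem_bddIn_of_forall_ord_nonneg fun Q => by rw [Q.place.ord_inv, hord_h, neg_zero]⟩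
  choose w hw hwi hw0 hjw using fun P : D.Pt => Pt.ser_jsub_unit D P
  set ep : D.Pt → ℕ := fun P => (D₀ P).toNat
  set en : D.Pt → ℕ := fun P => (-D₀ P).toNat
  set H : LaurentSeries K :=
    D.ser h * ∏ P ∈ s, (HahnSeries.single (1 : ℤ) (1 : K) * w P) ^ D₀ P with hHdef
  have hsingle : ∀ P, HahnSeries.single (1 : ℤ) (1 : K) * w P ≠ 0 := fun P =>
    mul_ne_zero (by simp) (hw0 P)
  have hHne : H ≠ 0 := mul_ne_zero ((map_ne_zero D.ser).2 hh0)
    (Finset.prod_ne_zero_iff.2 fun P _ => zpow_ne_zero _ (hsingle P))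
  have hHb : H ∈ bddSubring K ∧ H⁻¹ ∈ bddSubring K := by
    have hfac : ∀ P, HahnSeries.single (1 : ℤ) (1 : K) * w P ∈ bddSubring K ∧
        (HahnSeries.single (1 : ℤ) (1 : K) * w P)⁻¹ ∈ bddSubring K := fun P => by
      refine ⟨mul_mem (bdd_single _ _) (hw P), ?_⟩
      rw [mul_inv, HahnSeries.inv_single, inv_one]
      exact mul_mem (bdd_single _ _) (hwi P)
    have hz : ∀ P (m : ℤ), (HahnSeries.single (1 : ℤ) (1 : K) * w P) ^ m ∈ bddSubring K := by
      intro P m
      obtain ⟨k, rfl | rfl⟩ := Int.eq_nat_or_neg m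
      · simpa using pow_mem (hfac P).1 k
      · simpa [← inv_pow] using pow_mem (hfac P).2 k
    refine ⟨mul_mem hhb.1 (prod_mem fun P _ => hz P _), ?_⟩
    rw [mul_inv, ← Finset.prod_inv_distrib, ← map_inv₀]
    exact mul_mem hhb.2 (prod_mem fun P _ => by rw [← zpow_neg]; exact hz P _)
  have hmain : D.ser f * ∏ P ∈ s, lam P.r ^ en P = H * ∏ P ∈ s, lam P.r ^ ep P := by
    have hserh : D.ser h = D.ser f * ∏ P ∈ s, (qsub P.r * w P) ^ (-D₀ P) := by
      rw [hdef, map_mul, map_prod]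
      exact congrArg _ (Finset.prod_congr rfl fun P _ => by rw [map_zpow₀, hjw])
    rw [hHdef, hserh, mul_assoc, mul_assoc, ← Finset.prod_mul_distrib, ← Finset.prod_mul_distrib]
    congr 1
    refine Finset.prod_congr rfl fun P _ => ?_
    have hA := hsingle P
    have hl := lam_ne_zero P.r
    rw [qsub_eq_single_mul_lam, mul_right_comm (HahnSeries.single (1 : ℤ) (1 : K)) (lam P.r),
      mul_zpow, ← zpow_natCast, ← zpow_natCast]
    generalize HahnSeries.single (1 : ℤ) (1 : K) * w P = A at hA ⊢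
    rw [show ((ep P : ℕ) : ℤ) = D₀ P + ((en P : ℕ) : ℤ) by simp only [ep, en]; omega, zpow_add₀ hl, zpow_neg, zpow_neg]
    field_simp
  have hHord : H.order = 0 := by
    have h1 := congrArg HahnSeries.order hmain
    rw [HahnSeries.order_mul ((map_ne_zero D.ser).2 hf)
        (Finset.prod_ne_zero_iff.2 fun P _ => pow_ne_zero _ (lam_ne_zero _)),
      HahnSeries.order_mul hHne (Finset.prod_ne_zero_iff.2 fun P _ => pow_ne_zero _ (lam_ne_zero _)),
      order_prod_lam s (fun P _ => P.ne_zero), order_prod_lam s (fun P _ => P.ne_zero),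
      D.ser_apply, order_serK, horder] at h1
    have : ∑ P ∈ s, D₀ P = ∑ P ∈ s, (ep P : ℤ) - ∑ P ∈ s, (en P : ℤ) := by
      rw [← Finset.sum_sub_distrib]
      exact Finset.sum_congr rfl fun P _ => (Int.toNat_sub_toNat_neg _).symm
    omega
  set c := H.coeff 0
  have hc : c ≠ 0 := by
    have := HahnSeries.coeff_order_eq_zero.not.2 hHne
    rwa [hHord] at this
  set H' := HahnSeries.C c⁻¹ * H with hH'
  have hH'co : ∀ n, H'.coeff n = c⁻¹ * H.coeff n := fun n => by
    rw [hH', HahnSeries.C_mul_eq_smul, HahnSeries.coeff_smul, smul_eq_mul]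
  have hHneg : ∀ n < 0, H.coeff n = 0 := fun n hn =>
    HahnSeries.coeff_eq_zero_of_lt_order (by omega)
  have hH'b : BddBy 1 H' := fun n => by
    have hinvord : (H⁻¹).order = 0 := by
      have := HahnSeries.order_mul hHne (inv_ne_zero hHne)
      rw [mul_inv_cancel₀ hHne, HahnSeries.order_one, hHord] at this
      omega
    have := norm_coeff_le_coeff_zero hHb.1 hHb.2 (mul_inv_cancel₀ hHne) hHneg
      (fun m hm => HahnSeries.coeff_eq_zero_of_lt_order (by omega)) n
    rw [hH'co, norm_mul, norm_inv, inv_mul_le_one₀ (norm_pos_iff.2 hc)]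
    exact this
  -- the bound
  obtain ⟨δ₀, hδ₀0, hδ₀1, hδ₀⟩ : ∃ δ : ℝ, 0 ≤ δ ∧ δ < 1 ∧ ∀ P ∈ s, ‖P.r‖ ≤ δ := by
    set T := insert (0 : ℝ) (s.image fun P => ‖P.r‖)
    refine ⟨T.max' ⟨0, Finset.mem_insert_self _ _⟩, T.le_max' _ (Finset.mem_insert_self _ _), ?_,
      fun P hP => T.le_max' _ (Finset.mem_insert_of_mem (Finset.mem_image_of_mem _ hP))⟩
    refine (Finset.max'_lt_iff _ _).2 ?_
    simp only [T, Finset.mem_insert, Finset.mem_image, forall_eq_or_imp, forall_exists_index,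
      and_imp]
    exact ⟨one_pos, fun x P _ hx => hx ▸ P.norm_lt⟩
  choose cv hcv0 hcvn y hy hyser using fun P : D.Pt => Pt.exists_value D P hd hu
  set lu : D.Pt → F := fun P => 1 - algebraMap L F (cv P)⁻¹ * u
  have hluR : ∀ P, lu P ∈ regularAway Pinf := fun P =>
    sub_mem (one_mem _) (mul_mem (algebraMap_mem_regularAway _ _) huR)
  have hlu : ∀ P ∈ s, Near δ₀ (D.ser (lu P)) := fun P hP => by
    show BddBy δ₀ (D.ser (lu P) - 1)
    rw [map_sub, map_one, map_mul, D.ser_algebraMap, map_inv₀, sub_sub_cancel_left]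
    exact (((bddBy_C _).mul hu.bddBy).mono (by rw [mul_one]; exact (hcvn P).trans (hδ₀ P hP))).neg
  set g1 : F := f * ∏ P ∈ s, lu P ^ en P with hg1
  set g2 : F := ∏ P ∈ s, lu P ^ en P with hg2
  set Y := ∏ P ∈ s, (HahnSeries.single (1 : ℤ) (1 : K) * y P) ^ en P
  set Pp := ∏ P ∈ s, lam P.r ^ ep P
  set Pn := ∏ P ∈ s, lam P.r ^ en P
  set X := HahnSeries.C c⁻¹ * D.ser g1 with hX
  have hXeq : X = H' * Pp * Y := by
    have : D.ser g2 = Pn * Y := by
      simp only [hg2, map_prod, map_pow, lu, hyser, Pn, Y, ← Finset.prod_mul_distrib, ← mul_pow,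
        qsub_eq_single_mul_lam]
      exact Finset.prod_congr rfl fun P _ => by ring
    rw [hX, hg1, map_mul, this, hH', ← mul_assoc (D.ser f) Pn, hmain]
    ring
  have hXg2 : X * Pn = D.ser g2 * Pp * H' := by
    rw [hX, hg1, map_mul, hH']
    linear_combination HahnSeries.C c⁻¹ * D.ser g2 * hmain
  have hXb : BddBy 1 X := by
    rw [hXeq]
    have hPp : BddBy 1 Pp := (Near.prod hδ₀0 hδ₀1.le s fun P hP =>
      Near.pow hδ₀0 hδ₀1.le (near_lam (hδ₀ P hP)) _).bddBy hδ₀1.le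
    have hY : BddBy 1 Y := bddBy_prod _ fun P _ => by
      simpa using ((bddBy_single (K := K) 1 1).mul (hy P)).pow (en P)
    simpa using (hH'b.mul hPp).mul hY
  have nPp : Near δ₀ Pp := Near.prod hδ₀0 hδ₀1.le s fun P hP =>
    Near.pow hδ₀0 hδ₀1.le (near_lam (hδ₀ P hP)) _
  have nPn : Near δ₀ Pn := Near.prod hδ₀0 hδ₀1.le s fun P hP =>
    Near.pow hδ₀0 hδ₀1.le (near_lam (hδ₀ P hP)) _
  have ng2 : Near δ₀ (D.ser g2) := by
    rw [hg2, map_prod]
    exact Near.prod hδ₀0 hδ₀1.le s fun P hP => by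
      rw [map_pow]; exact Near.pow hδ₀0 hδ₀1.le (hlu P hP) _
  have hXH : BddBy δ₀ (X - H') := by
    have h1 : X - H' = (D.ser g2 * Pp - 1) * H' - X * (Pn - 1) := by linear_combination hXg2
    rw [h1]
    have hnm : BddBy δ₀ (D.ser g2 * Pp - 1) := ng2.mul nPp hδ₀1.le
    exact ((hnm.mul hH'b).mono (by simp)).sub
      ((hXb.mul (nPn : BddBy δ₀ _)).mono (by simp))
  have hX0 : ‖X.coeff 0 - 1‖ ≤ δ₀ := by
    have := hXH 0
    rwa [HahnSeries.coeff_sub, hH'co, inv_mul_cancel₀ hc] at this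
  have hX0n : ‖X.coeff 0‖ = 1 := by
    have hlt : ‖X.coeff 0 - 1‖ < ‖(1 : K)‖ := by rw [norm_one]; exact hX0.trans_lt hδ₀1
    rw [← sub_add_cancel (X.coeff 0) 1, IsUltrametricDist.norm_add_eq_max_of_norm_ne_norm hlt.ne,
      max_eq_right hlt.le, norm_one]
  have hluz : ∀ P, lu P ≠ 0 := fun P h0 => by
    have hd0 : -(d : ℤ) ≠ 0 := by omega
    have h1 : D.ser (lu P) = 0 := by rw [h0, map_zero]
    rw [map_sub, map_one, map_mul, D.ser_algebraMap, HahnSeries.C_mul_eq_smul] at h1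
    have h2 := congrArg (fun x : LaurentSeries K => x.coeff (-(d : ℤ))) h1
    simp [HahnSeries.coeff_one, hd0, coeffMap_coeff, hu.coeff_eq] at h2
    exact hcv0 P (by simpa [map_eq_zero_iff ι ι.injective] using h2)
  have hg1R : g1 ∈ regularAway Pinf := mem_regularAway_iff.2 fun Q hQ => by
    have hnn : ∀ P, 0 ≤ Q.ord (lu P) := fun P => mem_regularAway_iff.1 (hluR P) Q hQ
    have hpn : ∀ P ∈ s, lu P ^ en P ≠ 0 := fun P _ => pow_ne_zero _ (hluz P)
    rw [hg1, Q.ord_mul hf (Finset.prod_ne_zero_iff.2 hpn), hdiv Q hQ,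
      Fermat.Agent.Curve.ord_prod _ _ _ hpn]
    simp only [Fermat.Agent.Curve.ord_pow]
    by_cases hQs : Q ∈ s.image Pt.place
    · obtain ⟨P, hP, rfl⟩ := Finset.mem_image.1 hQs
      rw [Finsupp.mapDomain_apply Pt.place_injective]
      have h1 : 0 < P.place.ord (lu P) := (P.sval_eq_zero_iff (g := lu P)
        (sub_mem (one_mem _) (mul_mem (D.algebraMap_mem_bddIn _) (show u ∈ D.bddIn from ⟨1, hu.bddBy⟩)))
        (hluz P)).1 (by
          rw [hyser P, sval_mul P.ne_zero P.norm_lt (bdd_qsub _) ⟨1, hy P⟩, sval_qsub P.norm_lt,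
            sub_self, zero_mul])
      have h2 : (en P : ℤ) ≤ ∑ R ∈ s, (en R : ℤ) * P.place.ord (lu R) :=
        (le_mul_of_one_le_right (by positivity) h1).trans
          (Finset.single_le_sum (fun R _ => mul_nonneg (by positivity) (hnn R)) hP)
      have h3 : en P = (-D₀ P).toNat := rfl
      omega
    · rw [Finsupp.notMem_support_iff.1 fun hm => hQs (Finsupp.mapDomain_support hm), zero_add]
      exact Finset.sum_nonneg fun R _ => mul_nonneg (by positivity) (hnn R)
  -- the normalised function and its reduction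
  set e₀ : L := (g1 : LaurentSeries L).coeff 0
  have he₀ : ι e₀ = c * X.coeff 0 := by
    rw [hX, HahnSeries.C_mul_eq_smul, HahnSeries.coeff_smul, smul_eq_mul, ← mul_assoc,
      mul_inv_cancel₀ hc, one_mul, D.ser_apply, coeffMap_coeff]
  set G : F := algebraMap L F e₀⁻¹ * g1
  have hGR : G ∈ regularAway Pinf := mul_mem (algebraMap_mem_regularAway _ _) hg1R
  set μ : K := (X.coeff 0)⁻¹
  have hμn : ‖μ‖ = 1 := by rw [norm_inv, hX0n, inv_one]
  have hGser : D.ser G = HahnSeries.C μ * X := by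
    rw [map_mul, D.ser_algebraMap, map_inv₀, he₀, hX, ← mul_assoc, ← map_mul, mul_inv]
    congr 2
    ring
  have hGco : ∀ n, ι ((G : LaurentSeries L).coeff n) = μ * X.coeff n := fun n => by
    rw [← coeffMap_coeff, ← smul_eq_mul, ← HahnSeries.coeff_smul, ← HahnSeries.C_mul_eq_smul,
      ← hGser, D.ser_apply]
  have hGb : BddBy 1 (serK ι (G : LaurentSeries L)) := fun n => by
    rw [coeffMap_coeff, hGco, norm_mul, hμn, one_mul]; exact hXb n
  have hGneg : ∀ n < 0, ‖ι ((G : LaurentSeries L).coeff n)‖ < 1 := fun n hn => by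
    have := hXH n
    rw [HahnSeries.coeff_sub, hH'co, hHneg n hn, mul_zero, sub_zero] at this
    rw [hGco, norm_mul, hμn, one_mul]
    exact this.trans_lt hδ₀1
  obtain ⟨δ₁, hδ₁1, hδ₁⟩ := hgap (G - 1) fun n => by
    have hco : ι (((G - 1 : F) : LaurentSeries L).coeff n) =
        ι ((G : LaurentSeries L).coeff n) - if n = 0 then 1 else 0 := by
      simp [HahnSeries.coeff_one, apply_ite ι]
    rw [hco]
    rcases lt_trichotomy n 0 with hn | rfl | hn
    · simpa [hn.ne] using hGneg n hn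
    · have hX0' : X.coeff 0 ≠ 0 := norm_pos_iff.1 (by rw [hX0n]; exact one_pos)
      simp [hGco, μ, hX0']
    · simpa [hn.ne'] using norm_coeff_lt_one_of_pos ι (regularAway Pinf)
        (algebraMap_mem_regularAway Pinf) (fun g hg => eq_zero_of_regularAway hPinf hg) hd huR hvR
        hu hv hGR hGb hGneg hn
  set δ := max δ₀ δ₁
  have hδ0 : 0 ≤ δ := hδ₀0.trans (le_max_left _ _)
  have hδ1 : δ < 1 := max_lt hδ₀1 hδ₁1
  have nG : Near δ (D.ser G) := by
    show BddBy δ (D.ser G - 1)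
    rw [← map_one D.ser, ← map_sub]
    exact fun n => by rw [D.ser_apply, coeffMap_coeff]; exact (hδ₁ n).trans (le_max_right _ _)
  set H'' := HahnSeries.C μ * H'
  have nH : Near δ H'' := by
    show BddBy δ (H'' - 1)
    have : H'' - 1 = (D.ser G - 1) - HahnSeries.C μ * (X - H') := by rw [hGser]; ring
    rw [this]
    exact (nG : BddBy δ _).sub (((bddBy_C μ).mul hXH).mono
      (by rw [hμn, one_mul]; exact le_max_left _ _))
  have hkey : D.ser G * Pn = D.ser g2 * Pp * H'' := by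
    rw [hGser, mul_assoc, hXg2]; ring
  have mono : ∀ {x : LaurentSeries K}, Near δ₀ x → Near δ x :=
    fun hx => BddBy.mono hx (le_max_left _ _)
  have hps := congrArg (pairing a) hkey
  rw [pairing_mul hK hδ0 hδ1 ha ha0 nG (mono nPn),
    pairing_mul hK hδ0 hδ1 ha ha0 ((mono ng2).mul (mono nPp) hδ1.le) nH,
    pairing_mul hK hδ0 hδ1 ha ha0 (mono ng2) (mono nPp)] at hps
  have hR2 : ∀ g ∈ regularAway Pinf, Near δ (D.ser g) → pairing a (D.ser g) = 0 := by
    intro g hg hn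
    refine pairing_eq_zero_of_forall hK hδ0 hδ1 ha hn fun j => ?_
    rw [show (1 - D.ser g) ^ (j + 1) = D.ser ((1 - g) ^ (j + 1)) by simp]
    simp only [D.ser_apply, coeffMap_coeff]
    exact hres _ (pow_mem (sub_mem (one_mem _) hg) (j + 1))
  have hlam : ∀ e : D.Pt → ℕ, pairing a (∏ P ∈ s, lam P.r ^ e P) =
      -∑ P ∈ s, (e P : K) * logSum a P.r := by
    intro e
    rw [pairing_prod hK hδ0 hδ1 ha ha0 s fun P hP =>
      Near.pow hδ0 hδ1.le (near_lam ((hδ₀ P hP).trans (le_max_left _ _))) _, ← Finset.sum_neg_distrib]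
    refine Finset.sum_congr rfl fun P hP => ?_
    rw [pairing_pow hK hδ0 hδ1 ha ha0 (near_lam ((hδ₀ P hP).trans (le_max_left _ _))),
      lam, pairing_linear ha0, mul_neg]
  have hH0 : pairing a H'' = 0 := pairing_eq_zero_of_coeff_neg ha0 fun n hn => by
    simp [H'', hH', HahnSeries.coeff_one, hn.ne, HahnSeries.C_mul_eq_smul, hHneg n hn]
  rw [hR2 G hGR nG, hR2 g2 (prod_mem fun P _ => pow_mem (hluR P) _) (mono ng2), hH0, hlam, hlam,
    zero_add, zero_add, add_zero, neg_inj] at hps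
  rw [show (∑ P ∈ s, (D₀ P : K) * logSum a P.r) =
    ∑ P ∈ s, (ep P : K) * logSum a P.r - ∑ P ∈ s, (en P : K) * logSum a P.r from ?_, hps, sub_self]
  rw [← Finset.sum_sub_distrib]
  refine Finset.sum_congr rfl fun P _ => ?_
  rw [← sub_mul]
  congr 1
  exact_mod_cast (Int.toNat_sub_toNat_neg (D₀ P)).symm

end DiscData

end Fermat.Agent.Mazur.Immersion
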