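import Fermat.Agent.Mazur.Immersion.Poles
import Fermat.Agent.Curve.Places
import Mathlib.Algebra.Polynomial.Splits
import Mathlib.FieldTheory.IsAlgClosed.Basic

/-!
# Places attached to points of the punctured disc

For a point `r` of the punctured disc with `J(r) ∈ ι(L)`, evaluation at `r` on the functions with
bounded expansions extends to a place of the function field, where `j - J(r)` is a uniformiser.
A function that is regular at all these places has a bounded expansion.
-/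

set_option autoImplicit false

noncomputable section

open ModularCurve AlgebraicCurve

namespace Fermat.Agent.Mazur.Immersion

variable {L : Type*} [Field L] {K : Type*} [NormedField K] [IsUltrametricDist K]
  {F : IntermediateField L (LaurentSeries L)}

/-- A function field inside `L((q))` with a distinguished `j` having an integral expansion over
`K`, such that every function is bounded up to a denominator in `L[j]`. -/
structure DiscData (ι : L →+* K) (F : IntermediateField L (LaurentSeries L)) where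
  jF : F
  isJ : IsJSeries (serK ι (jF : LaurentSeries L))
  frac : ∀ f : F, ∃ A : F, Bdd (serK ι (A : LaurentSeries L)) ∧
    ∃ B : Polynomial L, Polynomial.aeval jF B ≠ 0 ∧ f * Polynomial.aeval jF B = A

namespace DiscData

variable {ι : L →+* K} (D : DiscData ι F)

/-- The expansion over `K`. -/
def ser (_D : DiscData ι F) : F →+* LaurentSeries K := (coeffMap ι).comp F.val.toRingHom

@[simp] theorem ser_apply (g : F) : D.ser g = serK ι (g : LaurentSeries L) := rfl

theorem ser_injective : Function.Injective D.ser := RingHom.injective _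

theorem ser_algebraMap (c : L) : D.ser (algebraMap L F c) = HahnSeries.C (ι c) := by
  show coeffMap ι (algebraMap L (LaurentSeries L) c) = _
  rw [algebraMap_laurentSeries_eq_single, coeffMap_single, HahnSeries.C_apply]

theorem isJ_ser : IsJSeries (D.ser D.jF) := D.isJ

/-- Functions with bounded expansion. -/
def bddIn : Subring F := (bddSubring K).comap D.ser

theorem mem_bddIn {g : F} : g ∈ D.bddIn ↔ D.ser g ∈ bddSubring K := Iff.rfl

theorem algebraMap_mem_bddIn (c : L) : algebraMap L F c ∈ D.bddIn := by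
  rw [mem_bddIn, ser_algebraMap]; exact bdd_C _

theorem jF_mem_bddIn : D.jF ∈ D.bddIn := D.isJ.bdd

theorem aeval_jF_mem_bddIn (B : Polynomial L) : Polynomial.aeval D.jF B ∈ D.bddIn := by
  rw [Polynomial.aeval_eq_sum_range]
  exact sum_mem fun i _ => by
    rw [Algebra.smul_def]
    exact mul_mem (D.algebraMap_mem_bddIn _) (pow_mem D.jF_mem_bddIn i)

/-- A point of the punctured disc with `J(r)` in `L`. -/
structure Pt (D : DiscData ι F) where
  r : K
  ne_zero : r ≠ 0
  norm_lt : ‖r‖ < 1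
  a : L
  sval_eq : sval r (D.ser D.jF) = ι a

variable {D}

theorem Pt.ext_r {P Q : D.Pt} (h : P.r = Q.r) : P = Q := by
  have := P.sval_eq.symm.trans (h ▸ Q.sval_eq)
  cases P; cases Q
  simp only at h this
  subst h
  obtain rfl := ι.injective this
  rfl

variable [CompleteSpace K]

theorem Pt.eq_of_a_eq {P Q : D.Pt} (h : P.a = Q.a) : P = Q :=
  Pt.ext_r <| D.isJ_ser.eq_of_sval_eq P.ne_zero Q.ne_zero P.norm_lt Q.norm_lt
    (by rw [P.sval_eq, Q.sval_eq, h])

theorem one_lt_norm_a (P : D.Pt) : 1 < ‖ι P.a‖ := by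
  rw [← P.sval_eq, D.isJ_ser.norm_sval P.ne_zero P.norm_lt]
  exact (one_lt_inv₀ (norm_pos_iff.2 P.ne_zero)).2 P.norm_lt

variable (D) in
theorem exists_pt_of_one_lt_norm {a : L} (ha : 1 < ‖ι a‖) : ∃ P : D.Pt, P.a = a := by
  obtain ⟨r, -, hr0, hr, h⟩ := D.isJ_ser.exists_sval_eq Set.univ isClosed_univ
    (fun _ _ _ _ => trivial) (fun _ _ _ _ => trivial) (fun _ _ => trivial) (fun _ _ => trivial)
    trivial trivial (fun _ => trivial) ha trivial
  exact ⟨⟨r, hr0, hr, a, h⟩, rfl⟩

/-- `j - J(r)`. -/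
def Pt.jsub (P : D.Pt) : F := D.jF - algebraMap L F P.a

theorem Pt.jsub_mem (P : D.Pt) : P.jsub ∈ D.bddIn :=
  sub_mem D.jF_mem_bddIn (D.algebraMap_mem_bddIn _)

/-- Evaluation at the point. -/
def Pt.eval (P : D.Pt) : D.bddIn →+* K :=
  (svalHom P.ne_zero P.norm_lt).comp
    ((D.ser.comp D.bddIn.subtype).codRestrict (bddSubring K) fun g => g.2)

theorem Pt.eval_apply (P : D.Pt) (g : D.bddIn) : P.eval g = sval P.r (D.ser g.1) := rfl

theorem Pt.sval_jsub (P : D.Pt) : sval P.r (D.ser P.jsub) = 0 := by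
  rw [Pt.jsub, map_sub, D.ser_algebraMap, sub_eq_add_neg,
    sval_add P.norm_lt D.isJ_ser.bdd (neg_mem (bdd_C _) : _ ∈ bddSubring K), ← map_neg, sval_C,
    P.sval_eq, add_neg_cancel]

theorem Pt.exists_units (P : D.Pt) : ∃ z ∈ bddSubring K, ∃ w ∈ bddSubring K, z * w = 1 ∧
    D.ser P.jsub * z = qsub P.r := by
  obtain ⟨z, hz, e, w, hw, hzw⟩ := D.isJ_ser.exists_qsub_eq_mul P.ne_zero P.norm_lt
  refine ⟨z, hz, w, hw, hzw, ?_⟩
  rw [Pt.jsub, map_sub, D.ser_algebraMap, ← P.sval_eq, e]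

theorem Pt.jsub_ne_zero (P : D.Pt) : P.jsub ≠ 0 := by
  obtain ⟨z, -, w, -, -, e⟩ := P.exists_units
  intro h
  rw [h, map_zero, zero_mul] at e
  exact qsub_ne_zero P.r e.symm

/-- Every nonzero bounded function is a power of `j - J(r)` times one nonvanishing at `r`. -/
theorem Pt.exists_eq_pow_mul (P : D.Pt) {g : F} (hg : g ∈ D.bddIn) (h0 : g ≠ 0) :
    ∃ (m : ℕ) (g' : F), g' ∈ D.bddIn ∧ sval P.r (D.ser g') ≠ 0 ∧ g = P.jsub ^ m * g' := by
  obtain ⟨C, hC⟩ := hg
  obtain ⟨m, y, hy, e, hne⟩ := exists_eq_qsub_pow_mul P.ne_zero P.norm_lt hC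
    ((map_ne_zero D.ser).2 h0)
  obtain ⟨z, hz, w, hw, hzw, ez⟩ := P.exists_units
  refine ⟨m, g / P.jsub ^ m, ?_, ?_, by field_simp [pow_ne_zero m P.jsub_ne_zero]⟩
  all_goals
    have hser : D.ser (g / P.jsub ^ m) = z ^ m * y := by
      rw [map_div₀, map_pow, e, ← ez, mul_pow, mul_assoc,
        mul_div_cancel_left₀ _ (pow_ne_zero m ((map_ne_zero D.ser).2 P.jsub_ne_zero))]
  · rw [mem_bddIn, hser]; exact mul_mem (pow_mem hz m) ⟨_, hy⟩
  · have hz0 : sval P.r z ≠ 0 := fun h => by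
      have := congrArg (sval P.r) hzw
      rw [sval_mul P.ne_zero P.norm_lt hz hw, h, zero_mul, sval_one] at this
      exact zero_ne_one this
    have hpow : sval P.r (z ^ m) = sval P.r z ^ m :=
      map_pow (svalHom P.ne_zero P.norm_lt) ⟨z, hz⟩ m
    rw [hser, sval_mul P.ne_zero P.norm_lt (pow_mem hz m) ⟨_, hy⟩, hpow]
    exact mul_ne_zero (pow_ne_zero m hz0) hne

/-- Every nonzero function is a power of `j - J(r)` times a unit at `r`. -/
theorem Pt.exists_eq_zpow_mul (P : D.Pt) {f : F} (hf : f ≠ 0) :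
    ∃ (k : ℤ) (g h : F), g ∈ D.bddIn ∧ h ∈ D.bddIn ∧ sval P.r (D.ser g) ≠ 0 ∧
      sval P.r (D.ser h) ≠ 0 ∧ f * h = P.jsub ^ k * g := by
  obtain ⟨A, hA, B, hB0, e⟩ := D.frac f
  have hA0 : A ≠ 0 := e ▸ mul_ne_zero hf hB0
  obtain ⟨m, g, hg, hg0, rfl⟩ := P.exists_eq_pow_mul (show A ∈ D.bddIn from hA) hA0
  obtain ⟨n, h, hh, hh0, eh⟩ := P.exists_eq_pow_mul (D.aeval_jF_mem_bddIn B) hB0
  refine ⟨(m : ℤ) - n, g, h, hg, hh, hg0, hh0, ?_⟩
  rw [eh] at e
  have hj := P.jsub_ne_zero
  rw [zpow_sub₀ hj, zpow_natCast, zpow_natCast, div_mul_eq_mul_div, ← e]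
  field_simp

/-- The functions regular at the point. -/
def Pt.regular (P : D.Pt) : ValuationSubring F where
  carrier := {f | ∃ g h, g ∈ D.bddIn ∧ h ∈ D.bddIn ∧ sval P.r (D.ser h) ≠ 0 ∧ f * h = g}
  zero_mem' := ⟨0, 1, zero_mem _, one_mem _, by simp, by simp⟩
  one_mem' := ⟨1, 1, one_mem _, one_mem _, by simp, by simp⟩
  neg_mem' := fun ⟨g, h, hg, hh, h0, e⟩ => ⟨-g, h, neg_mem hg, hh, h0, by simp [← e]⟩
  add_mem' := fun ⟨g, h, hg, hh, h0, e⟩ ⟨g', h', hg', hh', h0', e'⟩ =>
    ⟨g * h' + g' * h, h * h', add_mem (mul_mem hg hh') (mul_mem hg' hh), mul_mem hh hh', by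
      rw [map_mul, sval_mul P.ne_zero P.norm_lt hh hh']; exact mul_ne_zero h0 h0', by
      rw [← e, ← e']; ring⟩
  mul_mem' := fun ⟨g, h, hg, hh, h0, e⟩ ⟨g', h', hg', hh', h0', e'⟩ =>
    ⟨g * g', h * h', mul_mem hg hg', mul_mem hh hh', by
      rw [map_mul, sval_mul P.ne_zero P.norm_lt hh hh']; exact mul_ne_zero h0 h0', by
      rw [← e, ← e']; ring⟩
  mem_or_inv_mem' := fun f => by
    rcases eq_or_ne f 0 with rfl | hf
    · exact Or.inl ⟨0, 1, zero_mem _, one_mem _, by simp, by simp⟩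
    obtain ⟨k, g, h, hg, hh, hg0, hh0, e⟩ := P.exists_eq_zpow_mul hf
    obtain ⟨n, rfl | rfl⟩ := Int.eq_nat_or_neg k
    · exact Or.inl ⟨_, h, mul_mem (pow_mem P.jsub_mem n) hg, hh, hh0, by rw [e, zpow_natCast]⟩
    · refine Or.inr ⟨_, g, mul_mem (pow_mem P.jsub_mem n) hh, hg, hg0, ?_⟩
      have hj := pow_ne_zero n P.jsub_ne_zero
      rw [zpow_neg, zpow_natCast] at e
      field_simp at e ⊢
      linear_combination -e

theorem Pt.mem_regular (P : D.Pt) {g : F} (hg : g ∈ D.bddIn) : g ∈ P.regular :=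
  ⟨g, 1, hg, one_mem _, by simp, by simp⟩

theorem Pt.inv_mem_regular (P : D.Pt) {g : F} (hg : g ∈ D.bddIn) (h0 : sval P.r (D.ser g) ≠ 0) :
    g⁻¹ ∈ P.regular := by
  have : g ≠ 0 := fun h => h0 (by rw [h, map_zero, sval_zero])
  exact ⟨1, g, one_mem _, hg, h0, inv_mul_cancel₀ this⟩

theorem Pt.inv_jsub_notMem_regular (P : D.Pt) : P.jsub⁻¹ ∉ P.regular := by
  rintro ⟨g, h, hg, hh, h0, e⟩
  apply h0
  rw [inv_mul_eq_iff_eq_mul₀ P.jsub_ne_zero] at e
  rw [e, map_mul, sval_mul P.ne_zero P.norm_lt P.jsub_mem hg, P.sval_jsub, zero_mul]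

variable [Fermat.Agent.Curve.IsFunctionField1 L F]

/-- The place attached to the point. -/
def Pt.place (P : D.Pt) : Place L F :=
  Fermat.Agent.Curve.placeOfValuationSubring P.regular
    (fun c => P.mem_regular (D.algebraMap_mem_bddIn c))
    (fun h => P.inv_jsub_notMem_regular (h ▸ ValuationSubring.mem_top _))

theorem Pt.ord_nonneg (P : D.Pt) {g : F} (hg : g ∈ D.bddIn) : 0 ≤ P.place.ord g :=
  Fermat.Agent.Curve.ord_nonneg_of_mem P.place (P.mem_regular hg)

theorem Pt.ord_eq_zero (P : D.Pt) {g : F} (hg : g ∈ D.bddIn) (h0 : sval P.r (D.ser g) ≠ 0) :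
    P.place.ord g = 0 := by
  have h1 := P.ord_nonneg hg
  have h2 := Fermat.Agent.Curve.ord_nonneg_of_mem P.place
    (show g⁻¹ ∈ P.place.toValuationSubring from P.inv_mem_regular hg h0)
  rw [P.place.ord_inv] at h2
  omega

theorem Pt.ord_zpow_mul (P : D.Pt) {f g h : F} {k : ℤ} (hg : g ∈ D.bddIn) (hh : h ∈ D.bddIn)
    (hg0 : sval P.r (D.ser g) ≠ 0) (hh0 : sval P.r (D.ser h) ≠ 0)
    (e : f * h = P.jsub ^ k * g) : P.place.ord f = k * P.place.ord P.jsub := by
  have hgne : g ≠ 0 := fun h => hg0 (by rw [h, map_zero, sval_zero])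
  have hhne : h ≠ 0 := fun h => hh0 (by rw [h, map_zero, sval_zero])
  have hj := zpow_ne_zero k P.jsub_ne_zero
  have hfne : f ≠ 0 := fun hf => by rw [hf, zero_mul] at e; exact mul_ne_zero hj hgne e.symm
  have := congrArg P.place.ord e
  rw [P.place.ord_mul hfne hhne, P.place.ord_mul hj hgne, P.place.ord_zpow, P.ord_eq_zero hg hg0,
    P.ord_eq_zero hh hh0] at this
  omega

/-- `j - J(r)` is a uniformiser. -/
theorem Pt.ord_jsub (P : D.Pt) : P.place.ord P.jsub = 1 := by
  obtain ⟨t, ht0, ht⟩ := Fermat.Agent.Curve.exists_uniformizer P.place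
  obtain ⟨k, g, h, hg, hh, hg0, hh0, e⟩ := P.exists_eq_zpow_mul ht0
  have h1 := P.ord_zpow_mul hg hh hg0 hh0 e
  rw [ht] at h1
  have h2 : 0 ≤ P.place.ord P.jsub := P.ord_nonneg P.jsub_mem
  rcases Int.eq_one_or_neg_one_of_mul_eq_one (show P.place.ord P.jsub * k = 1 by linarith) with
    h3 | h3
  · exact h3
  · omega

theorem Pt.ord_eq (P : D.Pt) {f g h : F} {k : ℤ} (hg : g ∈ D.bddIn) (hh : h ∈ D.bddIn)
    (hg0 : sval P.r (D.ser g) ≠ 0) (hh0 : sval P.r (D.ser h) ≠ 0)
    (e : f * h = P.jsub ^ k * g) : P.place.ord f = k := by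
  rw [P.ord_zpow_mul hg hh hg0 hh0 e, P.ord_jsub, mul_one]

theorem Pt.sval_eq_zero_iff (P : D.Pt) {g : F} (hg : g ∈ D.bddIn) (h0 : g ≠ 0) :
    sval P.r (D.ser g) = 0 ↔ 0 < P.place.ord g := by
  refine ⟨fun h => ?_, fun h => by_contra fun hne => ?_⟩
  · obtain ⟨m, g', hg', hg0', e⟩ := P.exists_eq_pow_mul hg h0
    have := P.ord_eq (f := g) (k := m) hg' (one_mem _) hg0' (by simp) (by simp [e])
    rw [this]
    rcases m.eq_zero_or_pos with rfl | hm
    · simp only [pow_zero, one_mul] at e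
      exact absurd (e ▸ h) hg0'
    · exact_mod_cast hm
  · rw [P.ord_eq_zero hg hne] at h
    exact lt_irrefl 0 h

theorem Pt.place_injective : Function.Injective (Pt.place (D := D)) := fun P Q h => by
  apply Pt.eq_of_a_eq
  by_contra hne
  have h1 : 0 < P.place.ord P.jsub := by rw [P.ord_jsub]; exact one_pos
  have h2 : 0 < P.place.ord Q.jsub := by rw [h, Q.ord_jsub]; exact one_pos
  have hc : P.jsub - Q.jsub = algebraMap L F (Q.a - P.a) := by simp [Pt.jsub]
  have hc0 : P.jsub - Q.jsub ≠ 0 := by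
    rw [hc, ne_eq, map_eq_zero]; exact sub_ne_zero.2 (Ne.symm hne)
  have := Fermat.Agent.Curve.min_ord_le_ord_add P.place (f := P.jsub) (g := -Q.jsub)
    (by rwa [← sub_eq_add_neg])
  rw [← sub_eq_add_neg, Fermat.Agent.Curve.ord_neg, hc, Fermat.Agent.Curve.ord_algebraMap] at this
  omega

variable (D) in
/-- A function regular at every disc place has bounded expansion. -/
theorem mem_bddIn_of_forall_ord_nonneg [IsAlgClosed L] {f : F}
    (hf : ∀ P : D.Pt, 0 ≤ P.place.ord f) : f ∈ D.bddIn := by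
  classical
  obtain ⟨A, hA, B, hB0, e⟩ := D.frac f
  replace hA : A ∈ D.bddIn := hA
  have hB : B ≠ 0 := fun h => hB0 (by simp [h])
  have hsplit := (IsAlgClosed.splits B).eq_prod_roots
  have key : ∀ (s : Multiset L) (g : F), (∀ P : D.Pt, 0 ≤ P.place.ord g) →
      g * (s.map fun β => D.jF - algebraMap L F β).prod ∈ D.bddIn → g ∈ D.bddIn := by
    intro s
    induction s using Multiset.induction_on with
    | empty => intro g _ hg; simpa using hg
    | cons β s ih =>
      intro g hreg hg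
      refine ih g hreg ?_
      obtain ⟨g', hg'⟩ : ∃ g', g' = g * (s.map fun β => D.jF - algebraMap L F β).prod := ⟨_, rfl⟩
      rw [← hg']
      have hg'β : g' * (D.jF - algebraMap L F β) ∈ D.bddIn := by
        rw [hg']
        simpa [mul_comm, mul_assoc, mul_left_comm] using hg
      rcases le_or_gt ‖ι β‖ 1 with hβ | hβ
      · obtain ⟨z, hz, ez⟩ := D.isJ_ser.exists_inv_of_norm_le_one hβ
        have : D.ser g' = D.ser (g' * (D.jF - algebraMap L F β)) * z := by
          rw [map_mul, map_sub, D.ser_algebraMap, mul_assoc, ez, mul_one]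
        rw [mem_bddIn, this]
        exact mul_mem hg'β hz
      · obtain ⟨P, rfl⟩ := D.exists_pt_of_one_lt_norm hβ
        rcases eq_or_ne g' 0 with h0 | h0
        · rw [h0]; exact zero_mem _
        have hreg' : 0 ≤ P.place.ord g' := by
          rw [hg']
          exact Fermat.Agent.Curve.ord_nonneg_of_mem P.place (mul_mem
            (Fermat.Agent.Curve.mem_of_ord_nonneg P.place (hreg P))
            (P.mem_regular (multiset_prod_mem _ fun x hx => by
              obtain ⟨γ, -, rfl⟩ := Multiset.mem_map.1 hx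
              exact sub_mem D.jF_mem_bddIn (D.algebraMap_mem_bddIn γ))))
        change g' * P.jsub ∈ D.bddIn at hg'β
        have hz0 : sval P.r (D.ser (g' * P.jsub)) = 0 := by
          refine (P.sval_eq_zero_iff hg'β (mul_ne_zero h0 P.jsub_ne_zero)).2 ?_
          rw [P.place.ord_mul h0 P.jsub_ne_zero, P.ord_jsub]
          omega
        obtain ⟨C, hC⟩ := hg'β
        obtain ⟨y, hy, -, ey⟩ := exists_eq_qsub_mul P.ne_zero P.norm_lt hC hz0
        obtain ⟨z, hz, w, -, -, ez⟩ := P.exists_units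
        have : D.ser g' = z * y := by
          apply mul_left_cancel₀ ((map_ne_zero D.ser).2 P.jsub_ne_zero)
          rw [← mul_assoc, ez, ← ey, map_mul, mul_comm]
        rw [mem_bddIn, this]
        exact mul_mem hz ⟨_, hy⟩
  refine key B.roots f hf ?_
  have hlc : B.leadingCoeff ≠ 0 := Polynomial.leadingCoeff_ne_zero.2 hB
  have eB : Polynomial.aeval D.jF B = algebraMap L F B.leadingCoeff *
      (B.roots.map fun β => D.jF - algebraMap L F β).prod := by
    conv_lhs => rw [hsplit]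
    rw [map_mul, Polynomial.aeval_C, map_multiset_prod, Multiset.map_map]
    simp only [Function.comp_def, map_sub, Polynomial.aeval_X, Polynomial.aeval_C]
  have : f * (B.roots.map fun β => D.jF - algebraMap L F β).prod =
      algebraMap L F B.leadingCoeff⁻¹ * A := by
    rw [← e, eB, map_inv₀]
    field_simp [(map_ne_zero (algebraMap L F)).2 hlc]
  rw [this]
  exact mul_mem (D.algebraMap_mem_bddIn _) hA

end DiscData

end Fermat.Agent.Mazur.Immersion
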