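import Fermat.Agent.Mazur.Immersion.LogPairing
import Fermat.Agent.Mazur.Immersion.DiscPlace

/-!
# Preparations for the nonarchimedean Abel theorem

A bounded series with bounded inverse is dominated by its leading coefficient; elementary facts
about the factors `1 - r / q`.
-/

set_option autoImplicit false

noncomputable section

open Filter Topology ModularCurve

namespace Fermat.Agent.Mazur.Immersion

variable {K : Type*} [NormedField K]

/-- The factor `1 - r / q`. -/
def lam (r : K) : LaurentSeries K := 1 - HahnSeries.single (-1 : ℤ) r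

theorem qsub_eq_single_mul_lam (r : K) : qsub r = HahnSeries.single (1 : ℤ) (1 : K) * lam r := by
  rw [lam, mul_sub, mul_one, HahnSeries.single_mul_single, qsub, qvar, HahnSeries.C_apply]
  simp

theorem coeff_lam_neg_one (r : K) : (lam r).coeff (-1) = -r := by
  simp [lam, HahnSeries.coeff_one]

theorem lam_ne_zero (r : K) : lam r ≠ 0 := fun h =>
  qsub_ne_zero r (by rw [qsub_eq_single_mul_lam, h, mul_zero])

theorem order_lam {r : K} (hr : r ≠ 0) : (lam r).order = -1 := by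
  refine le_antisymm (HahnSeries.order_le_of_coeff_ne_zero (by rw [coeff_lam_neg_one]; simpa)) ?_
  by_contra! h
  refine HahnSeries.coeff_order_eq_zero.not.2 (lam_ne_zero r) ?_
  generalize hN : (lam r).order = N at h
  simp [lam, HahnSeries.coeff_one, HahnSeries.coeff_single_of_ne (show N ≠ -1 by omega),
    show N ≠ 0 by omega]

theorem order_prod_lam {α : Type*} (s : Finset α) {r : α → K} (hr : ∀ i ∈ s, r i ≠ 0) (e : α → ℕ) :
    (∏ i ∈ s, lam (r i) ^ e i).order = -∑ i ∈ s, (e i : ℤ) := by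
  classical
  induction s using Finset.induction_on with
  | empty => simp
  | insert i s hi ih =>
    rw [Finset.prod_insert hi, Finset.sum_insert hi, HahnSeries.order_mul
      (pow_ne_zero _ (lam_ne_zero _))
      (Finset.prod_ne_zero_iff.2 fun k _ => pow_ne_zero _ (lam_ne_zero _)),
      HahnSeries.order_pow, order_lam (hr i (Finset.mem_insert_self i s)),
      ih fun k hk => hr k (Finset.mem_insert_of_mem hk)]
    simp only [nsmul_eq_mul]
    ring

theorem near_lam {r : K} {δ : ℝ} (h : ‖r‖ ≤ δ) : Near δ (lam r) := by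
  show BddBy δ (lam r - 1)
  rw [lam, sub_sub_cancel_left]
  exact ((bddBy_single _ r).mono h).neg

variable [IsUltrametricDist K]

theorem Near.pow {δ : ℝ} (hδ0 : 0 ≤ δ) (hδ : δ ≤ 1) {x : LaurentSeries K} (hx : Near δ x)
    (m : ℕ) : Near δ (x ^ m) := by
  simpa using Near.prod hδ0 hδ (Finset.range m) (x := fun _ => x) fun _ _ => hx

theorem pairing_pow [CompleteSpace K] [CharZero K] (hK : NatNormBound K) {δ : ℝ} (hδ0 : 0 ≤ δ)
    (hδ : δ < 1) {a : ℕ → K} (ha : ∀ n, ‖a n‖ ≤ 1) (ha0 : a 0 = 0) {x : LaurentSeries K}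
    (hx : Near δ x) (m : ℕ) : pairing a (x ^ m) = m * pairing a x := by
  simpa using pairing_prod hK hδ0 hδ ha ha0 (Finset.range m) (x := fun _ => x) fun _ _ => hx

omit [IsUltrametricDist K] in
/-- A nonnegative sequence tending to zero, not identically zero, has a last maximum. -/
theorem exists_last_max {φ : ℕ → ℝ} (hlim : Tendsto φ atTop (𝓝 0)) {n₀ : ℕ} (h0 : 0 < φ n₀) :
    ∃ N, (∀ n, φ n ≤ φ N) ∧ ∀ n, N < n → φ n < φ N := by
  obtain ⟨M, hM⟩ := (hlim.eventually (eventually_lt_nhds h0)).exists_forall_of_atTop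
  have hn₀ : n₀ < M := by
    by_contra! h
    exact lt_irrefl _ (hM n₀ h)
  obtain ⟨k, hk, hmax⟩ := Finset.exists_max_image (Finset.range M) φ ⟨n₀, Finset.mem_range.2 hn₀⟩
  let S := (Finset.range M).filter fun n => φ n = φ k
  have hS : S.Nonempty := ⟨k, Finset.mem_filter.2 ⟨hk, rfl⟩⟩
  have hN := (Finset.mem_filter.1 (S.max'_mem hS)).2
  have hbound : ∀ n, φ n ≤ φ k := fun n => by
    rcases lt_or_ge n M with h | h
    · exact hmax n (Finset.mem_range.2 h)
    · exact (hM n h).le.trans (hmax n₀ (Finset.mem_range.2 hn₀))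
  refine ⟨S.max' hS, fun n => by rw [hN]; exact hbound n, fun n hn => ?_⟩
  rw [hN]
  rcases lt_or_ge n M with h | h
  · exact (hbound n).lt_of_ne fun he =>
      hn.not_ge (S.le_max' n (Finset.mem_filter.2 ⟨Finset.mem_range.2 h, he⟩))
  · exact (hM n h).trans_le (hmax n₀ (Finset.mem_range.2 hn₀))

omit [IsUltrametricDist K] in
theorem tendsto_gauss {x : LaurentSeries K} (hx : Bdd x) {R : ℝ} (hR0 : 0 ≤ R) (hR : R < 1) :
    Tendsto (fun n : ℕ => ‖x.coeff (n : ℤ)‖ * R ^ n) atTop (𝓝 0) := by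
  obtain ⟨C, hC⟩ := hx
  exact squeeze_zero (fun n => by positivity)
    (fun n => mul_le_mul_of_nonneg_right (hC _) (by positivity))
    (by simpa using (tendsto_pow_atTop_nhds_zero_of_lt_one hR0 hR).const_mul C)

/-- A bounded series of order zero with bounded inverse is dominated by its constant term. -/
theorem norm_coeff_le_coeff_zero {x y : LaurentSeries K} (hx : Bdd x) (hy : Bdd y)
    (hxy : x * y = 1) (hx0 : ∀ n < 0, x.coeff n = 0) (hy0 : ∀ n < 0, y.coeff n = 0) (n : ℤ) :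
    ‖x.coeff n‖ ≤ ‖x.coeff 0‖ := by
  rcases lt_or_ge n 0 with h | h
  · simp [hx0 n h]
  obtain ⟨k, rfl⟩ := Int.eq_ofNat_of_zero_le h
  by_contra! hlt
  obtain ⟨R, hR0, hR1, hR⟩ : ∃ R : ℝ, 0 < R ∧ R < 1 ∧
      ‖x.coeff 0‖ < ‖x.coeff (k : ℤ)‖ * R ^ k := by
    have hcont : Tendsto (fun R : ℝ => ‖x.coeff (k : ℤ)‖ * R ^ k) (𝓝[<] 1) (𝓝 ‖x.coeff (k : ℤ)‖) :=
      (Continuous.tendsto' (by fun_prop) 1 _ (by simp)).mono_left nhdsWithin_le_nhds
    obtain ⟨R, hR, h1, h2⟩ := ((hcont.eventually (eventually_gt_nhds hlt)).and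
      (Ioo_mem_nhdsLT zero_lt_one)).exists
    exact ⟨R, h1, h2, hR⟩
  set φ : ℕ → ℝ := fun n => ‖x.coeff (n : ℤ)‖ * R ^ n
  set ψ : ℕ → ℝ := fun n => ‖y.coeff (n : ℤ)‖ * R ^ n
  obtain ⟨N, hN, hN'⟩ := exists_last_max (φ := φ) (tendsto_gauss hx hR0.le hR1) (n₀ := k)
    ((norm_nonneg _).trans_lt hR)
  obtain ⟨m, hm⟩ : ∃ m : ℕ, 0 < ψ m := by
    by_contra! hall
    have : y = 0 := HahnSeries.ext (funext fun i => by
      rcases lt_or_ge i 0 with hi | hi
      · simp [hy0 i hi]
      · obtain ⟨m, rfl⟩ := Int.eq_ofNat_of_zero_le hi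
        exact norm_le_zero_iff.1 (nonpos_of_mul_nonpos_left (hall m) (by positivity)))
    simp [this] at hxy
  obtain ⟨M, hM, hM'⟩ := exists_last_max (φ := ψ) (tendsto_gauss hy hR0.le hR1) hm
  have hφN : 0 < φ N := ((norm_nonneg _).trans_lt hR).trans_le (hN k)
  have hψM : 0 < ψ M := hm.trans_le (hM m)
  have hNpos : 0 < N := by
    by_contra! h0
    obtain rfl : N = 0 := by omega
    have := hN k
    simp only [φ, pow_zero, mul_one, Nat.cast_zero] at this
    linarith
  have hterm : ∀ i : ℤ, i ≠ N →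
      ‖x.coeff i * y.coeff ((N + M : ℕ) - i)‖ * R ^ (N + M) < φ N * ψ M := by
    intro i hi
    rcases lt_or_ge i 0 with hi0 | hi0
    · rw [hx0 i hi0, zero_mul, norm_zero, zero_mul]; exact mul_pos hφN hψM
    rcases lt_or_ge (((N + M : ℕ) : ℤ) - i) 0 with hj0 | hj0
    · rw [hy0 _ hj0, mul_zero, norm_zero, zero_mul]; exact mul_pos hφN hψM
    obtain ⟨a, rfl⟩ := Int.eq_ofNat_of_zero_le hi0
    obtain ⟨b, hb⟩ := Int.eq_ofNat_of_zero_le hj0
    have hab : a + b = N + M := by omega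
    rw [hb, norm_mul, ← hab, pow_add, mul_mul_mul_comm]
    rcases lt_or_gt_of_ne (show a ≠ N by omega) with h1 | h1
    · exact (mul_le_mul_of_nonneg_right (hN a) (by positivity)).trans_lt
        (mul_lt_mul_of_pos_left (hM' b (by omega)) hφN)
    · exact (mul_le_mul_of_nonneg_left (hM b) (by positivity)).trans_lt
        (mul_lt_mul_of_pos_right (hN' a h1) hψM)
  have h1 : HasSum (fun i => x.coeff i * y.coeff (((N + M : ℕ) : ℤ) - i)) 0 := by
    have := hasSum_antidiag x y ((N + M : ℕ) : ℤ)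
    rwa [hxy, HahnSeries.coeff_one, if_neg (by omega)] at this
  set t : ℤ → K := fun i => x.coeff i * y.coeff (((N + M : ℕ) : ℤ) - i) with ht
  have hsum : ∑ i ∈ Finset.Icc (0 : ℤ) (N + M : ℕ), t i = 0 := by
    refine (hasSum_sum_of_ne_finset_zero fun i hi => ?_).unique h1
    simp only [Finset.mem_Icc, not_and_or, not_le] at hi
    rcases hi with hi | hi
    · simp [ht, hx0 i hi]
    · simp only [ht, hy0 (((N + M : ℕ) : ℤ) - i) (by omega), mul_zero]
  rw [← Finset.add_sum_erase _ _ (a := (N : ℤ)) (Finset.mem_Icc.2 ⟨by omega, by omega⟩),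
    add_eq_zero_iff_eq_neg] at hsum
  have hbig : φ N * ψ M = ‖t N‖ * R ^ (N + M) := by
    simp only [φ, ψ, ht, show ((N + M : ℕ) : ℤ) - N = (M : ℤ) by omega, norm_mul, pow_add]
    ring
  have hne : (Finset.Icc (0 : ℤ) (N + M : ℕ)).erase N |>.Nonempty :=
    ⟨0, Finset.mem_erase.2 ⟨by omega, Finset.mem_Icc.2 ⟨le_rfl, by omega⟩⟩⟩
  obtain ⟨i, hi, hle⟩ := IsUltrametricDist.exists_norm_finsetSum_le_of_nonempty hne t
  have := hterm i (Finset.ne_of_mem_erase hi)
  rw [hbig, hsum, norm_neg] at this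
  exact this.not_ge (mul_le_mul_of_nonneg_right hle (by positivity))

end Fermat.Agent.Mazur.Immersion
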