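import Fermat.Agent.Mazur.Immersion.WeightTwo
import Fermat.Agent.Periods.HeckeCoeff

/-!
# The residue theorem at the cusp `∞`

If `G` is invariant under `Γ₀(N)` and bounded at every cusp other than `∞`, the constant term of
`G φ` vanishes for a cusp form `φ` of weight two: its trace to level one has weight two.
-/

set_option autoImplicit false

noncomputable section

open UpperHalfPlane hiding I
open Filter ModularCurve Complex CongruenceSubgroup
open scoped Real Manifold MatrixGroups ModularForm Topology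

namespace Fermat.Agent.Mazur.Immersion

open Fermat.Agent.Modular

variable {N : ℕ}

local notation "S₂" => CuspForm (CongruenceSubgroup.Gamma0 N) 2

/-- A cusp form as a holomorphic function. -/
def cuspHol (φ : S₂) : Hol := ⟨φ, CuspFormClass.holo φ⟩

theorem slash_cuspHol {φ : S₂} {h : SL(2, ℤ)} (hh : h ∈ Gamma0 N) :
    h⁻¹ • cuspHol φ * autFactor h = cuspHol φ := by
  refine Subtype.ext ?_
  rw [← slash_two_eq]
  exact SlashInvariantFormClass.slash_action_eq φ _ (Subgroup.mem_map_of_mem _ hh)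

theorem hasQExp_cuspHol [NeZero N] (φ : S₂) :
    HasQExp 1 (cuspHol φ : ℍ → ℂ)
      (HahnSeries.ofPowerSeries ℤ ℂ (qExpansion 1 (φ : ℍ → ℂ))) := by
  have : Fact (IsCusp OnePoint.infty
      (Subgroup.map (Matrix.SpecialLinearGroup.mapGL ℝ) (Gamma0 N))) :=
    ⟨Subgroup.isCusp_of_mem_strictPeriods one_pos (one_mem_strictPeriods_Gamma0 N)⟩
  exact HasQExp.ofPowerSeries fun τ =>
    ModularForm.hasSum_qExpansion (f := φ) one_pos (one_mem_strictPeriods_Gamma0 N) τ

theorem isZeroAtImInfty_slash [NeZero N] (φ : S₂) (g : SL(2, ℤ)) :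
    IsZeroAtImInfty ((φ : ℍ → ℂ) ∣[(2 : ℤ)] g) :=
  CuspFormClass.zero_at_infty_slash φ g

/-- The translate of `F` in weight two by a coset representative. -/
def slashTerm (F : Hol) (k : SL(2, ℤ)) : Hol := k • F * autFactor k⁻¹

theorem coe_slashTerm (F : Hol) (k : SL(2, ℤ)) :
    (slashTerm F k : ℍ → ℂ) = (F : ℍ → ℂ) ∣[(2 : ℤ)] k⁻¹ := by
  rw [slash_two_eq, inv_inv]
  rfl

theorem slash_slashTerm (F : Hol) (k g : SL(2, ℤ)) :
    g⁻¹ • slashTerm F k * autFactor g = slashTerm F (g⁻¹ * k) := by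
  refine Subtype.ext ?_
  rw [← slash_two_eq, coe_slashTerm, coe_slashTerm, ← SlashAction.slash_mul, mul_inv_rev, inv_inv]

theorem slashTerm_mul {F : Hol} (hF : ∀ h ∈ Gamma0 N, h⁻¹ • F * autFactor h = F) (k : SL(2, ℤ))
    {h : SL(2, ℤ)} (hh : h ∈ Gamma0 N) : slashTerm F (k * h) = slashTerm F k := by
  refine Subtype.ext ?_
  rw [coe_slashTerm, coe_slashTerm, mul_inv_rev, SlashAction.slash_mul, slash_two_eq h⁻¹,
    hF _ ((Gamma0 N).inv_mem hh)]

variable [NeZero N]

theorem coeff_zero_mul_cuspForm {G : Hol} (hG : ∀ h ∈ Gamma0 N, h • G = G) {x : LaurentSeries ℂ}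
    (hx : HasQExp 1 (G : ℍ → ℂ) x)
    (hcusp : ∀ k : SL(2, ℤ), k ∉ Gamma0 N → IsBoundedAtImInfty ((k • G : Hol) : ℍ → ℂ))
    (φ : S₂) :
    (x * HahnSeries.ofPowerSeries ℤ ℂ (qExpansion 1 (φ : ℍ → ℂ))).coeff 0 = 0 := by
  classical
  have : Fintype (SL(2, ℤ) ⧸ Gamma0 N) := Fintype.ofFinite _
  set F : Hol := G * cuspHol φ with hFdef
  have hF : ∀ h ∈ Gamma0 N, h⁻¹ • F * autFactor h = F := fun h hh => by
    rw [hFdef, smul_mul', mul_assoc, slash_cuspHol hh, hG _ ((Gamma0 N).inv_mem hh)]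
  let T : SL(2, ℤ) ⧸ Gamma0 N → Hol := fun q => Quotient.liftOn' q (slashTerm F) fun a b hab => by
    have h : a⁻¹ * b ∈ Gamma0 N := QuotientGroup.leftRel_apply.mp hab
    rw [← slashTerm_mul hF a h, mul_inv_cancel_left]
  set H : Hol := ∑ q, T q with hHdef
  have hH : IsWeightTwo H := fun g => by
    rw [hHdef, Finset.smul_sum, Finset.sum_mul]
    refine Fintype.sum_equiv (MulAction.toPerm g⁻¹) _ _ fun q => ?_
    induction q using QuotientGroup.induction_on with
    | _ k => exact slash_slashTerm F k g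
  set q₁ : SL(2, ℤ) ⧸ Gamma0 N := QuotientGroup.mk 1
  have hT1 : T q₁ = F := by
    refine Subtype.ext ?_
    show (slashTerm F 1 : ℍ → ℂ) = _
    rw [coe_slashTerm, inv_one, SlashAction.slash_one]
  have hrest : IsZeroAtImInfty ((H - F : Hol) : ℍ → ℂ) := by
    have hsum : H - F = ∑ q ∈ Finset.univ.erase q₁, T q := by
      rw [hHdef, ← Finset.add_sum_erase _ _ (Finset.mem_univ q₁), hT1, add_sub_cancel_left]
    have hterm : ∀ q ∈ Finset.univ.erase q₁, Tendsto (T q : ℍ → ℂ) atImInfty (𝓝 0) := by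
      intro q hq
      induction q using QuotientGroup.induction_on with
      | _ k =>
      have hk : k ∉ Gamma0 N := fun hk => (Finset.ne_of_mem_erase hq)
        (QuotientGroup.eq.2 (by simpa using hk))
      have hb := hcusp k hk
      have hz := isZeroAtImInfty_slash φ k⁻¹
      have hφ : ((φ : ℍ → ℂ) ∣[(2 : ℤ)] k⁻¹) = (k • cuspHol φ * autFactor k⁻¹ : Hol) := by
        have := slash_two_eq k⁻¹ (cuspHol φ)
        rwa [inv_inv] at this
      have e : (T (k : SL(2, ℤ) ⧸ Gamma0 N) : ℍ → ℂ) =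
          ((k • G : Hol) : ℍ → ℂ) * ((φ : ℍ → ℂ) ∣[(2 : ℤ)] k⁻¹) := by
        rw [hφ, ← Subalgebra.coe_mul, ← mul_assoc, ← smul_mul', ← hFdef]
        rfl
      rw [e]
      have h2 := Asymptotics.IsBigO.mul_isLittleO hb ((Asymptotics.isLittleO_one_iff ℝ).2 hz)
      simp only [Pi.one_apply, mul_one] at h2
      exact (Asymptotics.isLittleO_one_iff ℝ).1 h2
    have e : ((H - F : Hol) : ℍ → ℂ) = fun τ => ∑ q ∈ Finset.univ.erase q₁, (T q).1 τ := by
      funext τ
      rw [hsum, AddSubmonoidClass.coe_finset_sum, Finset.sum_apply]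
    rw [e]
    simpa [IsZeroAtImInfty, Filter.ZeroAtFilter] using tendsto_finsetSum _ hterm
  set y := HahnSeries.ofPowerSeries ℤ ℂ (qExpansion 1 (φ : ℍ → ℂ))
  have hFx : HasQExp 1 (F : ℍ → ℂ) (x * y) := (hx.mul (hasQExp_cuspHol φ)).congr fun τ => rfl
  have hperH : Function.Periodic ((H : ℍ → ℂ) ∘ ofComplex) 1 := by
    have hslash := congrArg (fun A : Hol => (A : ℍ → ℂ)) (hH ModularGroup.T)
    simp only [← slash_two_eq] at hslash
    intro w
    by_cases hw : 0 < w.im
    · have hw' : 0 < (w + 1).im := by simpa using hw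
      have := congrFun hslash ⟨w, hw⟩
      rw [ModularForm.SL_slash_apply, UpperHalfPlane.modular_T_smul] at this
      simp only [Function.comp_apply, ofComplex_apply_of_im_pos hw, ofComplex_apply_of_im_pos hw']
      have hden : denom (Matrix.SpecialLinearGroup.toGL
          ((Matrix.SpecialLinearGroup.map (Int.castRingHom ℝ)) ModularGroup.T)) w = 1 := by
        show ((((ModularGroup.T : SL(2, ℤ)) 1 0 : ℤ) : ℝ) : ℂ) * w +
          ((((ModularGroup.T : SL(2, ℤ)) 1 1 : ℤ) : ℝ) : ℂ) = 1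
        simp [ModularGroup.coe_T]
      have hv : ((1 : ℝ) +ᵥ (⟨w, hw⟩ : ℍ)) = ⟨w + 1, hw'⟩ := UpperHalfPlane.ext (by simp [add_comm])
      rw [hv] at this
      exact (by simpa [hden] using this)
    · have hw' : (w + 1).im ≤ 0 := by simpa using hw
      simp only [Function.comp_apply, ofComplex_apply_of_im_nonpos (not_lt.mp hw),
        ofComplex_apply_of_im_nonpos hw']
  have hperF : Function.Periodic ((F : ℍ → ℂ) ∘ ofComplex) 1 := by
    intro w
    by_cases hw : 0 < w.im
    · have hw' : 0 < (w + 1).im := by simpa using hw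
      simp only [Function.comp_apply, ofComplex_apply_of_im_pos hw, ofComplex_apply_of_im_pos hw']
      exact hFx.periodic one_ne_zero ⟨w, hw⟩ ⟨w + 1, hw'⟩ 1 (by simp)
    · have hw' : (w + 1).im ≤ 0 := by simpa using hw
      simp only [Function.comp_apply, ofComplex_apply_of_im_nonpos (not_lt.mp hw),
        ofComplex_apply_of_im_nonpos hw']
  obtain ⟨z, hz, -⟩ := HasQExp.exists_of_isBoundedAtImInfty_mul (f := ((H - F : Hol) : ℍ → ℂ))
    one_pos (fun w => by
      have a := hperH w; have b := hperF w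
      simp only [Function.comp_apply, Complex.ofReal_one, Subalgebra.coe_sub, Pi.sub_apply] at a b ⊢
      rw [a, b]) (H - F).2 0 (by simp only [zpow_zero, one_mul]; exact hrest.boundedAtFilter)
  have hz0 := hz.coeff_zero_eq_zero_of_isZeroAtImInfty one_pos hrest le_rfl
  have := coeff_zero_of_weightTwo hH ((hFx.add hz).congr fun τ => by
    simp [sub_eq_add_neg])
  rwa [HahnSeries.coeff_add, hz0, add_zero] at this

end Fermat.Agent.Mazur.Immersion
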