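import Fermat.Agent.Mazur.Immersion.Units
import Fermat.Agent.Mazur.Immersion.TraceConst
import Fermat.Agent.Mazur.Immersion.Abel
import Fermat.Agent.Modular.CuspPlacesFL
import Fermat.Agent.Modular.Degree
import Fermat.Agent.Reduction.ModularBasics

/-!
# Functions with poles at `∞` only, analytically

A function on `X₀(p)` is regular away from the cusp `∞` iff it is holomorphic on the upper half
plane and bounded at the other cusp. Such a function has no residue against a cusp form.
-/

set_option autoImplicit false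

noncomputable section

open UpperHalfPlane hiding I
open Filter ModularCurve AlgebraicCurve CongruenceSubgroup Polynomial WithZero
open scoped Manifold MatrixGroups Topology IntermediateField

namespace Fermat.Agent.Mazur.Immersion

open Fermat.Agent.Modular

local notation "ιC" => Fermat.Agent.Reduction.qbarToComplex
local notation "Qb" => AlgebraicClosure ℚ

variable (p : ℕ) [NeZero p]

/-- Functions on `X₀(p)` as meromorphic functions. -/
abbrev evalBar : modularFunctionFieldBar p →+* Mero := evalFL p ιC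

theorem evalBar_eq_of_hasQExp {f : modularFunctionFieldBar p} {G : Hol}
    (h : HasQExp 1 (G : ℍ → ℂ) (coeffMap ιC (f : LaurentSeries Qb))) :
    evalBar p f = algebraMap Hol Mero G :=
  evalMero_eq_of_hasQExp h

theorem hasQExp_uBar :
    HasQExp 1 (uHol p : ℍ → ℂ) (coeffMap ιC (uBar p : LaurentSeries Qb)) := by
  rw [show (uBar p : LaurentSeries Qb) = uSeries p Qb from rfl, coeffMap_uSeries]
  exact hasQExp_uHol p

theorem hasQExp_vBar :
    HasQExp 1 (vHol p : ℍ → ℂ) (coeffMap ιC (vBar p : LaurentSeries Qb)) := by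
  rw [show (vBar p : LaurentSeries Qb) = (jBar p : LaurentSeries Qb) * (uBar p : LaurentSeries Qb) ^ 2
    from rfl, map_mul, map_pow, coe_jBar, coeffMap_jqModC,
    show (uBar p : LaurentSeries Qb) = uSeries p Qb from rfl, coeffMap_uSeries]
  exact hasQExp_vHol p

theorem hasQExp_evalEval_of {G : ℍ → ℂ} {x : LaurentSeries ℂ} (hG : HasQExp 1 G x)
    (R : Polynomial (Polynomial ℂ)) :
    HasQExp 1 (fun z => R.evalEval (kleinJ z) (G z))
      (R.eval₂ (aeval (jqModC ℂ)).toRingHom x) := by
  induction R using Polynomial.induction_on' with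
  | add p q hp hq =>
    rw [eval₂_add]
    exact (hp.add hq).congr fun z => by simp [evalEval]
  | monomial n c =>
    rw [eval₂_monomial]
    exact ((hasQExp_eval_kleinJ c).mul (hG.pow n)).congr fun z => by simp [evalEval]

/-- A holomorphic function with expansions at all cusps is integral over `L[j]`. -/
theorem mem_of_ord_jBar_nonneg {f : modularFunctionFieldBar p} {G : Hol}
    (hG : HasQExp 1 (G : ℍ → ℂ) (coeffMap ιC (f : LaurentSeries Qb)))
    (hinv : ∀ g ∈ Gamma0 p, g • G = G)
    (hexp : ∀ g : SL(2, ℤ), ∃ x, HasQExp (p : ℝ) (g • G : Hol).1 x)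
    {Q : Place Qb (modularFunctionFieldBar p)} (hQ : 0 ≤ Q.ord (jBar p)) :
    f ∈ Q.toValuationSubring := by
  classical
  have hF := isModFun_of_hol hinv hexp
  obtain ⟨R, hm, -, hR⟩ := exists_conjPoly hF
  have h0 : ∀ z, R.evalEval (kleinJ z) (G.1 z) = 0 := fun z => by
    rw [← Polynomial.map_evalRingHom_eval, hR, Polynomial.eval_prod]
    refine Finset.prod_eq_zero (i := (QuotientGroup.mk 1 : SL(2, ℤ) ⧸ Gamma0 p)) ?_ ?_
    · simp
    · simp [hF.conjAt_one]
  have hser : R.eval₂ (aeval (jqModC ℂ)).toRingHom (coeffMap ιC (f : LaurentSeries Qb)) = 0 :=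
    ((hasQExp_evalEval_of hG R).eq_zero_iff one_pos).1 (funext h0)
  obtain ⟨π, hπ, h1⟩ := exists_proj ιC 1 one_ne_zero
  set S := mapCoeff₂ π R
  have hS0 : S.eval₂ (aeval (serJ Qb)).toRingHom (f : LaurentSeries Qb) = 0 := by
    have h := projSeries_eval₂ ιC π hπ R (serJ Qb) (f : LaurentSeries Qb) 1
    rw [coeffMap_serJ, hser, zero_mul, projSeries_zero, mul_one] at h
    exact h.symm
  let φ : Polynomial Qb →+* Algebra.adjoin Qb ({jBar p} : Set (modularFunctionFieldBar p)) :=
    (aeval (⟨jBar p, Algebra.subset_adjoin (Set.mem_singleton _)⟩ :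
      Algebra.adjoin Qb ({jBar p} : Set (modularFunctionFieldBar p)))).toRingHom
  have hint : IsIntegral (Algebra.adjoin Qb ({jBar p} : Set (modularFunctionFieldBar p))) f := by
    refine ⟨S.map φ, (mapCoeff₂_monic π h1 hm).map _, ?_⟩
    apply (modularFunctionFieldBar p).val.toRingHom.injective
    rw [Polynomial.eval₂_map, Polynomial.hom_eval₂, map_zero]
    refine Eq.trans ?_ hS0
    congr 1
    refine Polynomial.ringHom_ext (fun a => ?_) ?_
    · simp [φ]
    · simp [φ]
      rfl
  exact (Fermat.Agent.Curve.isIntegral_adjoin_iff _ f).1 hint Q fun x hx => by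
    rw [Set.mem_singleton_iff.1 hx]
    exact Fermat.Agent.Curve.mem_of_ord_nonneg Q hQ

theorem not_mem_cuspInfty_uBar [Fact p.Prime] :
    uBar p ∉ (cuspInfty p).toValuationSubring := by
  have hp : (2 : ℤ) ≤ p := by exact_mod_cast (Fact.out : p.Prime).two_le
  have hl := hasLead_uSeries p Qb
  have hne : uBar p ≠ 0 := fun h => hl.ne_zero one_ne_zero (congrArg Subtype.val h)
  rw [EichlerShimura.mem_cuspPlace _ hne,
    show (uBar p : LaurentSeries Qb) = uSeries p Qb from rfl, hl.order_eq one_ne_zero]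
  omega

variable [Fact p.Prime]

/-- Holomorphic functions bounded at the cusp `0` are regular away from `∞`. -/
theorem mem_regularAway_of_bounded {f : modularFunctionFieldBar p} {G : Hol}
    (hG : HasQExp 1 (G : ℍ → ℂ) (coeffMap ιC (f : LaurentSeries Qb)))
    (hinv : ∀ g ∈ Gamma0 p, g • G = G)
    (hexp : ∀ g : SL(2, ℤ), ∃ x, HasQExp (p : ℝ) (g • G : Hol).1 x)
    (hbd : ∀ g : SL(2, ℤ), g ∉ Gamma0 p → ∃ x, HasQExp (p : ℝ) (g • G : Hol).1 x ∧
      ∀ n < 0, x.coeff n = 0) :
    f ∈ regularAway (cuspInfty p) := by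
  intro Q hQ
  rcases le_or_gt 0 (Q.ord (jBar p)) with hj | hj
  · exact mem_of_ord_jBar_nonneg p hG hinv hexp hj
  classical
  set Λ := evalBar p
  obtain ⟨σ, hσeq, -, hσ, hσT⟩ := exists_cusp_embeddings p ιC Λ (evalFL_algebraMap p ιC)
    (fun γ hγ f => translate_evalMero p hγ _) _ (adjoin_jdGens p Qb)
    (fun s hs => evalFL_jdGens p ιC hs)
  have hσinj : Function.Injective σ := by
    intro a b he
    induction a using QuotientGroup.induction_on with
    | _ g =>
    induction b using QuotientGroup.induction_on with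
    | _ h => exact sigmaCoset_injective p ιC (RingHom.ext fun x => hσeq g h he x)
  have : Fintype (Gamma0Coset p) := Fintype.ofFinite _
  have : Fintype (CuspOrbit p) := Fintype.ofFinite _
  set j : modularFunctionFieldBar p := jBar p
  have hjt : Transcendental Qb j := transcendental_jL p ιC
  have hyt : Transcendental Qb j⁻¹ := fun h => hjt (by simpa using h.inv)
  have hfield : Qb⟮j⁻¹⟯ = Qb⟮j⟯ := by
    refine le_antisymm ?_ ?_
    · exact IntermediateField.adjoin_simple_le_iff.mpr
        (inv_mem (IntermediateField.mem_adjoin_simple_self Qb j))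
    · exact IntermediateField.adjoin_simple_le_iff.mpr
        (by simpa using inv_mem (IntermediateField.mem_adjoin_simple_self Qb j⁻¹))
  have h1 : jHol 1 ∈ HolExp p := by simpa using smul_jHol_mem p 1 (one_dvd p)
  have hσj : ∀ q, σ q j = qExpand ℂ p (jqModC ℂ) := by
    intro q
    induction q using QuotientGroup.induction_on with
    | _ g =>
      rw [hσ g j (jHol 1) h1 (by
        rw [show Λ j = _ from evalFL_jL p ιC, translate_algebraMap, smul_jHol_one]), qSeries_jHol_one]
  have hσc : ∀ q (a : Qb), σ q (algebraMap Qb _ a) = algebraMap ℂ (LaurentSeries ℂ) (ιC a) := by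
    intro q a
    induction q using QuotientGroup.induction_on with
    | _ g =>
      rw [hσ g _ _ ((HolExp p).algebraMap_mem (ιC a))
        (by rw [evalFL_algebraMap, translate_const, IsScalarTower.algebraMap_apply ℂ Hol Mero])]
      exact (qSeries p).commutes (ιC a)
  have hcard : Fintype.card (Gamma0Coset p) =
      Module.finrank Qb⟮j⁻¹⟯ (modularFunctionFieldBar p) := by
    rw [hfield, ← Nat.card_eq_fintype_card, ← Subgroup.index_eq_card]
    exact (finrank_FL_index p ιC).symm
  obtain ⟨Φ, -, hΦ⟩ := exists_equiv_places_above (HahnSeries.addVal ℤ ℂ)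
    (fun q => (Quotient.mk'' q : CuspOrbit p)) Quotient.mk''_surjective j⁻¹ hyt σ hσinj hcard
    (fun a b c => by rw [hσc, hσc]) (fun a b => by rw [map_inv₀, map_inv₀, hσj, hσj])
    (fun q a ha => by
      rw [hσc, ModularCurve.algebraMap_laurentSeries_eq_single, HahnSeries.addVal_apply,
        HahnSeries.orderTop_single (by simpa using ha)]
      rfl)
    (p : ℤ) (by exact_mod_cast Nat.pos_of_ne_zero (NeZero.ne p))
    (fun q => by
      rw [map_inv₀, AddValuation.map_inv, hσj, addVal_qExpand_jqModC,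
        ← WithTop.LinearOrderedAddCommGroup.coe_neg, neg_neg])
    (fun a b hab x => by
      rw [Quotient.eq'', MulAction.orbitRel_apply] at hab
      obtain ⟨⟨y, hy⟩, rfl⟩ := hab
      obtain ⟨k, rfl⟩ := Subgroup.mem_zpowers_iff.mp hy
      show HahnSeries.addVal ℤ ℂ (σ (ModularGroup.T ^ k • b) x) = _
      rw [hσT, addVal_twistSeries])
    (fun q x m hm => by
      have h := hσT (Nat.card {a : Gamma0Coset p //
        (Quotient.mk'' a : CuspOrbit p) = Quotient.mk'' q} : ℤ) q x
      rw [T_zpow_card_fibre_smul] at h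
      have := dvd_mul_of_twistSeries_eq p h.symm hm
      rwa [neg_mul, dvd_neg] at this)
  set q₁ : Gamma0Coset p := QuotientGroup.mk 1
  -- bounded functions are integral at the places of the other cusps
  have key : ∀ (x : modularFunctionFieldBar p) (H : Hol), evalBar p x = algebraMap Hol Mero H →
      (∀ g : SL(2, ℤ), g ∉ Gamma0 p → ∃ y, HasQExp (p : ℝ) (g • H : Hol).1 y ∧
        ∀ n < 0, y.coeff n = 0) →
      ∀ q : Gamma0Coset p, q ≠ q₁ → x ∈ (Φ (Quotient.mk'' q)).1.toValuationSubring := by
    intro x H hx hb q hq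
    induction q using QuotientGroup.induction_on with
    | _ g =>
    have hg : g ∉ Gamma0 p := fun hg => hq (QuotientGroup.eq.2 (by simpa using hg))
    obtain ⟨y, hy, hy0⟩ := hb g hg
    rw [hΦ]
    rw [hσ g x (g • H) ⟨y, hy⟩ (by rw [show Λ x = _ from hx, translate_algebraMap]),
      qSeries_eq p (F := ⟨g • H, ⟨y, hy⟩⟩) hy]
    rcases eq_or_ne y 0 with rfl | hne
    · simp
    · rw [HahnSeries.addVal_apply, ← HahnSeries.order_eq_orderTop_of_ne_zero hne]
      refine WithTop.coe_nonneg.mpr ?_
      by_contra! hlt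
      exact HahnSeries.coeff_order_eq_zero.not.mpr hne (hy0 _ hlt)
  have hinfty : 0 < (cuspInfty p).ord j⁻¹ := by
    rw [Place.ord_inv, EichlerShimura.ord_cuspPlace _ (fun h : j = 0 => hjt (by rw [h]; exact isAlgebraic_zero)),
      show (j : LaurentSeries Qb) = jqModC Qb from coe_jBar p,
      (Fermat.Agent.Igusa.hasLead_jqModC (R := Qb)).order_eq one_ne_zero]
    norm_num
  obtain ⟨o₁, ho₁⟩ := Φ.surjective ⟨cuspInfty p, hinfty⟩
  obtain ⟨o, ho⟩ := Φ.surjective ⟨Q, by rw [Place.ord_inv]; omega⟩
  have hne : ∀ q : Gamma0Coset p, (Quotient.mk'' q : CuspOrbit p) = o₁ → q = q₁ := by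
    intro q hq
    by_contra hne
    refine not_mem_cuspInfty_uBar p ?_
    have := key (uBar p) (uHol p) (evalBar_eq_of_hasQExp p (hasQExp_uBar p)) (fun g hg => by
      obtain ⟨y, hy, hy0⟩ := exists_hasQExp_uHol_smul p hg
      exact ⟨y, hy, fun n hn => hy0 n (by have := NeZero.pos p; omega)⟩) q hne
    rwa [hq, ho₁] at this
  obtain ⟨q, rfl⟩ := Quotient.mk''_surjective o
  have hq : q ≠ q₁ := by
    rintro rfl
    obtain ⟨q', hq'⟩ := Quotient.mk''_surjective o₁
    rw [hne q' hq'] at hq'
    rw [hq', ho₁] at ho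
    exact hQ (congrArg Subtype.val ho).symm
  have := key f G (evalBar_eq_of_hasQExp p hG) hbd q hq
  rwa [ho] at this

theorem uBar_mem_regularAway : uBar p ∈ regularAway (cuspInfty p) :=
  mem_regularAway_of_bounded p (hasQExp_uBar p) (fun _ => smul_uHol p) (exists_hasQExp_uHol_all p)
    fun g hg => by
      obtain ⟨y, hy, hy0⟩ := exists_hasQExp_uHol_smul p hg
      exact ⟨y, hy, fun n hn => hy0 n (by have := NeZero.pos p; omega)⟩

theorem vBar_mem_regularAway : vBar p ∈ regularAway (cuspInfty p) :=
  mem_regularAway_of_bounded p (hasQExp_vBar p) (fun _ => smul_vHol p) (exists_hasQExp_vHol_all p)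
    fun g hg => exists_hasQExp_vHol_smul p hg

end Fermat.Agent.Mazur.Immersion
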