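import Fermat.Agent.Mazur.Immersion.HeckeDegree
import Fermat.Agent.Mazur.Immersion.Regular
import Fermat.Agent.EichlerShimura.MeroMaps
import Fermat.Agent.Igusa.EtaUnit

/-!
# The Hecke correspondences at `∞`

Over `∞` along `β` all places lie over `∞` along `α`.
-/

set_option autoImplicit false
set_option synthInstance.maxHeartbeats 400000

noncomputable section

open UpperHalfPlane hiding I
open Filter ModularCurve AlgebraicCurve CongruenceSubgroup Polynomial WithZero
open scoped Manifold MatrixGroups Topology IntermediateField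

namespace Fermat.Agent.Mazur.Immersion

open Fermat.Agent.Modular

local notation "ιC" => Fermat.Agent.Reduction.qbarToComplex
local notation "Qb" => AlgebraicClosure ℚ

/-- A place over `j = ∞` belongs to a cusp. -/
theorem exists_cusp (M : ℕ) [NeZero M] (w : Place Qb (modularFunctionFieldBar M))
    (hw : w.ord (jBar M) < 0) :
    ∃ g : SL(2, ℤ), ∀ (f : modularFunctionFieldBar M) (F : Hol),
      evalBar M f = algebraMap Hol Mero F →
      (∃ x : LaurentSeries ℂ, HasQExp (M : ℝ) ((g • F : Hol) : ℍ → ℂ) x ∧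
        ∀ n < 0, x.coeff n = 0) →
      f ∈ w.toValuationSubring := by
  classical
  obtain ⟨σ, hσeq, -, hσ, hσT⟩ := exists_cusp_embeddings M ιC (evalBar M) (evalFL_algebraMap M ιC)
    (fun γ hγ f => translate_evalMero M hγ _) _ (adjoin_jdGens M Qb)
    (fun s hs => evalFL_jdGens M ιC hs)
  have hσinj : Function.Injective σ := by
    intro a b he
    induction a using QuotientGroup.induction_on with
    | _ g =>
    induction b using QuotientGroup.induction_on with
    | _ h => exact sigmaCoset_injective M ιC (RingHom.ext fun x => hσeq g h he x)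
  have : Fintype (Gamma0Coset M) := Fintype.ofFinite _
  have : Fintype (CuspOrbit M) := Fintype.ofFinite _
  set j : modularFunctionFieldBar M := jBar M
  have hjt : Transcendental Qb j := transcendental_jL M ιC
  have hyt : Transcendental Qb j⁻¹ := fun h => hjt (by simpa using h.inv)
  have hfield : Qb⟮j⁻¹⟯ = Qb⟮j⟯ := by
    refine le_antisymm ?_ ?_
    · exact IntermediateField.adjoin_simple_le_iff.mpr
        (inv_mem (IntermediateField.mem_adjoin_simple_self Qb j))
    · exact IntermediateField.adjoin_simple_le_iff.mpr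
        (by simpa using inv_mem (IntermediateField.mem_adjoin_simple_self Qb j⁻¹))
  have h1 : jHol 1 ∈ HolExp M := by simpa using smul_jHol_mem M 1 (one_dvd M)
  have hσj : ∀ q, σ q j = qExpand ℂ M (jqModC ℂ) := by
    intro q
    induction q using QuotientGroup.induction_on with
    | _ g =>
      rw [hσ g j (jHol 1) h1 (by
        rw [show evalBar M j = _ from evalFL_jL M ιC, translate_algebraMap, smul_jHol_one]),
        qSeries_jHol_one]
  have hσc : ∀ q (a : Qb), σ q (algebraMap Qb _ a) = algebraMap ℂ (LaurentSeries ℂ) (ιC a) := by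
    intro q a
    induction q using QuotientGroup.induction_on with
    | _ g =>
      rw [hσ g _ _ ((HolExp M).algebraMap_mem (ιC a))
        (by rw [evalFL_algebraMap, translate_const, IsScalarTower.algebraMap_apply ℂ Hol Mero])]
      exact (qSeries M).commutes (ιC a)
  have hcard : Fintype.card (Gamma0Coset M) =
      Module.finrank Qb⟮j⁻¹⟯ (modularFunctionFieldBar M) := by
    rw [hfield, ← Nat.card_eq_fintype_card, ← Subgroup.index_eq_card]
    exact (finrank_FL_index M ιC).symm
  obtain ⟨Φ, -, hΦ⟩ := exists_equiv_places_above (HahnSeries.addVal ℤ ℂ)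
    (fun q => (Quotient.mk'' q : CuspOrbit M)) Quotient.mk''_surjective j⁻¹ hyt σ hσinj hcard
    (fun a b c => by rw [hσc, hσc]) (fun a b => by rw [map_inv₀, map_inv₀, hσj, hσj])
    (fun q a ha => by
      rw [hσc, ModularCurve.algebraMap_laurentSeries_eq_single, HahnSeries.addVal_apply,
        HahnSeries.orderTop_single (by simpa using ha)]
      rfl)
    (M : ℤ) (by exact_mod_cast Nat.pos_of_ne_zero (NeZero.ne M))
    (fun q => by
      rw [map_inv₀, AddValuation.map_inv, hσj, addVal_qExpand_jqModC,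
        ← WithTop.LinearOrderedAddCommGroup.coe_neg, neg_neg])
    (fun a b hab x => by
      rw [Quotient.eq'', MulAction.orbitRel_apply] at hab
      obtain ⟨⟨y, hy⟩, rfl⟩ := hab
      obtain ⟨k, rfl⟩ := Subgroup.mem_zpowers_iff.mp hy
      show HahnSeries.addVal ℤ ℂ (σ (ModularGroup.T ^ k • b) x) = _
      rw [hσT, addVal_twistSeries])
    (fun q x m hm => by
      have h := hσT (Nat.card {a : Gamma0Coset M //
        (Quotient.mk'' a : CuspOrbit M) = Quotient.mk'' q} : ℤ) q x
      rw [T_zpow_card_fibre_smul] at h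
      have := dvd_mul_of_twistSeries_eq M h.symm hm
      rwa [neg_mul, dvd_neg] at this)
  obtain ⟨o, ho⟩ := Φ.surjective ⟨w, by rw [Place.ord_inv]; omega⟩
  obtain ⟨q, rfl⟩ := Quotient.mk''_surjective o
  obtain ⟨g, rfl⟩ := QuotientGroup.mk_surjective q
  refine ⟨g, fun f F hF hb => ?_⟩
  obtain ⟨y, hy, hy0⟩ := hb
  have h := hΦ (QuotientGroup.mk g) f
  rw [ho] at h
  rw [h, hσ g f (g • F) ⟨y, hy⟩ (by rw [hF, translate_algebraMap]),
    qSeries_eq M (F := ⟨g • F, ⟨y, hy⟩⟩) hy]
  rcases eq_or_ne y 0 with rfl | hne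
  · simp
  · rw [HahnSeries.addVal_apply, ← HahnSeries.order_eq_orderTop_of_ne_zero hne]
    refine WithTop.coe_nonneg.mpr ?_
    by_contra! hlt
    exact HahnSeries.coeff_order_eq_zero.not.mpr hne (hy0 _ hlt)

theorem mem_restrictAlong_iff {K F F' : Type*} [Field K] [Field F] [Field F'] [Algebra K F]
    [Algebra K F'] (φ : F →ₐ[K] F') (hφ : φ.toRingHom.IsIntegral) (w : Place K F') (f : F) :
    f ∈ (w.restrictAlong φ hφ).toValuationSubring ↔ φ f ∈ w.toValuationSubring :=
  Iff.rfl

variable {p : ℕ} [hp : Fact p.Prime] [NeZero p] {m : ℕ} [NeZero m]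

/-- `u(mτ)` is bounded at the cusps not over `∞`. -/
theorem exists_hasQExp_smul_scale_uHol {g : SL(2, ℤ)} (hg : g ∉ Gamma0 p) :
    ∃ x : LaurentSeries ℂ,
      HasQExp ((p * m : ℕ) : ℝ) ((g • EichlerShimura.scaleHol m (uHol p) : Hol) : ℍ → ℂ) x ∧
        ∀ n < 0, x.coeff n = 0 := by
  obtain ⟨a, d, b, g', ha, hd, -, had, hpt, hden⟩ := Igusa.exists_decomposition g⁻¹ m
  have hc : (g' 1 0 : ℂ) * a = (g⁻¹ 1 0 : ℂ) := by
    have hd0 : (d : ℂ) ≠ 0 := Nat.cast_ne_zero.2 (NeZero.ne d)
    have h := fun τ : ℍ => hden τ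
    simp only [denom, coe_affineH] at h
    have h1 := h ⟨Complex.I, by simp⟩
    have h2 := h ⟨2 * Complex.I, by simp⟩
    simp only [Matrix.SpecialLinearGroup.mapGL_coe_matrix, Matrix.SpecialLinearGroup.map_apply_coe,
      RingHom.mapMatrix_apply, Matrix.map_apply, algebraMap_int_eq, eq_intCast,
      Complex.ofReal_intCast] at h1 h2
    field_simp at h1 h2
    refine mul_right_cancel₀ Complex.I_ne_zero ?_
    linear_combination h2 - h1
  have hg' : g'⁻¹ ∉ Gamma0 p := fun h => hg <| (inv_mem_iff (H := Gamma0 p)).1 <| by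
    rw [inv_mem_iff, Gamma0_mem] at h
    rw [Gamma0_mem, show g⁻¹ 1 0 = g' 1 0 * a by exact_mod_cast hc.symm]
    push_cast
    rw [h, zero_mul]
  obtain ⟨x, hx, hx0⟩ := exists_hasQExp_uHol_smul p hg'
  haveI : NeZero (a * a) := ⟨Nat.mul_ne_zero (NeZero.ne a) (NeZero.ne a)⟩
  set c : ℂˣ := Units.mk0 (Function.Periodic.qParam ((p : ℝ) * d) (b : ℂ))
    (Function.Periodic.qParam_ne_zero _)
  have key := hx.comp_of_qParam_eq (h' := ((p * m : ℕ) : ℝ)) (affineH a b d) (a * a) c fun τ => by
    have hm' : (m : ℂ) = a * d := by exact_mod_cast had.symm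
    have hd0 : (d : ℂ) ≠ 0 := Nat.cast_ne_zero.2 (NeZero.ne d)
    have ha0 : (a : ℂ) ≠ 0 := Nat.cast_ne_zero.2 (NeZero.ne a)
    have hp0 : (p : ℂ) ≠ 0 := Nat.cast_ne_zero.2 (NeZero.ne p)
    rw [Units.val_mk0, coe_affineH, Function.Periodic.qParam, Function.Periodic.qParam,
      Function.Periodic.qParam, ← Complex.exp_nat_mul, ← Complex.exp_add]
    congr 1
    push_cast
    rw [hm']
    field_simp
    ring
  refine ⟨_, key.congr fun τ => ?_, fun n hn => ?_⟩
  · rw [smul_hol_apply, EichlerShimura.scaleHol_apply, hpt, Function.comp_apply, smul_hol_apply,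
      inv_inv]
  · by_cases hdvd : ((a * a : ℕ) : ℤ) ∣ n
    · obtain ⟨k, rfl⟩ := hdvd
      have hp1 : 1 ≤ (p : ℤ) := by have := hp.out.two_le; omega
      have hk : k < 0 := by
        by_contra! hk
        exact absurd hn (not_lt.2 (mul_nonneg (Int.natCast_nonneg _) hk))
      rw [qExpand_coeff_mul, twistSeries_coeff, hx0 k (by omega), mul_zero]
    · exact qExpand_coeff_of_not_dvd _ _ hdvd

variable (p) in
/-- `j / uᵖ`. -/
def zBar : modularFunctionFieldBar p := jBar p * (uBar p)⁻¹ ^ p

theorem exists_hol_zBar :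
    ∃ G : Hol, HasQExp 1 (G : ℍ → ℂ) (coeffMap ιC (zBar p : LaurentSeries Qb)) ∧
      (∀ g ∈ Gamma0 p, g • G = G) ∧
      ∀ n < 0, (coeffMap ιC (zBar p : LaurentSeries Qb)).coeff n = 0 := by
  have hne : ∀ τ, (uHol p : ℍ → ℂ) τ ≠ 0 := fun τ =>
    div_ne_zero (ModularForm.discriminant_ne_zero _) (ModularForm.discriminant_ne_zero _)
  have hi := (HasQExp.one 1).div (hasQExp_uHol p) one_pos hne
  let uI : Hol := ⟨_, hi.mdifferentiable one_pos⟩
  have e : coeffMap ιC (zBar p : LaurentSeries Qb) = jqModC ℂ * (1 / uSeries p ℂ) ^ p := by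
    rw [show (zBar p : LaurentSeries Qb) =
      (jBar p : LaurentSeries Qb) * (uBar p : LaurentSeries Qb)⁻¹ ^ p from rfl, map_mul, map_pow,
      map_inv₀, coe_jBar, coeffMap_jqModC, show (uBar p : LaurentSeries Qb) = uSeries p Qb from rfl,
      coeffMap_uSeries, one_div]
  refine ⟨holJ * uI ^ p, ?_, fun g hg => ?_, fun n hn => ?_⟩
  · rw [e]
    exact (hasQExp_kleinJ.mul (hi.pow p)).congr fun τ => rfl
  · have hI : g • uI = uI := Subtype.ext (funext fun τ => by
      have h := congrFun (congrArg Subtype.val (smul_uHol p hg)) τ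
      rw [smul_hol_apply] at h ⊢
      show (1 : ℍ → ℂ) _ / (uHol p : ℍ → ℂ) _ = (1 : ℍ → ℂ) _ / (uHol p : ℍ → ℂ) τ
      rw [h]
      rfl)
    rw [smul_mul', smul_pow', smul_holJ, hI]
  · rw [e]
    refine HahnSeries.coeff_eq_zero_of_lt_order ?_
    have hu := hasLead_uSeries p ℂ
    have hj := Fermat.Agent.Igusa.hasLead_jqModC (R := ℂ)
    have hu0 := hu.ne_zero one_ne_zero
    rw [HahnSeries.order_mul (hj.ne_zero one_ne_zero) (pow_ne_zero _ (one_div_ne_zero hu0)),
      HahnSeries.order_pow, one_div, hj.order_eq one_ne_zero]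
    have hinv : (uSeries p ℂ)⁻¹.order = (p : ℤ) - 1 := by
      have := HahnSeries.order_mul hu0 (inv_ne_zero hu0)
      rw [mul_inv_cancel₀ hu0, HahnSeries.order_one, hu.order_eq one_ne_zero] at this
      omega
    rw [hinv, nsmul_eq_mul]
    have h2 : (2 : ℤ) ≤ p := by exact_mod_cast hp.out.two_le
    nlinarith

/-- Over `∞` along `β` only lies `∞` along `α`. -/
theorem restrictAlong_alpha_eq_cuspInfty [NeZero (p * m)] (hm : m.Prime)
    (hα : (heckeAlphaBar Qb p m).toRingHom.IsIntegral)
    (hβ : (heckeBetaBar Qb p m).toRingHom.IsIntegral)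
    (w : Place Qb (modularFunctionFieldBar (p * m)))
    (hw : w.restrictAlong (heckeBetaBar Qb p m) hβ = cuspInfty p) :
    w.restrictAlong (heckeAlphaBar Qb p m) hα = cuspInfty p := by
  set A := heckeAlphaBar Qb p m
  set B := heckeBetaBar Qb p m
  have hmemB : ∀ f, B f ∈ w.toValuationSubring ↔ f ∈ (cuspInfty p).toValuationSubring := by
    intro f; rw [← hw, mem_restrictAlong_iff]
  have hmemA : ∀ f, A f ∈ w.toValuationSubring ↔
      f ∈ (w.restrictAlong A hα).toValuationSubring := fun f => (mem_restrictAlong_iff A hα w f).symm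
  have hAj : A (jBar p) = jBar (p * m) := Subtype.ext (coe_heckeAlphaBar p m _)
  have hBu : B (uBar p) ∉ w.toValuationSubring := fun h =>
    not_mem_cuspInfty_uBar p ((hmemB _).1 h)
  -- the pole of `j`
  have hBj : B (jBar p) ∉ w.toValuationSubring := fun h => by
    have h' := (hmemB _).1 h
    have hne : jBar p ≠ 0 := fun e => (Fermat.Agent.Igusa.hasLead_jqModC (R := Qb)).ne_zero
      one_ne_zero ((coe_jBar p).symm.trans (congrArg Subtype.val e))
    rw [EichlerShimura.mem_cuspPlace _ hne, coe_jBar,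
      (Fermat.Agent.Igusa.hasLead_jqModC (R := Qb)).order_eq one_ne_zero] at h'
    omega
  have hj : w.ord (jBar (p * m)) < 0 := by
    by_contra! hj
    obtain ⟨R, hR, -, h0, -⟩ := exists_transposed_relation (m := m) hm
    refine hBj ((Fermat.Agent.Curve.isIntegral_adjoin_iff _ (B (jBar p))).1 ?_ w
      fun x hx => by
        rw [Set.mem_singleton_iff.1 hx]
        exact Fermat.Agent.Curve.mem_of_ord_nonneg w hj)
    let φ : Polynomial Qb →+* Algebra.adjoin Qb
        ({jBar (p * m)} : Set (modularFunctionFieldBar (p * m))) :=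
      (aeval (⟨jBar (p * m), Algebra.subset_adjoin (Set.mem_singleton _)⟩ :
        Algebra.adjoin Qb ({jBar (p * m)} : Set (modularFunctionFieldBar (p * m))))).toRingHom
    refine ⟨R.map φ, hR.map _, ?_⟩
    apply (modularFunctionFieldBar (p * m)).val.toRingHom.injective
    rw [Polynomial.eval₂_map, Polynomial.hom_eval₂, map_zero]
    refine Eq.trans ?_ h0
    congr 1
    · refine Polynomial.ringHom_ext (fun a => ?_) ?_
      · simp [φ]
      · simp [φ]
        rfl
    · exact coe_betaBar_jBar m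
  obtain ⟨g, hg⟩ := exists_cusp (p * m) w hj
  -- the cusp is over `∞`
  have hgp : g ∈ Gamma0 p := by
    by_contra hgp
    refine hBu (hg _ _ (evalBar_eq_of_hasQExp (p * m) (G := EichlerShimura.scaleHol m (uHol p)) ?_)
      (exists_hasQExp_smul_scale_uHol hgp))
    rw [coe_heckeBetaBar, coeffMap_qExpand]
    exact ((hasQExp_uBar p).comp_mulH m).congr fun τ => rfl
  obtain ⟨G, hG, hinv, hG0⟩ := exists_hol_zBar (p := p)
  have hz : A (zBar p) ∈ w.toValuationSubring := by
    refine hg _ G (evalBar_eq_of_hasQExp (p * m) (by rw [coe_heckeAlphaBar]; exact hG)) ?_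
    refine ⟨ModularCurve.qExpand ℂ (p * m) (coeffMap ιC (zBar p : LaurentSeries Qb)), ?_,
      fun n hn => ?_⟩
    · rw [hinv g hgp]
      simpa using hG.dilate_period one_ne_zero (p * m)
    · by_cases hdvd : ((p * m : ℕ) : ℤ) ∣ n
      · obtain ⟨k, rfl⟩ := hdvd
        rw [qExpand_coeff_mul, hG0 k (by
          by_contra! hk
          exact absurd hn (not_lt.2 (mul_nonneg (Int.natCast_nonneg _) hk)))]
      · exact qExpand_coeff_of_not_dvd _ _ hdvd
  by_contra hne
  have hAu : A (uBar p) ∈ w.toValuationSubring :=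
    (hmemA _).2 (uBar_mem_regularAway p _ hne)
  have hu0 : uBar p ≠ 0 := fun h =>
    (hasLead_uSeries p Qb).ne_zero one_ne_zero (congrArg Subtype.val h)
  have hmem : A (jBar p) ∈ w.toValuationSubring := by
    have e : jBar p = zBar p * uBar p ^ p := by
      rw [zBar, mul_assoc, ← mul_pow, inv_mul_cancel₀ hu0, one_pow, mul_one]
    rw [e, map_mul, map_pow]
    exact mul_mem hz (pow_mem hAu p)
  rw [hAj] at hmem
  have hne0 : jBar (p * m) ≠ 0 := fun e => by simp [e] at hj
  exact absurd (Fermat.Agent.Curve.ord_nonneg_of_mem w hmem) (not_le.2 hj)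

end Fermat.Agent.Mazur.Immersion
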