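import Fermat.Agent.Mazur.Immersion.HeckePts
import Fermat.Agent.EichlerShimura.Commute
import Fermat.Agent.Reduction.HeckeDegree

/-!
# Degrees of the degeneracy maps out of level `p`
-/

set_option autoImplicit false
set_option synthInstance.maxHeartbeats 400000
set_option linter.style.haveILetI false

noncomputable section

open ModularCurve AlgebraicCurve Polynomial
open scoped IntermediateField

namespace Fermat.Agent.Mazur.Immersion

local notation "Qb" => AlgebraicClosure ℚ
local notation "ιC" => Fermat.Agent.Reduction.qbarToComplex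

variable {p : ℕ} [hp : Fact p.Prime] [NeZero p]

omit hp in
theorem finrankAlong_comp_bijective {K F F' F'' : Type*} [Field K] [Field F] [Field F'] [Field F'']
    [Algebra K F] [Algebra K F'] [Algebra K F''] (φ : F →ₐ[K] F') (w : F' →ₐ[K] F'')
    (hw : Function.Bijective w) : finrankAlong K (w.comp φ) = finrankAlong K φ := by
  letI := algebraAlong φ
  letI := algebraAlong (w.comp φ)
  exact (Algebra.finrank_eq_of_equiv_equiv (RingEquiv.refl F)
    (RingEquiv.ofBijective w.toRingHom hw) (RingHom.ext fun _ => rfl)).symm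

theorem finrankAlong_heckeAlphaBar_of_ne {m : ℕ} [NeZero m] (hm : m.Prime) (hmp : m ≠ p) :
    finrankAlong Qb (heckeAlphaBar Qb p m) = m + 1 :=
  Reduction.finrankAlong_heckeAlphaBar_of_embedding ιC p m hm
    fun h => hmp ((Nat.prime_dvd_prime_iff_eq hm hp.out).1 h)

/-- The Atkin–Lehner involution at `m` exchanges the two degeneracy maps out of level `p`. -/
theorem exists_involution {m : ℕ} [NeZero m] (hm : m.Prime) (hmp : m ≠ p) :
    ∃ w : modularFunctionFieldBar (p * m) →ₐ[Qb] modularFunctionFieldBar (p * m),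
      w.comp (heckeAlphaBar Qb p m) = heckeBetaBar Qb p m ∧
      w.comp (heckeBetaBar Qb p m) = heckeAlphaBar Qb p m ∧ Function.Bijective w := by
  haveI : NeZero (p * m) := ⟨Nat.mul_ne_zero (NeZero.ne p) (NeZero.ne m)⟩
  obtain ⟨w, hw1, hw2⟩ := Reduction.exists_atkinLehner (L := Qb) (N := p) hm
    (fun h => hmp ((Nat.prime_dvd_prime_iff_eq hm hp.out).1 h)) ιC
  refine ⟨w, hw1, hw2, w.toRingHom.injective, fun x => ⟨w x, ?_⟩⟩
  have hle : (⊤ : Subfield (Fermat.Agent.Modular.FL (p * m) Qb)) ≤
      (w.comp w).toRingHom.eqLocusField (RingHom.id _) := by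
    rw [← EichlerShimura.closure_range_levelIncl_levelScale (L := Qb)
      (fun K _ => Fermat.Agent.Modular.functionFieldGeneration K)
      (A := p) (B := p) m (dvd_mul_right p m) dvd_rfl rfl]
    refine Subfield.closure_le.mpr (Set.union_subset (Set.range_subset_iff.mpr fun x => ?_)
      (Set.range_subset_iff.mpr fun x => ?_))
    · show w (w (EichlerShimura.levelIncl (L := Qb) (dvd_mul_right p m) x)) =
        EichlerShimura.levelIncl (L := Qb) (dvd_mul_right p m) x
      rw [← EichlerShimura.heckeAlphaBar_eq_levelIncl,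
        show w (heckeAlphaBar Qb p m x) = heckeBetaBar Qb p m x from AlgHom.congr_fun hw1 x]
      exact AlgHom.congr_fun hw2 x
    · show w (w (EichlerShimura.levelScale (L := Qb) m dvd_rfl x)) =
        EichlerShimura.levelScale (L := Qb) m dvd_rfl x
      rw [show EichlerShimura.levelScale (L := Qb) m (dvd_refl (p * m)) x = heckeBetaBar Qb p m x from
        Subtype.ext (by rw [EichlerShimura.coe_levelScale, coe_heckeBetaBar]),
        show w (heckeBetaBar Qb p m x) = heckeAlphaBar Qb p m x from AlgHom.congr_fun hw2 x]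
      exact AlgHom.congr_fun hw1 x
  exact hle (Subfield.mem_top x)

theorem finrankAlong_heckeBetaBar_of_ne {m : ℕ} [NeZero m] (hm : m.Prime) (hmp : m ≠ p) :
    finrankAlong Qb (heckeBetaBar Qb p m) = m + 1 := by
  haveI : NeZero (p * m) := ⟨Nat.mul_ne_zero (NeZero.ne p) (NeZero.ne m)⟩
  obtain ⟨w, hw, -, hbij⟩ := exists_involution (p := p) hm hmp
  rw [← finrankAlong_heckeAlphaBar_of_ne (p := p) hm hmp, ← hw]
  exact finrankAlong_comp_bijective _ w hbij

omit hp in
theorem coe_betaBar_jBar (m : ℕ) [NeZero m] :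
    (heckeBetaBar Qb p m (jBar p) : LaurentSeries Qb) = Modular.serJd Qb m := by
  rw [coe_heckeBetaBar]
  show ModularCurve.qExpand Qb m (coeffEmb Qb jq) = coeffEmb Qb (ModularCurve.qExpand ℚ m jq)
  rw [coeffEmb, coeffMap_qExpand]

omit hp in
theorem coe_betaBar_jNBar (m : ℕ) [NeZero m] [NeZero (p * m)] :
    (heckeBetaBar Qb p m (jNBar p) : LaurentSeries Qb) = Modular.serJd Qb (p * m) := by
  rw [coe_heckeBetaBar, coe_jNBar, qExpand_qExpand]
  show _ = coeffEmb Qb (ModularCurve.qExpand ℚ (p * m) jq)
  haveI : NeZero (m * p) := ⟨Nat.mul_ne_zero (NeZero.ne m) (NeZero.ne p)⟩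
  rw [coeffEmb, coeffMap_qExpand, qExpand_congr (mul_comm m p)]
  rfl

/-- `[F(p²) : F(p)] ≤ p` along `β`. -/
theorem finrankAlong_heckeBetaBar_self_le : finrankAlong Qb (heckeBetaBar Qb p p) ≤ p := by
  haveI : NeZero (p * p) := ⟨Nat.mul_ne_zero (NeZero.ne p) (NeZero.ne p)⟩
  set F' := modularFunctionFieldBar (p * p)
  set φ := heckeBetaBar Qb p p
  obtain ⟨R, hR, hd, h1, h2⟩ := exists_transposed_relation (m := p) hp.out
  rw [← one_mul p, Reduction.dedekindPsi_mul_prime one_ne_zero hp.out
    (fun h => hp.out.ne_one (Nat.dvd_one.1 h)), dedekindPsi_one, one_mul] at hd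
  set x : F' := heckeAlphaBar Qb p p (jBar p) with hxdef
  have hx : (x : LaurentSeries Qb) = Modular.serJ Qb := coe_heckeAlphaBar p p _
  set P : Polynomial (modularFunctionFieldBar p) := R.map (aeval (jBar p)).toRingHom with hPdef
  have hval : ∀ {N : ℕ} [NeZero N] (y z : modularFunctionFieldBar N),
      (((R.map (aeval y).toRingHom).eval z : _) : LaurentSeries Qb) =
        R.eval₂ (aeval (y : LaurentSeries Qb)).toRingHom (z : LaurentSeries Qb) := fun {N} _ y z => by
    rw [Polynomial.eval_map]
    refine (Polynomial.hom_eval₂ _ _ (modularFunctionFieldBar N).val.toRingHom _).trans ?_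
    congr 1
    exact Polynomial.ringHom_ext (fun a => by simp) (by simp)
  have hroot : P.IsRoot (jNBar p) := Subtype.ext (by
    rw [hPdef, hval, coe_jNBar]
    show R.eval₂ (aeval (coeffEmb Qb jq)).toRingHom _ = 0
    rw [show ModularCurve.qExpand Qb p (Modular.serJ Qb) = Modular.serJd Qb p from
      (coeffMap_qExpand _ p jq).symm]
    exact h1)
  obtain ⟨q, hq⟩ := Polynomial.dvd_iff_isRoot.2 hroot
  have hPm : P.Monic := hR.map _
  have hqm : q.Monic := (Polynomial.monic_X_sub_C _).of_mul_monic_left (hq ▸ hPm)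
  have hqd : q.natDegree = p := by
    have := congrArg Polynomial.natDegree hq
    rw [(Polynomial.monic_X_sub_C _).natDegree_mul hqm, Polynomial.natDegree_X_sub_C, hPdef,
      hR.natDegree_map, hd] at this
    omega
  letI := algebraAlong φ
  haveI := isScalarTower_along φ
  have hev : Polynomial.aeval x P = 0 := by
    rw [Polynomial.aeval_def, hPdef, Polynomial.eval₂_map]
    refine Subtype.ext ?_
    refine (Polynomial.hom_eval₂ _ _ F'.val.toRingHom _).trans ?_
    refine Eq.trans ?_ h2
    show R.eval₂ _ (x : LaurentSeries Qb) = _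
    rw [hx]
    congr 1
    refine Polynomial.ringHom_ext (fun a => ?_) ?_
    · show ((φ (aeval (jBar p) (C a)) : F') : LaurentSeries Qb) = _
      rw [aeval_C, AlgHom.commutes]
      simp
    · show ((φ (aeval (jBar p) X) : F') : LaurentSeries Qb) = _
      rw [aeval_X, coe_betaBar_jBar]
      simp
  have hqx : Polynomial.aeval x q = 0 := by
    rw [hq, map_mul, mul_eq_zero, map_sub, Polynomial.aeval_X, Polynomial.aeval_C] at hev
    refine hev.resolve_left fun h => ?_
    have h' : x = φ (jNBar p) := sub_eq_zero.1 h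
    have := congrArg (fun f : F' => (f : LaurentSeries Qb).coeff (-1)) h'
    simp only [hx, φ, coe_betaBar_jNBar] at this
    revert this
    show (coeffEmb Qb jq).coeff (-1) = (coeffEmb Qb (ModularCurve.qExpand ℚ (p * p) jq)).coeff (-1) → _
    rw [coeffEmb, coeffMap_coeff, coeffMap_coeff, coeff_jq_neg_one, map_one,
      qExpand_coeff_of_not_dvd _ _ (fun h => ?_), map_zero]
    · exact one_ne_zero
    · have := Int.natAbs_dvd_natAbs.2 h
      simp only [Int.natAbs_natCast, Int.natAbs_neg, Int.natAbs_one, Nat.dvd_one, mul_eq_one] at this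
      exact hp.out.ne_one this.1
  have hint : IsIntegral (modularFunctionFieldBar p) x := ⟨q, hqm, hqx⟩
  -- `x` generates
  have hgen : IntermediateField.adjoin (modularFunctionFieldBar p) {x} = ⊤ := by
    set E := IntermediateField.adjoin (modularFunctionFieldBar p) ({x} : Set F') with hE
    have hβ : ∀ y, φ y ∈ E := fun y => E.algebraMap_mem y
    set E' : IntermediateField Qb (LaurentSeries Qb) :=
      (E.restrictScalars Qb).map F'.val
    have hle : F' ≤ E' := by
      change laurentBaseChange Qb (modularFunctionFieldFull (p * p)) ≤ E'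
      rw [Reduction.laurentBaseChange_full_eq_adjoin, IntermediateField.adjoin_le_iff]
      rintro _ ⟨_, ⟨d, hd0, hd, rfl⟩, rfl⟩
      rw [← sq] at hd
      obtain ⟨i, hi, rfl⟩ := (Nat.dvd_prime_pow hp.out).1 hd
      interval_cases i
      · refine ⟨x, (IntermediateField.mem_restrictScalars Qb).2 (IntermediateField.subset_adjoin _ _ rfl), ?_⟩
        show (x : LaurentSeries Qb) = _
        rw [hx, qExpand_congr (pow_zero p), qExpand_one_apply]
        rfl
      · refine ⟨φ (jBar p), (IntermediateField.mem_restrictScalars Qb).2 (hβ _), ?_⟩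
        show ((φ (jBar p) : F') : LaurentSeries Qb) = _
        rw [coe_betaBar_jBar, qExpand_congr (pow_one p)]
        rfl
      · refine ⟨φ (jNBar p), (IntermediateField.mem_restrictScalars Qb).2 (hβ _), ?_⟩
        show ((φ (jNBar p) : F') : LaurentSeries Qb) = _
        rw [coe_betaBar_jNBar, qExpand_congr (sq p)]
        rfl
    refine eq_top_iff.2 fun y _ => ?_
    obtain ⟨z, hz, hzy⟩ := hle y.2
    rwa [show y = z from Subtype.ext hzy.symm]
  show Module.finrank (modularFunctionFieldBar p) F' ≤ p
  rw [← IntermediateField.finrank_top', ← hgen, IntermediateField.adjoin.finrank hint]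
  exact (Polynomial.natDegree_le_of_dvd (minpoly.dvd _ _ hqx) hqm.ne_zero).trans hqd.le

/-- The degree of `β` out of level `p`. -/
theorem finrankAlong_heckeBetaBar_le {m : ℕ} [NeZero m] (hm : m.Prime) :
    finrankAlong Qb (heckeBetaBar Qb p m) ≤ (if m = p then m else m + 1) := by
  split_ifs with h
  · subst h
    exact finrankAlong_heckeBetaBar_self_le
  · exact (finrankAlong_heckeBetaBar_of_ne hm h).le

end Fermat.Agent.Mazur.Immersion
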