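import Fermat.Agent.Mazur.Immersion.HeckeCusp
import Fermat.Agent.Curve.Functorial
import Mathlib.RingTheory.RootsOfUnity.AlgebraicallyClosed

/-!
# The Hecke correspondences on the places of the disc of `∞`
-/

set_option autoImplicit false
set_option synthInstance.maxHeartbeats 400000

noncomputable section

open ModularCurve AlgebraicCurve

namespace Fermat.Agent.Mazur.Immersion

open Fermat.Agent.Curve

local notation "Qb" => AlgebraicClosure ℚ

section Abstract

variable {L : Type*} [Field L] {K : Type*} [NormedField K] [IsUltrametricDist K]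
  [CompleteSpace K] {ι : L →+* K} {F F' : IntermediateField L (LaurentSeries L)}
  [IsFunctionField1 L F] [IsFunctionField1 L F'] {D : DiscData ι F} {D' : DiscData ι F'}

/-- The place of a point restricts to the place of its image. -/
theorem DiscData.Pt.restrictAlong_place (φ : F →ₐ[L] F') (hφ : φ.toRingHom.IsIntegral)
    (P : D.Pt) (Q : D'.Pt) (hmem : ∀ g ∈ D.bddIn, φ g ∈ D'.bddIn)
    (hval : ∀ g ∈ D.bddIn, sval Q.r (D'.ser (φ g)) = sval P.r (D.ser g)) :
    Q.place.restrictAlong φ hφ = P.place := by
  refine (eq_of_toValuationSubring_le ?_).symm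
  rintro f ⟨g, h, hg, hh, h0, e⟩
  rw [mem_restrictAlong_iff]
  exact ⟨φ g, φ h, hmem g hg, hmem h hh, by rwa [hval h hh], by rw [← map_mul, e]⟩

end Abstract

section Fibre

variable {K F F' : Type*} [Field K] [IsAlgClosed K] [Field F] [Field F'] [Algebra K F]
  [Algebra K F'] [IsFunctionField1 K F] [IsFunctionField1 K F']
  (φ : F →ₐ[K] F') (hφ : φ.toRingHom.IsIntegral)

/-- As many places in a fibre as the degree exhaust it, unramified. -/
theorem fiberAlong_eq_of_card_ge {P : Place K F} (W : Finset (Place K F'))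
    (hW : ∀ w ∈ W, w.restrictAlong φ hφ = P) (hcard : finrankAlong K φ ≤ W.card) :
    Place.fiberAlong φ hφ P = W ∧ ∀ w ∈ W, w.ramificationIndexAlong φ = 1 := by
  have hsub : W ⊆ Place.fiberAlong φ hφ P := fun w hw => Place.mem_fiberAlong.2 (hW w hw)
  have hpos : ∀ w : Place K F', 1 ≤ w.ramificationIndexAlong φ := fun w => by
    letI := algebraAlong φ
    haveI := isScalarTower_along φ
    haveI := isIntegral_along φ hφ
    exact w.ramificationIndex_pos (F := F)
  have hsum := sum_ramificationIndexAlong φ hφ P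
  have h1 : (Place.fiberAlong φ hφ P).card ≤ finrankAlong K φ := by
    rw [← hsum, Finset.card_eq_sum_ones]
    exact Finset.sum_le_sum fun w _ => hpos w
  have heq : Place.fiberAlong φ hφ P = W :=
    (Finset.eq_of_subset_of_card_le hsub (h1.trans hcard)).symm
  refine ⟨heq, fun w hw => ?_⟩
  rw [heq] at hsum
  by_contra hne
  have : W.card < ∑ v ∈ W, v.ramificationIndexAlong φ := by
    rw [Finset.card_eq_sum_ones]
    exact Finset.sum_lt_sum (fun v _ => hpos v) ⟨w, hw, lt_of_le_of_ne (hpos w) (Ne.symm hne)⟩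
  omega

end Fibre

variable {l : ℕ} [Fact l.Prime] {p : ℕ} [hp : Fact p.Prime] [NeZero p] {m : ℕ} [NeZero m]
  [NeZero (p * m)]

theorem ser_heckeAlphaBar (g : modularFunctionFieldBar p) :
    (discX0 l (p * m)).ser (heckeAlphaBar Qb p m g) = (discX0 l p).ser g := by
  rw [DiscData.ser_apply, DiscData.ser_apply, coe_heckeAlphaBar]

theorem ser_heckeBetaBar (g : modularFunctionFieldBar p) :
    (discX0 l (p * m)).ser (heckeBetaBar Qb p m g) =
      ModularCurve.qExpand (PadicComplex l) m ((discX0 l p).ser g) := by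
  rw [DiscData.ser_apply, DiscData.ser_apply, coe_heckeBetaBar]
  exact coeffMap_qExpand _ m _

theorem restrictAlong_alpha_place {P : PtX l p} {Q : PtX l (p * m)} (h : Q.r = P.r)
    (hα : (heckeAlphaBar Qb p m).toRingHom.IsIntegral) :
    Q.place.restrictAlong (heckeAlphaBar Qb p m) hα = P.place :=
  DiscData.Pt.restrictAlong_place _ hα P Q
    (fun g hg => by rw [DiscData.mem_bddIn, ser_heckeAlphaBar]; exact hg)
    fun g _ => by rw [ser_heckeAlphaBar, h]

theorem restrictAlong_beta_place {P : PtX l p} {Q : PtX l (p * m)} (h : Q.r ^ m = P.r)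
    (hβ : (heckeBetaBar Qb p m).toRingHom.IsIntegral) :
    Q.place.restrictAlong (heckeBetaBar Qb p m) hβ = P.place :=
  DiscData.Pt.restrictAlong_place _ hβ P Q
    (fun g hg => by
      obtain ⟨C, hC⟩ := hg
      rw [DiscData.mem_bddIn, ser_heckeBetaBar]
      exact ⟨C, hC.qExpand m⟩)
    fun g _ => by rw [ser_heckeBetaBar, sval_qExpand, h]

omit [Fact l.Prime] hp [NeZero p] [NeZero (p * m)] in
/-- The `m`-th roots of `r` and their power sums. -/
theorem exists_roots {K : Type*} [Field K] [IsAlgClosed K] [CharZero K] {r : K} (hr : r ≠ 0) :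
    ∃ S : Finset K, S.card = m ∧ (∀ s ∈ S, s ^ m = r) ∧
      ∀ n : ℕ, ∑ s ∈ S, s ^ n = if m ∣ n then (m : K) * r ^ (n / m) else 0 := by
  classical
  obtain ⟨s, hs⟩ := IsAlgClosed.exists_pow_nat_eq r (NeZero.pos m)
  haveI : NeZero (m : K) := ⟨Nat.cast_ne_zero.2 (NeZero.ne m)⟩
  obtain ⟨ζ, hζ⟩ := HasEnoughRootsOfUnity.exists_primitiveRoot K m
  have hs0 : s ≠ 0 := fun h => hr (by rw [← hs, h, zero_pow (NeZero.ne m)])
  have hinj : Set.InjOn (fun i => s * ζ ^ i) ↑(Finset.range m) := fun i hi j hj h =>
    hζ.pow_inj (by simpa using hi) (by simpa using hj) (mul_left_cancel₀ hs0 h)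
  refine ⟨(Finset.range m).image fun i => s * ζ ^ i, ?_, ?_, fun n => ?_⟩
  · rw [Finset.card_image_of_injOn hinj, Finset.card_range]
  · simp only [Finset.mem_image, Finset.mem_range, forall_exists_index, and_imp]
    rintro _ i - rfl
    rw [mul_pow, hs, pow_right_comm, hζ.pow_eq_one, one_pow, mul_one]
  · rw [Finset.sum_image hinj]
    simp_rw [mul_pow, ← Finset.mul_sum, ← pow_mul, mul_comm _ n, pow_mul]
    split_ifs with h
    · obtain ⟨k, rfl⟩ := h
      simp only [pow_mul, hζ.pow_eq_one, hs, one_pow, Finset.sum_const, Finset.card_range,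
        nsmul_eq_mul, mul_one, Nat.mul_div_cancel_left _ (NeZero.pos m)]
      rw [mul_comm]
    · rw [geom_sum_eq (fun h1 => h (hζ.dvd_of_pow_eq_one n h1)), pow_right_comm,
        hζ.pow_eq_one, one_pow, sub_self, zero_div]
      simp

/-- The image of a disc place under the correspondence. -/
theorem exists_correspondence_single (hm : m.Prime)
    (hα : (heckeAlphaBar Qb p m).toRingHom.IsIntegral)
    (hβ : (heckeBetaBar Qb p m).toRingHom.IsIntegral) (P : PtX l p) :
    ∃ E : Finset (PtX l p),
      Divisor.correspondence (heckeBetaBar Qb p m) (heckeAlphaBar Qb p m) hβ hα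
        (Finsupp.single P.place 1) = ∑ Q ∈ E, Finsupp.single Q.place 1 ∧
      ∀ n : ℕ, ∑ Q ∈ E, Q.r ^ n =
        (if m ∣ n then (m : PadicComplex l) * P.r ^ (n / m) else 0) +
          (if m = p then 0 else P.r ^ (m * n)) := by
  classical
  obtain ⟨S, hcard, hSm, hsum⟩ := exists_roots (m := m) P.ne_zero
  choose Qf hQf using fun s : S => exists_pt_root P hm (hSm s.1 s.2)
  have hQinj : Function.Injective Qf := fun a b h => Subtype.ext (by rw [← hQf a, ← hQf b, h])
  -- the places above
  set wf : S → Place Qb (modularFunctionFieldBar (p * m)) := fun s => (liftPt (p * m) (Qf s)).place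
  have hwα : ∀ s, (wf s).restrictAlong (heckeAlphaBar Qb p m) hα = (Qf s).place := fun s =>
    restrictAlong_alpha_place (liftPt_r _ _) hα
  have hwβ : ∀ s, (wf s).restrictAlong (heckeBetaBar Qb p m) hβ = P.place := fun s =>
    restrictAlong_beta_place (by rw [liftPt_r, hQf]; exact hSm s.1 s.2) hβ
  have hwinj : Function.Injective wf := fun a b h => hQinj (DiscData.Pt.place_injective
    (by rw [← hwα a, ← hwα b, h]))
  have hdeg := finrankAlong_heckeBetaBar_le (p := p) hm
  by_cases hmp : m = p
  · rw [if_pos hmp] at hdeg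
    obtain ⟨hfib, he⟩ := fiberAlong_eq_of_card_ge (heckeBetaBar Qb p m) hβ (P := P.place)
      (Finset.univ.image wf) (fun w hw => by
        obtain ⟨s, -, rfl⟩ := Finset.mem_image.1 hw
        exact hwβ s)
      (by rw [Finset.card_image_of_injective _ hwinj, Finset.card_univ, Fintype.card_coe, hcard]
          exact hdeg)
    refine ⟨Finset.univ.image Qf, ?_, fun n => ?_⟩
    · rw [correspondence_single, hfib, Finset.sum_image fun a _ b _ h => hwinj h,
        Finset.sum_image fun a _ b _ h => hQinj h]
      refine Finset.sum_congr rfl fun s _ => ?_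
      rw [hwα, he _ (Finset.mem_image_of_mem _ (Finset.mem_univ _)), Nat.cast_one, mul_one]
    · rw [if_pos hmp, add_zero, Finset.sum_image fun a _ b _ h => hQinj h, ← hsum]
      simp only [hQf]
      exact Finset.sum_coe_sort S (fun s => s ^ n)
  · rw [if_neg hmp] at hdeg
    obtain ⟨W, hWα, hWβ, hWb⟩ := exists_involution (p := p) hm hmp
    obtain ⟨Q₀, hQ₀⟩ := exists_pt_pow P m
    let e : modularFunctionFieldBar (p * m) ≃ₐ[Qb] modularFunctionFieldBar (p * m) :=
      AlgEquiv.ofBijective W hWb
    set w₀ := placeComap e (liftPt (p * m) P).place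
    have hmem : ∀ f, f ∈ w₀.toValuationSubring ↔
        W f ∈ (liftPt (p * m) P).place.toValuationSubring := fun f => mem_placeComap_iff e _ f
    have h₀β : w₀.restrictAlong (heckeBetaBar Qb p m) hβ = P.place := by
      rw [← restrictAlong_alpha_place (m := m) (liftPt_r (p * m) P) hα]
      refine Place.ext (SetLike.ext fun f => ?_)
      rw [mem_restrictAlong_iff, mem_restrictAlong_iff, hmem, ← hWβ]
      rfl
    have h₀α : w₀.restrictAlong (heckeAlphaBar Qb p m) hα = Q₀.place := by
      rw [← restrictAlong_beta_place (m := m) (P := Q₀) (Q := liftPt (p * m) P)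
        (by rw [liftPt_r, hQ₀]) hβ]
      refine Place.ext (SetLike.ext fun f => ?_)
      rw [mem_restrictAlong_iff, mem_restrictAlong_iff, hmem, ← hWα]
      rfl
    have hnotQ : Q₀ ∉ Finset.univ.image Qf := by
      simp only [Finset.mem_image, Finset.mem_univ, true_and, not_exists]
      intro s h
      have h1 := congrArg (fun Q : PtX l p => ‖Q.r‖ ^ m) h
      simp only [hQf, hQ₀, ← norm_pow, hSm s.1 s.2, ← pow_mul] at h1
      rw [norm_pow] at h1
      have h2 : ‖P.r‖ ^ (m * m) < ‖P.r‖ ^ 1 :=
        pow_lt_pow_right_of_lt_one₀ (norm_pos_iff.2 P.ne_zero) P.norm_lt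
          (Nat.lt_of_lt_of_le hm.one_lt (Nat.le_mul_self m))
      rw [← h1, pow_one] at h2
      exact lt_irrefl _ h2
    have hnot : w₀ ∉ Finset.univ.image wf := by
      simp only [Finset.mem_image, Finset.mem_univ, true_and, not_exists]
      intro s h
      refine hnotQ (Finset.mem_image.2 ⟨s, Finset.mem_univ _, DiscData.Pt.place_injective ?_⟩)
      rw [← hwα s, h, h₀α]
    obtain ⟨hfib, he⟩ := fiberAlong_eq_of_card_ge (heckeBetaBar Qb p m) hβ (P := P.place)
      (insert w₀ (Finset.univ.image wf)) (fun w hw => by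
        rcases Finset.mem_insert.1 hw with rfl | hw
        · exact h₀β
        · obtain ⟨s, -, rfl⟩ := Finset.mem_image.1 hw
          exact hwβ s)
      (by rw [Finset.card_insert_of_notMem hnot, Finset.card_image_of_injective _ hwinj,
            Finset.card_univ, Fintype.card_coe, hcard]
          exact hdeg)
    refine ⟨insert Q₀ (Finset.univ.image Qf), ?_, fun n => ?_⟩
    · rw [correspondence_single, hfib, Finset.sum_insert hnot, Finset.sum_insert hnotQ,
        Finset.sum_image fun a _ b _ h => hwinj h, Finset.sum_image fun a _ b _ h => hQinj h,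
        h₀α, he _ (Finset.mem_insert_self _ _), Nat.cast_one, mul_one]
      congr 1
      refine Finset.sum_congr rfl fun s _ => ?_
      rw [hwα, he _ (Finset.mem_insert_of_mem (Finset.mem_image_of_mem _ (Finset.mem_univ _))),
        Nat.cast_one, mul_one]
    · rw [if_neg hmp, Finset.sum_insert hnotQ, Finset.sum_image fun a _ b _ h => hQinj h, hQ₀,
        ← hsum, ← pow_mul, add_comm]
      simp only [hQf]
      rw [Finset.sum_coe_sort S (fun s => s ^ n)]

/-- The correspondence at `∞`. -/
theorem correspondence_cuspInfty (hm : m.Prime)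
    (hα : (heckeAlphaBar Qb p m).toRingHom.IsIntegral)
    (hβ : (heckeBetaBar Qb p m).toRingHom.IsIntegral) :
    Divisor.correspondence (heckeBetaBar Qb p m) (heckeAlphaBar Qb p m) hβ hα
        (Finsupp.single (cuspInfty p) 1) =
      Finsupp.single (cuspInfty p) (finrankAlong Qb (heckeBetaBar Qb p m) : ℤ) := by
  rw [correspondence_single, ← sum_ramificationIndexAlong (heckeBetaBar Qb p m) hβ (cuspInfty p),
    Nat.cast_sum, Finsupp.single_finsetSum]
  refine Finset.sum_congr rfl fun w hw => ?_
  rw [restrictAlong_alpha_eq_cuspInfty hm hα hβ w (Place.mem_fiberAlong.1 hw), one_mul]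

end Fermat.Agent.Mazur.Immersion
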