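import Fermat.Agent.Mazur.Immersion.JDisc
import Mathlib.Analysis.Normed.Ring.Ultra

/-!
# The logarithm of a Laurent series congruent to one

For a bounded series `x` with all coefficients of `x - 1` of norm `≤ δ < 1` the coefficients of
`log x` converge. Pairing the polar part with a bounded sequence `a` gives an additive functional
`pairing a`, whose value on `1 - r/q` is minus the formal logarithm `∑ aₙ rⁿ / n`.
-/

set_option autoImplicit false

noncomputable section

open Filter Topology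

namespace Fermat.Agent.Mazur.Immersion

variable {K : Type*} [NormedField K]

/-- `q d/dq`. -/
def theta (x : LaurentSeries K) : LaurentSeries K where
  coeff n := n * x.coeff n
  isPWO_support' := x.isPWO_support.mono fun n hn => by
    contrapose! hn; simp [Function.notMem_support.1 hn]

@[simp] theorem coeff_theta (x : LaurentSeries K) (n : ℤ) :
    (theta x).coeff n = n * x.coeff n := rfl

theorem theta_mul (x y : LaurentSeries K) : theta (x * y) = theta x * y + x * theta y := by
  ext n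
  rw [coeff_theta, HahnSeries.coeff_add]
  refine ((hasSum_antidiag x y n).mul_left (n : K)).unique ?_
  refine ((hasSum_antidiag (theta x) y n).add (hasSum_antidiag x (theta y) n)).congr_fun fun i => ?_
  simp only [coeff_theta, Int.cast_sub]
  ring

theorem theta_sub (x y : LaurentSeries K) : theta (x - y) = theta x - theta y := by
  ext n; simp [mul_sub]

@[simp] theorem theta_one : theta (1 : LaurentSeries K) = 0 := by
  ext n; rcases eq_or_ne n 0 with rfl | h <;> simp [HahnSeries.coeff_one, *]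

theorem theta_pow_succ (x : LaurentSeries K) (j : ℕ) :
    theta (x ^ (j + 1)) = (j + 1 : ℕ) • (x ^ j * theta x) := by
  induction j with
  | zero => simp
  | succ j ih =>
    rw [pow_succ x (j + 1), theta_mul, ih, succ_nsmul _ (j + 1), smul_mul_assoc, mul_assoc,
      mul_comm (theta x) x, ← mul_assoc, ← pow_succ]

/-- All coefficients of `x - 1` have norm at most `δ`. -/
def Near (δ : ℝ) (x : LaurentSeries K) : Prop := BddBy δ (x - 1)

/-- The coefficient of `qⁿ` in `log x`. -/
def logCoeff (n : ℤ) (x : LaurentSeries K) : K :=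
  -∑' j : ℕ, ((1 - x) ^ (j + 1)).coeff n / ((j + 1 : ℕ) : K)

/-- The truncated logarithmic derivative. -/
def logDeriv' (J : ℕ) (x : LaurentSeries K) : LaurentSeries K :=
  (∑ j ∈ Finset.range J, (1 - x) ^ j) * theta x

theorem mul_logDeriv' (J : ℕ) (x : LaurentSeries K) :
    x * logDeriv' J x = theta x - (1 - x) ^ J * theta x := by
  rw [logDeriv', ← mul_assoc]
  nth_rw 1 [show x = 1 - (1 - x) from (sub_sub_cancel 1 x).symm]
  rw [mul_neg_geom_sum, sub_mul, one_mul]

theorem coeff_logDeriv' [CharZero K] (n : ℤ) (J : ℕ) (x : LaurentSeries K) :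
    (logDeriv' J x).coeff n =
      -(n * ∑ j ∈ Finset.range J, ((1 - x) ^ (j + 1)).coeff n / ((j + 1 : ℕ) : K)) := by
  rw [logDeriv', Finset.sum_mul, HahnSeries.coeff_sum, Finset.mul_sum, ← Finset.sum_neg_distrib]
  refine Finset.sum_congr rfl fun j _ => ?_
  have h := congrArg (fun y : LaurentSeries K => y.coeff n) (theta_pow_succ (1 - x) j)
  simp only [coeff_theta, theta_sub, theta_one, zero_sub, mul_neg, smul_neg, HahnSeries.coeff_neg,
    HahnSeries.coeff_smul] at h
  rw [nsmul_eq_mul] at h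
  rw [mul_div_assoc', h]
  have hj : ((j + 1 : ℕ) : K) ≠ 0 := Nat.cast_ne_zero.2 (Nat.succ_ne_zero j)
  field_simp

variable [IsUltrametricDist K]

theorem Near.bddBy_one_sub {δ : ℝ} {x : LaurentSeries K} (h : Near δ x) : BddBy δ (1 - x) := by
  simpa using h.neg

theorem Near.bddBy {δ : ℝ} {x : LaurentSeries K} (h : Near δ x) (hδ : δ ≤ 1) : BddBy 1 x := by
  simpa using (h.mono hδ).add bddBy_one

theorem Near.mul {δ : ℝ} {x y : LaurentSeries K} (hx : Near δ x) (hy : Near δ y) (hδ : δ ≤ 1) :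
    Near δ (x * y) := by
  have h : x * y - 1 = (x - 1) * (y - 1) + (x - 1) + (y - 1) := by ring
  rw [Near, h]
  exact (((BddBy.mul hx hy).mono (mul_le_of_le_one_right hx.nonneg hδ)).add hx).add hy

theorem near_one {δ : ℝ} (hδ : 0 ≤ δ) : Near δ (1 : LaurentSeries K) := by
  simpa [Near] using bddBy_zero hδ

theorem Near.prod {δ : ℝ} (hδ0 : 0 ≤ δ) (hδ : δ ≤ 1) {ι : Type*} (s : Finset ι)
    {x : ι → LaurentSeries K} (h : ∀ i ∈ s, Near δ (x i)) : Near δ (∏ i ∈ s, x i) :=
  Finset.prod_induction x (Near δ) (fun _ _ ha hb => ha.mul hb hδ) (near_one hδ0) h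

theorem BddBy.theta {C : ℝ} {x : LaurentSeries K} (h : BddBy C x) :
    BddBy C (Immersion.theta x) := fun n => by
  rw [coeff_theta, norm_mul]
  exact (mul_le_of_le_one_left (norm_nonneg _) (IsUltrametricDist.norm_intCast_le_one K n)).trans (h n)

theorem Near.theta {δ : ℝ} {x : LaurentSeries K} (h : Near δ x) : BddBy δ (Immersion.theta x) := by
  simpa [theta_sub] using BddBy.theta h

theorem bddBy_logDeriv'_mul_sub {δ : ℝ} (hδ0 : 0 ≤ δ) (hδ : δ ≤ 1) {x y : LaurentSeries K}
    (hx : Near δ x) (hy : Near δ y) (J : ℕ) :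
    BddBy (δ ^ J) (logDeriv' J (x * y) - logDeriv' J x - logDeriv' J y) := by
  have hxy := hx.mul hy hδ
  set D := logDeriv' J (x * y) - logDeriv' J x - logDeriv' J y
  have hs : ∀ z : LaurentSeries K, Near δ z → BddBy 1 (∑ j ∈ Finset.range J, (1 - z) ^ j) :=
    fun z hz => bddBy_sum zero_le_one _ fun j _ =>
      (hz.bddBy_one_sub.pow j).mono (pow_le_one₀ hδ0 hδ)
  have hl : ∀ z : LaurentSeries K, Near δ z → BddBy 1 (logDeriv' J z) := fun z hz => by
    simpa [logDeriv'] using (hs z hz).mul (hz.theta.mono hδ)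
  have hD : BddBy 1 D := ((hl _ hxy).sub (hl _ hx)).sub (hl _ hy)
  have hxyD : BddBy (δ ^ J) (x * y * D) := by
    have e : x * y * D = -((1 - x * y) ^ J * theta (x * y)) + y * ((1 - x) ^ J * theta x)
        + x * ((1 - y) ^ J * theta y) := by
      linear_combination (mul_logDeriv' J (x * y)) - y * mul_logDeriv' J x
        - x * mul_logDeriv' J y + theta_mul x y
    have hp : ∀ z : LaurentSeries K, Near δ z → BddBy (δ ^ J) ((1 - z) ^ J * theta z) :=
      fun z hz => by simpa using (hz.bddBy_one_sub.pow J).mul (hz.theta.mono hδ)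
    rw [e]
    exact ((hp _ hxy).neg.add (by simpa using (hy.bddBy hδ).mul (hp _ hx))).add
      (by simpa using (hx.bddBy hδ).mul (hp _ hy))
  have e : D = (∑ j ∈ Finset.range J, (1 - x * y) ^ j) * (x * y * D) + (1 - x * y) ^ J * D := by
    have hg : x * y * (∑ j ∈ Finset.range J, (1 - x * y) ^ j) = 1 - (1 - x * y) ^ J := by
      nth_rw 1 [show x * y = 1 - (1 - x * y) from (sub_sub_cancel 1 _).symm]
      exact mul_neg_geom_sum _ _
    linear_combination -D * hg
  rw [e]
  exact (by simpa using (hs _ hxy).mul hxyD : BddBy _ _).add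
    (by simpa using (hxy.bddBy_one_sub.pow J).mul hD)

/-- `‖m‖⁻¹ ≤ m` for positive integers `m`; true in `ℂ_[p]`. -/
def NatNormBound (K : Type*) [NormedField K] : Prop := ∀ m : ℕ, m ≠ 0 → 1 ≤ (m : ℝ) * ‖(m : K)‖

variable [CompleteSpace K] (hK : NatNormBound K) {δ : ℝ} (hδ0 : 0 ≤ δ) (hδ : δ < 1)
include hK hδ0 hδ

omit [CompleteSpace K] hδ in
theorem norm_logTerm_le {x : LaurentSeries K} (hx : Near δ x) (n : ℤ) (j : ℕ) :
    ‖((1 - x) ^ (j + 1)).coeff n / ((j + 1 : ℕ) : K)‖ ≤ ((j + 1 : ℕ) : ℝ) * δ ^ (j + 1) := by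
  have hm := hK (j + 1) (Nat.succ_ne_zero j)
  have hpos : 0 < ‖((j + 1 : ℕ) : K)‖ :=
    pos_of_mul_pos_right (one_pos.trans_le hm) (Nat.cast_nonneg _)
  rw [norm_div, div_le_iff₀ hpos, mul_right_comm]
  exact ((hx.bddBy_one_sub.pow (j + 1)) n).trans
    (le_mul_of_one_le_left (by positivity) hm)

omit [CompleteSpace K] hK [IsUltrametricDist K] in
theorem tendsto_logBound :
    Tendsto (fun j : ℕ => ((j + 1 : ℕ) : ℝ) * δ ^ (j + 1)) atTop (𝓝 0) :=
  (tendsto_self_mul_const_pow_of_lt_one hδ0 hδ).comp (tendsto_add_atTop_nat 1)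

theorem summable_logTerm {x : LaurentSeries K} (hx : Near δ x) (n : ℤ) :
    Summable fun j : ℕ => ((1 - x) ^ (j + 1)).coeff n / ((j + 1 : ℕ) : K) := by
  refine NonarchimedeanAddGroup.summable_of_tendsto_cofinite_zero ?_
  rw [Nat.cofinite_eq_atTop]
  exact squeeze_zero_norm (norm_logTerm_le hK hδ0 hx n) (tendsto_logBound hδ0 hδ)

theorem tendsto_coeff_logDeriv' [CharZero K] {x : LaurentSeries K} (hx : Near δ x) (n : ℤ) :
    Tendsto (fun J => (logDeriv' J x).coeff n) atTop (𝓝 (n * logCoeff n x)) := by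
  simp_rw [coeff_logDeriv']
  rw [logCoeff, mul_neg]
  exact ((summable_logTerm hK hδ0 hδ hx n).hasSum.tendsto_sum_nat.const_mul _).neg

theorem logCoeff_mul [CharZero K] {x y : LaurentSeries K} (hx : Near δ x) (hy : Near δ y) {n : ℤ}
    (hn : n ≠ 0) : logCoeff n (x * y) = logCoeff n x + logCoeff n y := by
  have h1 := ((tendsto_coeff_logDeriv' hK hδ0 hδ (hx.mul hy hδ.le) n).sub
    (tendsto_coeff_logDeriv' hK hδ0 hδ hx n)).sub (tendsto_coeff_logDeriv' hK hδ0 hδ hy n)
  have h2 : Tendsto (fun J => (logDeriv' J (x * y)).coeff n - (logDeriv' J x).coeff n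
      - (logDeriv' J y).coeff n) atTop (𝓝 0) :=
    squeeze_zero_norm (fun J => by simpa using bddBy_logDeriv'_mul_sub hδ0 hδ.le hx hy J n)
      (tendsto_pow_atTop_nhds_zero_of_lt_one hδ0 hδ)
  have h3 := tendsto_nhds_unique h1 h2
  have hn' : (n : K) ≠ 0 := Int.cast_ne_zero.2 hn
  rw [← mul_sub, ← mul_sub] at h3
  linear_combination (mul_eq_zero.1 h3).resolve_left hn'

omit [CompleteSpace K] hK hδ0 hδ [IsUltrametricDist K] in
theorem coeff_pow_eq_zero {x : LaurentSeries K} {M : ℕ} (hx : ∀ n < -(M : ℤ), x.coeff n = 0)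
    (j : ℕ) : ∀ n < -((j * M : ℕ) : ℤ), (x ^ j).coeff n = 0 := by
  induction j with
  | zero => intro n hn; simp [HahnSeries.coeff_one]; omega
  | succ j ih =>
    intro n hn
    rw [pow_succ, coeff_mul_eq_sum]
    refine Finset.sum_eq_zero fun ij hij => ?_
    obtain ⟨-, -, h3⟩ := Finset.mem_antidiagonal.1 hij
    rcases lt_or_ge ij.1 (-((j * M : ℕ) : ℤ)) with h | h
    · rw [ih _ h, zero_mul]
    · rw [hx _ (by rw [Nat.succ_mul] at hn; push_cast at hn h ⊢; omega), mul_zero]

omit [CompleteSpace K] hK hδ0 hδ [IsUltrametricDist K] in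
theorem exists_bound (x : LaurentSeries K) : ∃ M : ℕ, ∀ n < -(M : ℤ), (1 - x).coeff n = 0 :=
  ⟨(-(1 - x).order).toNat, fun n hn => HahnSeries.coeff_eq_zero_of_lt_order (by omega)⟩

omit [CompleteSpace K] in
theorem tendsto_logCoeff_neg {x : LaurentSeries K} (hx : Near δ x) :
    Tendsto (fun n : ℕ => logCoeff (-(n : ℤ)) x) atTop (𝓝 0) := by
  obtain ⟨M, hM⟩ := exists_bound x
  rw [NormedAddGroup.tendsto_nhds_zero]
  intro ε hε
  obtain ⟨J, hJ⟩ := ((tendsto_logBound hδ0 hδ).eventually
    (eventually_le_nhds (half_pos hε))).exists_forall_of_atTop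
  refine eventually_atTop.2 ⟨J * M + 1, fun n hn => ?_⟩
  rw [logCoeff, norm_neg]
  refine lt_of_le_of_lt (IsUltrametricDist.norm_tsum_le_of_forall_le_of_nonneg (half_pos hε).le
    fun j => ?_) (half_lt_self hε)
  rcases lt_or_ge j J with h | h
  · rw [coeff_pow_eq_zero hM, zero_div, norm_zero]
    · exact (half_pos hε).le
    · have : (j + 1) * M ≤ J * M := Nat.mul_le_mul_right M h
      omega
  · exact (norm_logTerm_le hK hδ0 hx _ j).trans (hJ j h)

omit hK hδ0 hδ [CompleteSpace K] [IsUltrametricDist K] in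
/-- The pairing of the polar part of `log x` with a sequence. -/
def pairing (a : ℕ → K) (x : LaurentSeries K) : K := ∑' n : ℕ, a n * logCoeff (-(n : ℤ)) x

omit hK hδ0 hδ [CompleteSpace K] [IsUltrametricDist K] in
/-- The formal logarithm `∑ aₙ rⁿ / n`. -/
def logSum (a : ℕ → K) (r : K) : K := ∑' n : ℕ, a n * r ^ n / (n : K)

section Pairing

variable {a : ℕ → K} (ha : ∀ n, ‖a n‖ ≤ 1)
include ha

theorem summable_pairing {x : LaurentSeries K} (hx : Near δ x) :
    Summable fun n : ℕ => a n * logCoeff (-(n : ℤ)) x := by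
  refine NonarchimedeanAddGroup.summable_of_tendsto_cofinite_zero ?_
  rw [Nat.cofinite_eq_atTop]
  refine squeeze_zero_norm (fun n => ?_) (by simpa using (tendsto_logCoeff_neg hK hδ0 hδ hx).norm)
  rw [norm_mul]
  exact mul_le_of_le_one_left (norm_nonneg _) (ha n)

theorem pairing_mul [CharZero K] (ha0 : a 0 = 0) {x y : LaurentSeries K} (hx : Near δ x)
    (hy : Near δ y) : pairing a (x * y) = pairing a x + pairing a y := by
  rw [pairing, pairing, pairing, ← (summable_pairing hK hδ0 hδ ha hx).tsum_add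
    (summable_pairing hK hδ0 hδ ha hy)]
  refine tsum_congr fun n => ?_
  rcases eq_or_ne n 0 with rfl | hn
  · simp [ha0]
  · rw [logCoeff_mul hK hδ0 hδ hx hy (by omega), mul_add]

omit ha hK hδ0 hδ [IsUltrametricDist K] [CompleteSpace K] in
theorem pairing_one : pairing a (1 : LaurentSeries K) = 0 := by
  simp [pairing, logCoeff]

theorem pairing_prod [CharZero K] (ha0 : a 0 = 0) {ι : Type*} (s : Finset ι)
    {x : ι → LaurentSeries K} (h : ∀ i ∈ s, Near δ (x i)) :
    pairing a (∏ i ∈ s, x i) = ∑ i ∈ s, pairing a (x i) := by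
  classical
  induction s using Finset.induction_on with
  | empty => simp [pairing_one]
  | insert i s hi ih =>
    rw [Finset.prod_insert hi, Finset.sum_insert hi,
      pairing_mul hK hδ0 hδ ha ha0 (h i (Finset.mem_insert_self i s))
        (Near.prod hδ0 hδ.le s fun k hk => h k (Finset.mem_insert_of_mem hk)),
      ih fun k hk => h k (Finset.mem_insert_of_mem hk)]

omit hK hδ0 hδ ha [CompleteSpace K] [IsUltrametricDist K] in
theorem pairing_eq_zero_of_coeff_neg (ha0 : a 0 = 0) {x : LaurentSeries K}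
    (hx : ∀ n < 0, (1 - x).coeff n = 0) : pairing a x = 0 := by
  rw [pairing, tsum_congr (g := fun _ => (0 : K)) fun n => ?_, tsum_zero]
  rcases eq_or_ne n 0 with rfl | hn
  · simp [ha0]
  · have h0 : ∀ j : ℕ, ((1 - x) ^ (j + 1)).coeff (-(n : ℤ)) = 0 := fun j =>
      coeff_pow_eq_zero (M := 0) (by simpa using hx) (j + 1) _ (by omega)
    simp [logCoeff, h0]

omit hK hδ0 hδ ha [CompleteSpace K] [IsUltrametricDist K] in
theorem pairing_linear (ha0 : a 0 = 0) (r : K) :
    pairing a (1 - HahnSeries.single (-1 : ℤ) r) = -logSum a r := by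
  rw [pairing, logSum, ← tsum_neg]
  refine tsum_congr fun n => ?_
  rcases n with _ | m
  · simp [ha0]
  · rw [logCoeff, tsum_eq_single m fun j hj => ?_]
    · simp [sub_sub_cancel, HahnSeries.single_pow]; ring
    · simp [sub_sub_cancel, HahnSeries.single_pow,
        HahnSeries.coeff_single_of_ne (show (-1 : ℤ) + -(m : ℤ) ≠ -1 + -(j : ℤ) by omega)]

theorem pairing_eq_zero_of_forall {x : LaurentSeries K} (hx : Near δ x)
    (h : ∀ j : ℕ, ∑' n : ℕ, a n * ((1 - x) ^ (j + 1)).coeff (-(n : ℤ)) = 0) :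
    pairing a x = 0 := by
  obtain ⟨M, hM⟩ := exists_bound x
  let f : ℕ → ℕ → K := fun n j =>
    a n * (((1 - x) ^ (j + 1)).coeff (-(n : ℤ)) / ((j + 1 : ℕ) : K))
  have hf : Summable (Function.uncurry f) := by
    refine NonarchimedeanAddGroup.summable_of_tendsto_cofinite_zero ?_
    rw [NormedAddGroup.tendsto_nhds_zero]
    intro ε hε
    obtain ⟨J, hJ⟩ := ((tendsto_logBound hδ0 hδ).eventually
      (eventually_lt_nhds hε)).exists_forall_of_atTop
    refine ((Set.finite_Iic (J * M)).prod (Set.finite_Iio J)).subset fun p hp => ?_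
    replace hp : ε ≤ ‖f p.1 p.2‖ := le_of_not_gt hp
    have hlt : p.2 < J := by
      by_contra! h'
      have := (norm_mul _ _).trans_le ((mul_le_of_le_one_left (norm_nonneg _) (ha p.1)).trans
        (norm_logTerm_le hK hδ0 hx (-(p.1 : ℤ)) p.2))
      linarith [hJ _ h']
    refine ⟨?_, hlt⟩
    by_contra! h'
    have : (p.2 + 1) * M ≤ J * M := Nat.mul_le_mul_right M hlt
    have hz : ((1 - x) ^ (p.2 + 1)).coeff (-(p.1 : ℤ)) = 0 :=
      coeff_pow_eq_zero hM _ _ (by simp only [Set.mem_Iic] at *; omega)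
    simp [f, hz] at hp
    linarith
  calc pairing a x = -∑' n, ∑' j, f n j := by
        rw [pairing, ← tsum_neg]
        exact tsum_congr fun n => by rw [logCoeff, mul_neg, ← tsum_mul_left]
    _ = -∑' j, ∑' n, f n j := by rw [hf.tsum_comm]
    _ = 0 := by
        have : ∀ j, ∑' n, f n j = 0 := fun j => by
          simp only [f, mul_div_assoc']
          rw [tsum_div_const, h j, zero_div]
        simp [this]

end Pairing

end Fermat.Agent.Mazur.Immersion
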