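import Fermat.Agent.Mazur.Immersion.HeckeDisc
import Fermat.Agent.Mazur.Immersion.LogPairing
import Fermat.Agent.EichlerShimura.Commute

/-!
# Formal logarithms and the Hecke correspondences

The class `t • (P - ∞)` is supported on disc points and `∞`, and the formal logarithm of a form on
these points is the formal logarithm of `t` applied to the form at `P`.
-/

set_option autoImplicit false
set_option synthInstance.maxHeartbeats 400000
set_option linter.style.haveILetI false

noncomputable section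

open ModularCurve AlgebraicCurve Filter
open scoped Topology

namespace Fermat.Agent.Mazur.Immersion

local notation "Qb" => AlgebraicClosure ℚ

section Sums

variable {K : Type*} [NormedField K] [IsUltrametricDist K] [CompleteSpace K]

/-- The formal logarithm of an integral sequence. -/
def logInt (z : ℕ → ℤ) (r : K) : K := logSum (fun n => (z n : K)) r

theorem summable_logInt (hK : NatNormBound K) (z : ℕ → ℤ) {r : K} (hr : ‖r‖ < 1) :
    Summable fun n : ℕ => (z n : K) * r ^ n / (n : K) := by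
  refine NonarchimedeanAddGroup.summable_of_tendsto_cofinite_zero ?_
  rw [Nat.cofinite_eq_atTop]
  refine squeeze_zero_norm (fun n => ?_) (tendsto_self_mul_const_pow_of_lt_one (norm_nonneg r) hr)
  rcases eq_or_ne n 0 with rfl | hn
  · simp
  · have h1 := hK n hn
    have hpos : 0 < ‖(n : K)‖ := pos_of_mul_pos_right (one_pos.trans_le h1) (Nat.cast_nonneg _)
    rw [norm_div, norm_mul, norm_pow, div_le_iff₀ hpos, mul_right_comm]
    exact (mul_le_of_le_one_left (pow_nonneg (norm_nonneg r) n)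
      (IsUltrametricDist.norm_intCast_le_one K _)).trans
      (le_mul_of_one_le_left (pow_nonneg (norm_nonneg r) n) h1)

/-- The coefficients of `T_m` applied to a form, `e` saying whether `m` is prime to the level. -/
def heckeSeq (m : ℕ) (e : Prop) [Decidable e] (z : ℕ → ℤ) (n : ℕ) : ℤ :=
  z (n * m) + if e ∧ m ∣ n then (m : ℤ) * z (n / m) else 0

/-- The formal logarithms over a fibre. -/
theorem sum_logInt_eq [CharZero K] (hK : NatNormBound K) {ι : Type*} (E : Finset ι) (ρ : ι → K)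
    (hρ : ∀ i ∈ E, ‖ρ i‖ < 1) {r : K} (hr : ‖r‖ < 1) {m : ℕ} (hm : 0 < m) (e : Prop) [Decidable e]
    (hsum : ∀ n : ℕ, ∑ i ∈ E, ρ i ^ n =
      (if m ∣ n then (m : K) * r ^ (n / m) else 0) + (if e then r ^ (m * n) else 0))
    (z : ℕ → ℤ) :
    ∑ i ∈ E, logInt z (ρ i) = logInt (heckeSeq m e z) r := by
  have hinj : Function.Injective fun k : ℕ => m * k := fun a b h => Nat.eq_of_mul_eq_mul_left hm h
  have hrm : ‖r ^ m‖ < 1 := by
    rw [norm_pow]; exact pow_lt_one₀ (norm_nonneg r) hr hm.ne'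
  have hm0 : (m : K) ≠ 0 := Nat.cast_ne_zero.2 hm.ne'
  simp only [logInt, logSum]
  rw [← Summable.tsum_finsetSum fun i hi => summable_logInt hK z (hρ i hi)]
  simp_rw [← Finset.sum_div, ← Finset.mul_sum, hsum, mul_add, add_div]
  set G : ℕ → K := fun n => (z n : K) * (if m ∣ n then (m : K) * r ^ (n / m) else 0) / (n : K)
  set H : ℕ → K := fun n => (z n : K) * (if e then r ^ (m * n) else 0) / (n : K)
  set A : ℕ → K := fun k => ((z (k * m) : ℤ) : K) * r ^ k / (k : K) with hA
  set B : ℕ → K := fun k =>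
    ((if e ∧ m ∣ k then (m : ℤ) * z (k / m) else 0 : ℤ) : K) * r ^ k / (k : K) with hB
  have hAB : (fun k : ℕ => ((heckeSeq m e z k : ℤ) : K) * r ^ k / (k : K)) = fun k => A k + B k := by
    funext k; simp only [A, B, heckeSeq]; push_cast; ring
  have hGA : (fun k => G (m * k)) = A := by
    funext k
    simp only [G, A, dvd_mul_right, if_true, Nat.mul_div_cancel_left k hm, Nat.cast_mul]
    rw [mul_comm k m]
    rcases eq_or_ne k 0 with rfl | hk
    · simp
    · have : (k : K) ≠ 0 := Nat.cast_ne_zero.2 hk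
      field_simp
  have hBH : (fun n => B (m * n)) = H := by
    funext n
    simp only [B, H, dvd_mul_right, and_true, Nat.mul_div_cancel_left n hm, Nat.cast_mul]
    rcases eq_or_ne n 0 with rfl | hn
    · simp
    · have : (n : K) ≠ 0 := Nat.cast_ne_zero.2 hn
      split_ifs
      · push_cast; field_simp
      · simp
  have hA' : Summable A := summable_logInt hK (fun k => z (k * m)) hr
  have hB' : Summable B := summable_logInt hK _ hr
  have hG0 : ∀ n ∉ Set.range fun k : ℕ => m * k, G n = 0 := fun n hn => by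
    simp [G, show ¬ m ∣ n from fun ⟨k, hk⟩ => hn ⟨k, hk.symm⟩]
  have hB0 : ∀ n ∉ Set.range fun k : ℕ => m * k, B n = 0 := fun n hn => by
    simp [B, show ¬ m ∣ n from fun ⟨k, hk⟩ => hn ⟨k, hk.symm⟩]
  have hG' : Summable G := (hinj.summable_iff hG0).1 (by rw [Function.comp_def, hGA]; exact hA')
  have hH' : Summable H := by
    rw [← hBH]; exact (hinj.summable_iff hB0).2 hB'
  rw [hG'.tsum_add hH', hAB, hA'.tsum_add hB']
  congr 1
  · rw [← hinj.tsum_eq (fun n hn => by_contra fun h => hn (hG0 n h)), hGA]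
  · rw [← hinj.tsum_eq (f := B) (fun n hn => by_contra fun h => hn (hB0 n h)), hBH]

end Sums

variable {l : ℕ} [Fact l.Prime] {p : ℕ} [hp : Fact p.Prime] [NeZero p]

/-- Integral coefficients. -/
def IsIntSeq (φ : CuspForm (CongruenceSubgroup.Gamma0 p) 2) (z : ℕ → ℤ) : Prop :=
  ∀ n, ModularFormClass.qCoeff φ n = (z n : ℂ)

omit hp in
theorem formsAct_X_intSeq (ℓ : Nat.Primes) {φ : CuspForm (CongruenceSubgroup.Gamma0 p) 2}
    {z : ℕ → ℤ} (hz : IsIntSeq φ z) :
    IsIntSeq (formsAct p (MvPolynomial.X ℓ) φ) (heckeSeq ℓ (¬ (ℓ : ℕ) ∣ p) z) := by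
  intro n
  show ModularFormClass.qCoeff (formsAct p (heckeGen ℓ) φ) n = _
  by_cases h : (ℓ : ℕ) ∣ p
  · rw [formsAct_heckeGen_of_dvd p ℓ h, Periods.qCoeff_heckeULin ℓ.2 h, hz, heckeSeq]
    simp [h]
  · rw [formsAct_heckeGen_of_not_dvd p ℓ h, Periods.qCoeff_heckeTLin ℓ.2 h, hz, heckeSeq]
    simp only [h, not_false_eq_true, true_and]
    split_ifs with hd
    · rw [hz]; push_cast; ring
    · simp

theorem IsIntSeq.ext {φ : CuspForm (CongruenceSubgroup.Gamma0 p) 2} {z z' : ℕ → ℤ}
    (h : IsIntSeq φ z) (h' : IsIntSeq φ z') : z = z' :=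
  funext fun n => Int.cast_injective (α := ℂ) ((h n).symm.trans (h' n))

omit hp in
theorem exists_intSeq_formsAct (t : HeckeAlg) :
    ∀ (φ : CuspForm (CongruenceSubgroup.Gamma0 p) 2) (z : ℕ → ℤ), IsIntSeq φ z →
      ∃ z', IsIntSeq (formsAct p t φ) z' := by
  induction t using MvPolynomial.induction_on with
  | C a =>
    refine fun φ z hz => ⟨fun n => a * z n, fun n => ?_⟩
    rw [formsAct_C, Module.End.intCast_apply, ← Int.cast_smul_eq_zsmul ℂ, Periods.qCoeff_smul, hz]
    push_cast; rfl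
  | add s u hs hu =>
    intro φ z hz
    obtain ⟨z₁, h₁⟩ := hs φ z hz
    obtain ⟨z₂, h₂⟩ := hu φ z hz
    refine ⟨z₁ + z₂, fun n => ?_⟩
    rw [map_add, LinearMap.add_apply, Periods.qCoeff_add, h₁, h₂, Pi.add_apply, Int.cast_add]
  | mul_X s ℓ hs =>
    intro φ z hz
    rw [map_mul, Module.End.mul_apply]
    exact hs _ _ (formsAct_X_intSeq ℓ hz)

/-- Formal logarithm on divisors supported on disc points. -/
def logDiv (z : ℕ → ℤ) : (PtX l p →₀ ℤ) →+ PadicComplex l :=
  Finsupp.liftAddHom fun Q => zmultiplesHom (PadicComplex l) (logInt z Q.r)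

omit hp in
theorem logDiv_single (z : ℕ → ℤ) (Q : PtX l p) (c : ℤ) :
    logDiv z (Finsupp.single Q c) = c • logInt z Q.r := by
  simp [logDiv]

omit hp in
theorem logDiv_apply (z : ℕ → ℤ) (D₀ : PtX l p →₀ ℤ) :
    logDiv z D₀ = ∑ Q ∈ D₀.support,
      (D₀ Q : PadicComplex l) * logSum (fun n => (z n : PadicComplex l)) Q.r := by
  simp [logDiv, Finsupp.sum, logInt, zsmul_eq_mul]

/-- The divisor of disc points and a multiple of `∞`. -/
def discDiv (D₀ : PtX l p →₀ ℤ) (k : ℤ) : Divisor Qb (modularFunctionFieldBar p) :=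
  D₀.mapDomain DiscData.Pt.place + Finsupp.single (cuspInfty p) k

/-- The effect of `T_m` on disc divisors and their logarithms. -/
theorem exists_hecke_step (m : Nat.Primes) (D₀ : PtX l p →₀ ℤ) (k : ℤ)
    (hd : discDiv D₀ k ∈ Divisor.degZero (K := Qb) (F := modularFunctionFieldBar p)) :
    ∃ (D₁ : PtX l p →₀ ℤ) (k₁ : ℤ)
      (hd₁ : discDiv D₁ k₁ ∈ Divisor.degZero (K := Qb) (F := modularFunctionFieldBar p)),
      heckeOperatorBar p m (Pic0.mk ⟨_, hd⟩) = Pic0.mk ⟨_, hd₁⟩ ∧
      ∀ z, logDiv z D₁ = logDiv (heckeSeq m (¬ (m : ℕ) ∣ p) z) D₀ := by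
  classical
  haveI : NeZero (m : ℕ) := ⟨m.2.ne_zero⟩
  haveI : NeZero (p * m) := ⟨Nat.mul_ne_zero (NeZero.ne p) m.2.ne_zero⟩
  set A := heckeAlphaBar Qb p m
  set B := heckeBetaBar Qb p m
  have hα : HeckeAlphaBarIntegral Qb p m := Fermat.Agent.Curve.isIntegralAlong A
  have hβ : HeckeBetaBarIntegral Qb p m := Fermat.Agent.Curve.isIntegralAlong B
  choose E hE hEsum using fun P : PtX l p => exists_correspondence_single m.2 hα hβ P
  set S : (PtX l p →₀ ℤ) →+ (PtX l p →₀ ℤ) :=
    Finsupp.liftAddHom fun P => zmultiplesHom _ (∑ Q ∈ E P, Finsupp.single Q 1)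
  set T := Divisor.correspondence B A hβ hα
  have hT : ∀ D : PtX l p →₀ ℤ,
      T (D.mapDomain DiscData.Pt.place) = (S D).mapDomain DiscData.Pt.place := by
    intro D
    induction D using Finsupp.induction_linear with
    | zero => simp
    | add f g hf hg => simp [Finsupp.mapDomain_add, map_add, hf, hg]
    | single P c =>
      rw [Finsupp.mapDomain_single, ← Finsupp.smul_single_one, map_zsmul, hE]
      simp [S, Finsupp.mapDomain_smul, Finsupp.mapDomain_finset_sum, Finsupp.mapDomain_single]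
  have hTk : T (Finsupp.single (cuspInfty p) k) =
      Finsupp.single (cuspInfty p) (k * (finrankAlong Qb B : ℤ)) := by
    rw [← Finsupp.smul_single_one, map_zsmul, correspondence_cuspInfty m.2 hα hβ,
      Finsupp.smul_single, smul_eq_mul]
  have hTD : T (discDiv D₀ k) = discDiv (S D₀) (k * (finrankAlong Qb B : ℤ)) := by
    rw [discDiv, map_add, hT, hTk, discDiv]
  refine ⟨S D₀, k * (finrankAlong Qb B : ℤ), hTD ▸ Divisor.correspondence_mem_degZero B A hβ hα
    (Fermat.Agent.Curve.fundamentalIdentityAlong _ _) hd, ?_, fun z => ?_⟩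
  · rw [heckeOperatorBar_apply, heckeOperatorAlong_eq (ℓ := (m : ℕ)) hα hβ
      (Fermat.Agent.Curve.fundamentalIdentityAlong _ _) (Fermat.Agent.Curve.finiteAlong _)
      (Fermat.Agent.Curve.normFormulaAlong _ _), heckePic0Bar]
    refine Eq.trans (Pic0.correspondence_mk B A hβ hα _ _ _ _) (congrArg Pic0.mk (Subtype.ext ?_))
    exact (Pic0.coe_degZeroCorrespondence B A hβ hα _ _).trans hTD
  · have hz : ∀ P, ∑ Q ∈ E P, logInt z Q.r = logInt (heckeSeq m (¬ (m : ℕ) ∣ p) z) P.r :=
      fun P => sum_logInt_eq (natNormBound_padicComplex l) (E P) (fun Q => Q.r)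
        (fun Q _ => Q.norm_lt) P.norm_lt m.2.pos _ (fun n => by
          rw [hEsum]
          congr 1
          by_cases h : (m : ℕ) = p
          · simp [h]
          · simp [h, show ¬ (m : ℕ) ∣ p from fun hd =>
              h ((Nat.prime_dvd_prime_iff_eq m.2 hp.out).1 hd)]) z
    clear hd hTD
    induction D₀ using Finsupp.induction_linear with
    | zero => simp
    | add f g hf hg => simp [map_add, hf, hg]
    | single P c => simp [S, logDiv_single, map_sum, hz, map_zsmul]

/-- Hecke translates of `P - ∞`. -/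
theorem exists_smul_eq_discDiv (P : PtX l p)
    (hdeg : discDiv (Finsupp.single P 1) (-1) ∈
      Divisor.degZero (K := Qb) (F := modularFunctionFieldBar p)) (t : HeckeAlg) :
    ∃ (D₀ : PtX l p →₀ ℤ) (k : ℤ)
      (hd : discDiv D₀ k ∈ Divisor.degZero (K := Qb) (F := modularFunctionFieldBar p)),
      (letI := heckeModuleBar p; t • (Pic0.mk ⟨_, hdeg⟩ : JZero p)) = Pic0.mk ⟨_, hd⟩ ∧
      ∀ (φ : CuspForm (CongruenceSubgroup.Gamma0 p) 2) (z z' : ℕ → ℤ),
        IsIntSeq φ z → IsIntSeq (formsAct p t φ) z' → logDiv z D₀ = logInt z' P.r := by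
  letI := heckeModuleBar p
  induction t using MvPolynomial.induction_on with
  | C a =>
    have hadd : discDiv (Finsupp.single P a) (-a) = a • discDiv (Finsupp.single P 1) (-1) := by
      simp [discDiv, Finsupp.mapDomain_single, smul_add, Finsupp.smul_single]
    refine ⟨Finsupp.single P a, -a, hadd ▸ zsmul_mem hdeg a, ?_, fun φ z z' hz hz' => ?_⟩
    · rw [heckeModuleBar_C_smul]
      refine (QuotientAddGroup.mk_zsmul _
        (⟨_, hdeg⟩ : Divisor.degZero (K := Qb) (F := modularFunctionFieldBar p)) a).symm.trans ?_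
      exact congrArg Pic0.mk (Subtype.ext hadd.symm)
    · rw [formsAct_C, Module.End.intCast_apply, ← Int.cast_smul_eq_zsmul ℂ] at hz'
      have : z' = fun n => a * z n := IsIntSeq.ext hz' fun n => by
        rw [Periods.qCoeff_smul, hz]; push_cast; rfl
      rw [logDiv_single, this, logInt, logInt, logSum, logSum, zsmul_eq_mul, ← tsum_mul_left]
      refine tsum_congr fun n => ?_
      push_cast; ring
  | add s u hs hu =>
    obtain ⟨D₁, k₁, hd₁, e₁, h₁⟩ := hs
    obtain ⟨D₂, k₂, hd₂, e₂, h₂⟩ := hu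
    have hadd : discDiv (D₁ + D₂) (k₁ + k₂) = discDiv D₁ k₁ + discDiv D₂ k₂ := by
      simp [discDiv, Finsupp.mapDomain_add, Finsupp.single_add]; abel
    refine ⟨D₁ + D₂, k₁ + k₂, hadd ▸ add_mem hd₁ hd₂, ?_, fun φ z z' hz hz' => ?_⟩
    · rw [add_smul, e₁, e₂]
      refine (QuotientAddGroup.mk_add _
        (⟨_, hd₁⟩ : Divisor.degZero (K := Qb) (F := modularFunctionFieldBar p)) ⟨_, hd₂⟩).symm.trans ?_
      exact congrArg Pic0.mk (Subtype.ext hadd.symm)
    · obtain ⟨z₁, hz₁⟩ := exists_intSeq_formsAct s φ z hz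
      obtain ⟨z₂, hz₂⟩ := exists_intSeq_formsAct u φ z hz
      rw [map_add, LinearMap.add_apply] at hz'
      have : z' = fun n => z₁ n + z₂ n := IsIntSeq.ext hz' fun n => by
        rw [Periods.qCoeff_add, hz₁, hz₂, Int.cast_add]
      rw [map_add, h₁ φ z z₁ hz hz₁, h₂ φ z z₂ hz hz₂, this, logInt, logInt, logInt, logSum,
        logSum, logSum, ← (summable_logInt (natNormBound_padicComplex l) z₁ P.norm_lt).tsum_add
          (summable_logInt (natNormBound_padicComplex l) z₂ P.norm_lt)]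
      refine tsum_congr fun n => ?_
      push_cast; ring
  | mul_X s ℓ hs =>
    obtain ⟨D₀, k, hd, e, h⟩ := hs
    obtain ⟨D₁, k₁, hd₁, e₁, h₁⟩ := exists_hecke_step ℓ D₀ k hd
    refine ⟨D₁, k₁, hd₁, ?_, fun φ z z' hz hz' => ?_⟩
    · rw [mul_comm, mul_smul, e, ← e₁]
      exact heckeModuleBar_heckeGen_smul (EichlerShimura.heckeOperatorsCommuteBar p) ℓ _
    · rw [map_mul, Module.End.mul_apply] at hz'
      rw [h₁]
      exact h _ _ z' (formsAct_X_intSeq ℓ hz) hz'

end Fermat.Agent.Mazur.Immersion
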