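import Fermat.Agent.Mazur.Immersion.Setup
import Fermat.Agent.Reduction.AtkinLehner
import Fermat.Agent.Modular.ModularPolynomial

/-!
# Powers and roots of the parameters of disc points
-/

set_option autoImplicit false

noncomputable section

open ModularCurve AlgebraicCurve Polynomial Filter
open scoped Topology

namespace Fermat.Agent.Mazur.Immersion

local notation "Qb" => AlgebraicClosure ℚ
local notation "ιC" => Fermat.Agent.Reduction.qbarToComplex

section Series

variable {K : Type*} [NormedField K]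

theorem BddBy.qExpand {C : ℝ} {x : LaurentSeries K} (hx : BddBy C x) (m : ℕ) [NeZero m] :
    BddBy C (ModularCurve.qExpand K m x) := fun n => by
  by_cases h : (m : ℤ) ∣ n
  · obtain ⟨k, rfl⟩ := h
    rw [qExpand_coeff_mul]; exact hx k
  · rw [qExpand_coeff_of_not_dvd m _ h, norm_zero]; exact hx.nonneg

theorem sval_qExpand (s : K) (m : ℕ) [NeZero m] (x : LaurentSeries K) :
    sval s (ModularCurve.qExpand K m x) = sval (s ^ m) x := by
  have hinj : Function.Injective fun n : ℤ => (m : ℤ) * n := fun a b h =>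
    mul_left_cancel₀ (Int.natCast_ne_zero.2 (NeZero.ne m)) h
  rw [sval, ← hinj.tsum_eq (fun n hn => ?_)]
  · refine tsum_congr fun n => ?_
    show _ = _
    rw [qExpand_coeff_mul, ← zpow_natCast s m, ← zpow_mul]
  · simp only [Function.mem_support] at hn
    by_contra hr
    refine hn ?_
    rw [qExpand_coeff_of_not_dvd m _ (fun ⟨k, hk⟩ => hr ⟨k, hk.symm⟩), zero_mul]

end Series

section Value

variable {L : Type*} [Field L] [IsAlgClosed L] {K : Type*} [NormedField K] [IsUltrametricDist K]
  [CompleteSpace K] {ι : L →+* K} {F : IntermediateField L (LaurentSeries L)}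
  [Fermat.Agent.Curve.IsFunctionField1 L F] {D : DiscData ι F}

/-- Values of bounded functions at the points lie in `L`. -/
theorem DiscData.Pt.exists_sval_eq (P : D.Pt) {g : F} (hg : g ∈ D.bddIn) :
    ∃ c : L, sval P.r (D.ser g) = ι c := by
  obtain ⟨c, hc⟩ := Fermat.Agent.Curve.exists_sub_algebraMap_ord_pos P.place
    (f := g) (P.mem_regular hg)
  refine ⟨c, ?_⟩
  have hmem : g - algebraMap L F c ∈ D.bddIn := sub_mem hg (D.algebraMap_mem_bddIn c)
  have h0 : sval P.r (D.ser (g - algebraMap L F c)) = 0 := by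
    rcases eq_or_ne (g - algebraMap L F c) 0 with h | h
    · simp [h]
    · exact (P.sval_eq_zero_iff hmem h).2 (hc.resolve_left h)
  rw [map_sub, D.ser_algebraMap, sub_eq_add_neg,
    sval_add P.norm_lt hg (neg_mem (bdd_C _) : _ ∈ bddSubring K), ← map_neg, sval_C,
    add_eq_zero_iff_eq_neg, neg_neg] at h0
  exact h0

end Value

variable {l : ℕ} [Fact l.Prime]

/-- Points of the disc of `∞` at level `N`. -/
abbrev PtX (l : ℕ) [Fact l.Prime] (N : ℕ) [NeZero N] := (discX0 l N).Pt

variable {N M : ℕ} [NeZero N] [NeZero M]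

theorem discX0_jF (l : ℕ) [Fact l.Prime] (N : ℕ) [NeZero N] :
    (((discX0 l N).jF : modularFunctionFieldBar N) : LaurentSeries Qb) = Modular.serJ Qb := rfl

theorem ser_jF (l : ℕ) [Fact l.Prime] (N : ℕ) [NeZero N] :
    (discX0 l N).ser (discX0 l N).jF = serK (embPadic l) (Modular.serJ Qb) := by
  rw [DiscData.ser_apply, discX0_jF]

theorem PtX.sval_serJ (P : PtX l N) :
    sval P.r (serK (embPadic l) (Modular.serJ Qb)) = embPadic l P.a := by
  rw [← ser_jF l N]; exact P.sval_eq

/-- The point with a given parameter and value. -/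
def mkPt (N : ℕ) [NeZero N] (r : PadicComplex l) (h0 : r ≠ 0) (h1 : ‖r‖ < 1) (a : Qb)
    (h : sval r (serK (embPadic l) (Modular.serJ Qb)) = embPadic l a) : PtX l N :=
  ⟨r, h0, h1, a, by rw [ser_jF]; exact h⟩

/-- The point with the same parameter at another level. -/
def liftPt (M : ℕ) [NeZero M] (P : PtX l N) : PtX l M :=
  mkPt M P.r P.ne_zero P.norm_lt P.a P.sval_serJ

@[simp] theorem mkPt_r (N : ℕ) [NeZero N] (r : PadicComplex l) (h0 : r ≠ 0) (h1 : ‖r‖ < 1)
    (a : Qb) (h : sval r (serK (embPadic l) (Modular.serJ Qb)) = embPadic l a) :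
    (mkPt N r h0 h1 a h).r = r := by
  unfold mkPt; rfl

@[simp] theorem liftPt_r (M : ℕ) [NeZero M] (P : PtX l N) : (liftPt M P).r = P.r := by
  unfold liftPt mkPt; rfl

theorem sval_serK_qExpand (s : PadicComplex l) (m : ℕ) [NeZero m] (x : LaurentSeries Qb) :
    sval s (serK (embPadic l) (ModularCurve.qExpand Qb m x)) = sval (s ^ m) (serK (embPadic l) x) := by
  show sval s (coeffMap _ _) = _
  rw [coeffMap_qExpand, sval_qExpand]

theorem coe_jNBar (N : ℕ) [NeZero N] :
    (jNBar N : LaurentSeries Qb) = ModularCurve.qExpand Qb N (Modular.serJ Qb) := by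
  show coeffEmb Qb (ModularCurve.qExpand ℚ N jq) = ModularCurve.qExpand Qb N (coeffEmb Qb jq)
  rw [coeffEmb, coeffMap_qExpand]

theorem jNBar_mem_bddIn (l : ℕ) [Fact l.Prime] (N : ℕ) [NeZero N] :
    jNBar N ∈ (discX0 l N).bddIn := by
  rw [DiscData.mem_bddIn, DiscData.ser_apply, mem_bddSubring]
  exact ⟨1, bddBy_jNBar l N⟩

theorem ser_jNBar (l : ℕ) [Fact l.Prime] (N : ℕ) [NeZero N] :
    (discX0 l N).ser (jNBar N) =
      serK (embPadic l) (ModularCurve.qExpand Qb N (Modular.serJ Qb)) := by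
  rw [DiscData.ser_apply, coe_jNBar]

/-- The point with parameter `r ^ m`. -/
theorem exists_pt_pow (P : PtX l N) (m : ℕ) [NeZero m] : ∃ Q : PtX l N, Q.r = P.r ^ m := by
  set P' : PtX l m := liftPt m P
  have hP' : P'.r = P.r := liftPt_r m P
  obtain ⟨c, hc⟩ := P'.exists_sval_eq (g := jNBar m) (jNBar_mem_bddIn l m)
  have hval : sval (P.r ^ m) (serK (embPadic l) (Modular.serJ Qb)) = embPadic l c := by
    rw [ser_jNBar, sval_serK_qExpand, hP'] at hc
    exact hc
  exact ⟨mkPt N (P.r ^ m) (pow_ne_zero _ P.ne_zero)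
    (by rw [norm_pow]; exact pow_lt_one₀ (norm_nonneg _) P.norm_lt (NeZero.ne m)) c hval, mkPt_r ..⟩

/-- `j(q)` is a root of a monic polynomial over `ℚ̄[j(q^m)]`. -/
theorem exists_transposed_relation {m : ℕ} [NeZero m] (hm : m.Prime) :
    ∃ R : Polynomial (Polynomial Qb), R.Monic ∧ R.natDegree = dedekindPsi m ∧
      R.eval₂ (aeval (Modular.serJ Qb)).toRingHom (Modular.serJd Qb m) = 0 ∧
      R.eval₂ (aeval (Modular.serJd Qb m)).toRingHom (Modular.serJ Qb) = 0 := by
  obtain ⟨R, hR, hd, h0⟩ := Modular.exists_monic_relation_over m ιC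
  refine ⟨R, hR, hd, h0, ?_⟩
  obtain ⟨w, hwa, hwb⟩ := Reduction.exists_atkinLehner (N := 1) (L := Qb) hm
    (fun h => hm.ne_one (Nat.dvd_one.1 h)) ιC
  set A := heckeAlphaBar Qb 1 m
  set B := heckeBetaBar Qb 1 m
  set j : laurentBaseChange Qb (modularFunctionFieldFull 1) := jBar 1
  have hA : ((A j : _) : LaurentSeries Qb) = Modular.serJ Qb := coe_heckeAlphaBar 1 m j
  have hB : ((B j : _) : LaurentSeries Qb) = Modular.serJd Qb m := by
    rw [coe_heckeBetaBar]
    show ModularCurve.qExpand Qb m (coeffEmb Qb jq) = coeffEmb Qb (ModularCurve.qExpand ℚ m jq)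
    rw [coeffEmb, coeffMap_qExpand]
  have hval : ∀ x y : laurentBaseChange Qb (modularFunctionFieldFull (1 * m)),
      ((R.eval₂ (aeval x).toRingHom y : _) : LaurentSeries Qb) =
        R.eval₂ (aeval (x : LaurentSeries Qb)).toRingHom (y : LaurentSeries Qb) := fun x y => by
    refine (Polynomial.hom_eval₂ _ _
      (laurentBaseChange Qb (modularFunctionFieldFull (1 * m))).val.toRingHom _).trans ?_
    congr 1
    exact Polynomial.ringHom_ext (fun a => by simp) (by simp)
  have h1 : R.eval₂ (aeval (A j)).toRingHom (B j) = 0 :=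
    Subtype.ext (by rw [hval, hA, hB, h0]; rfl)
  have h2 := congrArg w.toRingHom h1
  rw [Polynomial.hom_eval₂, map_zero] at h2
  have h3 : R.eval₂ (aeval (B j)).toRingHom (A j) = 0 := by
    rw [← h2, show w.toRingHom (B j) = A j from AlgHom.congr_fun hwb j,
      ← show w.toRingHom (A j) = B j from AlgHom.congr_fun hwa j]
    congr 1
    exact Polynomial.ringHom_ext (fun a => by simp) (by simp)
  rw [← hA, ← hB, ← hval, h3]
  rfl

/-- The points with parameters the `m`-th roots of `r`. -/
theorem exists_pt_root (P : PtX l N) {m : ℕ} [NeZero m] (hm : m.Prime) {s : PadicComplex l}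
    (hs : s ^ m = P.r) : ∃ Q : PtX l N, Q.r = s := by
  have hs0 : s ≠ 0 := fun h => P.ne_zero (by rw [← hs, h, zero_pow (NeZero.ne m)])
  have hs1 : ‖s‖ < 1 := by
    by_contra! h
    exact absurd P.norm_lt (not_lt.2 (by rw [← hs, norm_pow]; exact one_le_pow₀ h))
  obtain ⟨R, hR, -, -, h0⟩ := exists_transposed_relation (m := m) hm
  have hbj : Bdd (serK (embPadic l) (Modular.serJ Qb)) := by
    rw [← ser_jF l N]; exact (discX0 l N).isJ_ser.bdd
  have hbjd : Bdd (serK (embPadic l) (Modular.serJd Qb m)) := ⟨1, bddBy_jNBar l m⟩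
  let cst : Qb →+* bddSubring (PadicComplex l) :=
    ((HahnSeries.C : PadicComplex l →+* LaurentSeries (PadicComplex l)).comp (embPadic l)).codRestrict
      (bddSubring (PadicComplex l)) fun c => bdd_C _
  let ev := svalHom hs0 hs1
  have h1 : R.eval₂ (Polynomial.eval₂RingHom cst ⟨_, hbjd⟩) ⟨_, hbj⟩ =
      (0 : bddSubring (PadicComplex l)) := by
    refine Subtype.ext ?_
    refine (Polynomial.hom_eval₂ _ _ (bddSubring (PadicComplex l)).subtype _).trans ?_
    have := congrArg (coeffMap (embPadic l)) h0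
    rw [Polynomial.hom_eval₂, map_zero] at this
    rw [ZeroMemClass.coe_zero, ← this]
    congr 1
    refine Polynomial.ringHom_ext (fun a => ?_) ?_
    · simp [cst, algebraMap_laurentSeries_eq_single, coeffMap_single, HahnSeries.C_apply]
    · simp
  have h2 := congrArg ev h1
  rw [Polynomial.hom_eval₂, map_zero] at h2
  set P₁ : Polynomial Qb := R.map (Polynomial.evalRingHom P.a)
  have hcomp : ev.comp (Polynomial.eval₂RingHom cst ⟨_, hbjd⟩) =
      (embPadic l).comp (Polynomial.evalRingHom P.a) := by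
    refine Polynomial.ringHom_ext (fun a => ?_) ?_
    · simp [ev, cst]
      rw [← HahnSeries.C_apply, sval_C]
    · simp only [RingHom.comp_apply, Polynomial.coe_eval₂RingHom, Polynomial.eval₂_X,
        Polynomial.coe_evalRingHom, Polynomial.eval_X]
      rw [← P.sval_serJ]
      show sval s (serK (embPadic l) (coeffEmb Qb (ModularCurve.qExpand ℚ m jq))) = _
      rw [show coeffEmb Qb (ModularCurve.qExpand ℚ m jq) =
        ModularCurve.qExpand Qb m (coeffEmb Qb jq) from coeffMap_qExpand _ m jq, sval_serK_qExpand, hs]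
      rfl
  rw [hcomp, ← Polynomial.eval₂_map, Polynomial.eval₂_eq_eval_map] at h2
  have hroot : ev ⟨_, hbj⟩ ∈ (P₁.map (embPadic l)).roots :=
    (Polynomial.mem_roots (Polynomial.map_ne_zero (hR.map _).ne_zero)).2 h2
  rw [(IsAlgClosed.splits P₁).roots_map (embPadic l), Multiset.mem_map] at hroot
  obtain ⟨c, -, hc⟩ := hroot
  exact ⟨mkPt N s hs0 hs1 c hc.symm, mkPt_r ..⟩

end Fermat.Agent.Mazur.Immersion
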