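import Fermat.Agent.Mazur.Immersion.Series

/-!
# The punctured disc around a cusp

For `J = q⁻¹ + (integral power series)` the map `r ↦ J(r)` is a bijection from `0 < ‖r‖ < 1` onto
`1 < ‖a‖`, and `J - J(r)` is `q - r` times a unit of the ring of bounded series.
-/

set_option autoImplicit false

noncomputable section

open Filter Topology

namespace Fermat.Agent.Mazur.Immersion

variable {K : Type*} [NormedField K] [IsUltrametricDist K] [CompleteSpace K]

/-- An integral series without negative powers. -/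
def IsIntPow (x : LaurentSeries K) : Prop := BddBy 1 x ∧ ∀ n < 0, x.coeff n = 0

/-- An integral series `q⁻¹ + ...`. -/
structure IsJSeries (J : LaurentSeries K) : Prop where
  bddBy : BddBy 1 J
  coeff_neg_one : J.coeff (-1) = 1
  coeff_lt : ∀ n < -1, J.coeff n = 0

omit [CompleteSpace K] in
theorem norm_sval_le {r : K} (hr : ‖r‖ < 1) {C : ℝ} {x : LaurentSeries K} (hx : BddBy C x)
    (hx0 : ∀ n < 0, x.coeff n = 0) : ‖sval r x‖ ≤ C := by
  refine IsUltrametricDist.norm_tsum_le_of_forall_le_of_nonneg hx.nonneg fun n => ?_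
  rcases lt_or_ge n 0 with h | h
  · simpa [hx0 n h] using hx.nonneg
  · obtain ⟨m, rfl⟩ := Int.eq_ofNat_of_zero_le h
    rw [norm_mul, zpow_natCast, norm_pow]
    exact (mul_le_of_le_one_right (norm_nonneg _) (pow_le_one₀ (norm_nonneg r) hr.le)).trans (hx _)

theorem exists_div_of_isIntPow {r : K} (hr0 : r ≠ 0) (hr : ‖r‖ < 1) {x : LaurentSeries K}
    (hx : IsIntPow x) :
    ∃ y, IsIntPow y ∧ x - HahnSeries.C (sval r x) = qsub r * y := by
  have hc : ‖sval r x‖ ≤ 1 := norm_sval_le hr hx.1 hx.2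
  set x' := x - HahnSeries.C (sval r x) with hx'
  have hb : BddBy 1 x' := hx.1.sub ((bddBy_C _).mono hc)
  have hneg : ∀ n < 0, x'.coeff n = 0 := fun n hn => by
    simp [hx', hx.2 n hn, HahnSeries.C_apply, HahnSeries.coeff_single_of_ne hn.ne]
  have h0 : sval r x' = 0 := by
    rw [hx', sub_eq_add_neg, sval_add hr ⟨_, hx.1⟩ ⟨_, ((bddBy_C _).mono hc).neg⟩, ← map_neg,
      sval_C, add_neg_cancel]
  obtain ⟨y, hy, hlow, e⟩ := exists_eq_qsub_mul hr0 hr hb h0
  refine ⟨y, ⟨hy, fun n hn => ?_⟩, e⟩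
  rcases eq_or_ne x' 0 with h | h
  · rw [(mul_eq_zero.1 (e.symm.trans h)).resolve_left (qsub_ne_zero r)]; rfl
  · refine hlow n ?_
    by_contra! hlt
    exact HahnSeries.coeff_order_eq_zero.not.2 h (hneg _ (by omega))

theorem norm_sval_sub_sval_le {r s : K} (hr0 : r ≠ 0) (hs0 : s ≠ 0) (hr : ‖r‖ < 1) (hs : ‖s‖ < 1)
    {x : LaurentSeries K} (hx : IsIntPow x) : ‖sval s x - sval r x‖ ≤ ‖s - r‖ := by
  obtain ⟨y, hy, e⟩ := exists_div_of_isIntPow hr0 hr hx
  have h := congrArg (sval s) e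
  rw [sval_mul hs0 hs (bdd_qsub r) ⟨_, hy.1⟩, sval_qsub hs, sub_eq_add_neg x,
    sval_add hs ⟨_, hx.1⟩ (neg_mem (bdd_C _) : _ ∈ bddSubring K), ← map_neg, sval_C,
    ← sub_eq_add_neg] at h
  rw [h, norm_mul]
  exact mul_le_of_le_one_right (norm_nonneg _) (norm_sval_le hs hy.1 hy.2)

omit [CompleteSpace K] in
theorem inv_isIntPow {U : LaurentSeries K} (hU : IsIntPow U) (h0 : U.coeff 0 = 1) :
    IsIntPow U⁻¹ ∧ U⁻¹.coeff 0 = 1 ∧ U * U⁻¹ = 1 := by
  have hne : U ≠ 0 := fun h => by simp [h] at h0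
  have hUV : U * U⁻¹ = 1 := mul_inv_cancel₀ hne
  set V := U⁻¹
  have key : ∀ n, V.coeff n = (1 : LaurentSeries K).coeff n - ((U - 1) * V).coeff n := fun n => by
    rw [sub_mul, hUV, one_mul, HahnSeries.coeff_sub, sub_sub_cancel]
  have hU1 : ∀ i ≤ (0 : ℤ), (U - 1).coeff i = 0 := fun i hi => by
    rcases hi.lt_or_eq with h | rfl
    · simp [hU.2 i h, HahnSeries.coeff_one, h.ne]
    · simp [h0]
  have main' : ∀ m, V.order ≤ m → ∀ n < m, ‖V.coeff n‖ ≤ 1 ∧ (n < 0 → V.coeff n = 0) := by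
    intro m hm
    induction m, hm using Int.le_induction with
    | base =>
      intro n hn
      simp [HahnSeries.coeff_eq_zero_of_lt_order hn]
    | succ m _ ih =>
      intro n hn
      rcases (Int.lt_add_one_iff.1 hn).lt_or_eq with h | rfl
      · exact ih n h
      have hterm : ∀ ij ∈ Finset.antidiagonal (U - 1).isPWO_support V.isPWO_support n,
          0 < ij.1 ∧ ij.2 < n := by
        intro ij hij
        obtain ⟨h1, -, h3⟩ := Finset.mem_antidiagonal.1 hij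
        refine ⟨?_, ?_⟩
        · by_contra! h; exact h1 (hU1 _ h)
        · have : 0 < ij.1 := by by_contra! h; exact h1 (hU1 _ h)
          omega
      constructor
      · rw [key, sub_eq_add_neg]
        refine (IsUltrametricDist.norm_add_le_max _ _).trans (max_le ?_ ?_)
        · exact bddBy_one n
        · rw [norm_neg, coeff_mul_eq_sum]
          refine IsUltrametricDist.norm_sum_le_of_forall_le_of_nonneg zero_le_one fun ij hij => ?_
          rw [norm_mul]
          exact mul_le_one₀ ((hU.1.sub bddBy_one) _) (norm_nonneg _)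
            (ih _ (hterm ij hij).2).1
      · intro hn0
        rw [key, HahnSeries.coeff_one, if_neg hn0.ne, zero_sub, neg_eq_zero, coeff_mul_eq_sum]
        exact Finset.sum_eq_zero fun ij hij => by
          rw [(ih _ (hterm ij hij).2).2 ((hterm ij hij).2.trans hn0), mul_zero]
  have all : ∀ n, ‖V.coeff n‖ ≤ 1 ∧ (n < 0 → V.coeff n = 0) := fun n =>
    main' (max V.order (n + 1)) (le_max_left _ _) n (by omega)
  refine ⟨⟨fun n => (all n).1, fun n hn => (all n).2 hn⟩, ?_, hUV⟩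
  rw [key, HahnSeries.coeff_one, if_pos rfl, coeff_mul_eq_sum]
  simp only [sub_eq_self]
  refine Finset.sum_eq_zero fun ij hij => ?_
  obtain ⟨-, -, h3⟩ := Finset.mem_antidiagonal.1 hij
  rcases le_or_gt ij.1 0 with h | h
  · rw [hU1 _ h, zero_mul]
  · rw [(all _).2 (by omega), mul_zero]

namespace IsJSeries

variable {J : LaurentSeries K} (hJ : IsJSeries J)
include hJ

omit [CompleteSpace K] in
theorem isIntPow_tail : IsIntPow (J - HahnSeries.single (-1) 1) := by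
  refine ⟨hJ.bddBy.sub (by simpa using bddBy_single (K := K) (-1) 1), fun n hn => ?_⟩
  rcases eq_or_ne n (-1) with rfl | h
  · simp [hJ.coeff_neg_one]
  · simp [hJ.coeff_lt n (by omega), HahnSeries.coeff_single_of_ne h]

omit [CompleteSpace K] in
theorem bdd : J ∈ bddSubring K := ⟨_, hJ.bddBy⟩

theorem sval_eq {r : K} (hr : ‖r‖ < 1) :
    sval r J = r⁻¹ + sval r (J - HahnSeries.single (-1) 1) := by
  conv_lhs => rw [← add_sub_cancel (HahnSeries.single (-1 : ℤ) (1 : K)) J]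
  rw [sval_add hr (bdd_single _ _) ⟨_, hJ.isIntPow_tail.1⟩, sval_single]
  simp

theorem norm_sval {r : K} (hr0 : r ≠ 0) (hr : ‖r‖ < 1) : ‖sval r J‖ = ‖r‖⁻¹ := by
  have h1 : ‖sval r (J - HahnSeries.single (-1) 1)‖ < ‖r⁻¹‖ :=
    (norm_sval_le hr hJ.isIntPow_tail.1 hJ.isIntPow_tail.2).trans_lt <| by
      rw [norm_inv]; exact (one_lt_inv₀ (norm_pos_iff.2 hr0)).2 hr
  rw [hJ.sval_eq hr, IsUltrametricDist.norm_add_eq_max_of_norm_ne_norm h1.ne', max_eq_left h1.le,
    norm_inv]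

theorem eq_of_sval_eq {r s : K} (hr0 : r ≠ 0) (hs0 : s ≠ 0) (hr : ‖r‖ < 1) (hs : ‖s‖ < 1)
    (h : sval r J = sval s J) : r = s := by
  rw [hJ.sval_eq hr, hJ.sval_eq hs] at h
  by_contra hne
  have hd : 0 < ‖s - r‖ := norm_pos_iff.2 (sub_ne_zero.2 (Ne.symm hne))
  have hle := norm_sval_sub_sval_le hr0 hs0 hr hs hJ.isIntPow_tail
  have heq : sval s (J - HahnSeries.single (-1) 1) - sval r (J - HahnSeries.single (-1) 1) =
      r⁻¹ - s⁻¹ := by linear_combination -h
  rw [heq, inv_sub_inv hr0 hs0, norm_div, norm_mul, div_le_iff₀ (by positivity)] at hle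
  have : ‖r‖ * ‖s‖ < 1 := mul_lt_one_of_nonneg_of_lt_one_left (norm_nonneg r) hr hs.le
  nlinarith

theorem exists_sval_eq (S : Set K) (hS : IsClosed S)
    (hSadd : ∀ x ∈ S, ∀ y ∈ S, x + y ∈ S) (hSmul : ∀ x ∈ S, ∀ y ∈ S, x * y ∈ S)
    (hSinv : ∀ x ∈ S, x⁻¹ ∈ S) (hSneg : ∀ x ∈ S, -x ∈ S) (hS0 : (0 : K) ∈ S) (hS1 : (1 : K) ∈ S)
    (hJS : ∀ n, J.coeff n ∈ S) {a : K} (ha : 1 < ‖a‖) (haS : a ∈ S) :
    ∃ r ∈ S, r ≠ 0 ∧ ‖r‖ < 1 ∧ sval r J = a := by
  set T := J - HahnSeries.single (-1 : ℤ) (1 : K)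
  have ha0 : (0 : ℝ) < ‖a‖ := one_pos.trans ha
  let φ : K → K := fun q => (a - sval q T)⁻¹
  let B : Set K := {q | ‖q‖ = ‖a‖⁻¹}
  have hB1 : ∀ q ∈ B, ‖q‖ < 1 := fun q hq => by rw [hq]; exact inv_lt_one_of_one_lt₀ ha
  have hB0 : ∀ q ∈ B, q ≠ 0 := fun q hq => norm_pos_iff.1 (by rw [hq]; positivity)
  have hden : ∀ q ∈ B, ‖a - sval q T‖ = ‖a‖ := fun q hq => by
    have h : ‖sval q T‖ < ‖a‖ :=
      (norm_sval_le (hB1 q hq) hJ.isIntPow_tail.1 hJ.isIntPow_tail.2).trans_lt ha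
    rw [sub_eq_add_neg, IsUltrametricDist.norm_add_eq_max_of_norm_ne_norm (by rw [norm_neg]; exact h.ne'),
      norm_neg, max_eq_left h.le]
  have hmap : ∀ q ∈ B, φ q ∈ B := fun q hq => by
    simp only [B, φ, Set.mem_ofPred_eq, norm_inv, hden q hq]
  have hlip : ∀ q ∈ B, ∀ q' ∈ B, ‖φ q - φ q'‖ ≤ ‖a‖⁻¹ ^ 2 * ‖q - q'‖ := by
    intro q hq q' hq'
    have h1 : a - sval q T ≠ 0 := norm_pos_iff.1 (by rw [hden q hq]; exact ha0)
    have h2 : a - sval q' T ≠ 0 := norm_pos_iff.1 (by rw [hden q' hq']; exact ha0)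
    simp only [φ]
    rw [inv_sub_inv h1 h2, norm_div, norm_mul, hden q hq, hden q' hq', sub_sub_sub_cancel_left,
      div_le_iff₀ (by positivity)]
    refine (norm_sval_sub_sval_le (hB0 q' hq') (hB0 q hq) (hB1 q' hq') (hB1 q hq)
      hJ.isIntPow_tail).trans_eq ?_
    field_simp
  have hTS : ∀ n, T.coeff n ∈ S := fun n => by
    rw [HahnSeries.coeff_sub, sub_eq_add_neg]
    refine hSadd _ (hJS n) _ (hSneg _ ?_)
    rw [HahnSeries.coeff_single]; split <;> assumption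
  have hpow : ∀ q ∈ S, ∀ n : ℕ, q ^ n ∈ S := fun q hq n => by
    induction n with
    | zero => simpa using hS1
    | succ n ih => rw [pow_succ]; exact hSmul _ ih _ hq
  have hsval : ∀ q ∈ S, ‖q‖ < 1 → sval q T ∈ S := by
    intro q hq hq1
    refine hS.mem_of_tendsto (hasSum_sval hq1 ⟨_, hJ.isIntPow_tail.1⟩) (.of_forall fun s => ?_)
    refine Finset.sum_induction _ (· ∈ S) (fun x y hx hy => hSadd x hx y hy) hS0 fun n _ => ?_
    refine hSmul _ (hTS n) _ ?_
    obtain ⟨m, rfl | rfl⟩ := Int.eq_nat_or_neg n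
    · simpa using hpow q hq m
    · simpa using hSinv _ (hpow q hq m)
  let u : ℕ → K := fun n => φ^[n] a⁻¹
  have hu : ∀ n, u n ∈ B ∧ u n ∈ S := fun n => by
    induction n with
    | zero => exact ⟨norm_inv a, hSinv _ haS⟩
    | succ n ih =>
      simp only [u, Function.iterate_succ_apply']
      refine ⟨hmap _ ih.1, hSinv _ ?_⟩
      rw [sub_eq_add_neg]
      exact hSadd _ haS _ (hSneg _ (hsval _ ih.2 (hB1 _ ih.1)))
  have hc : ‖a‖⁻¹ ^ 2 < 1 := pow_lt_one₀ (by positivity) (inv_lt_one_of_one_lt₀ ha) two_ne_zero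
  have hgeo : ∀ n, dist (u n) (u (n + 1)) ≤ dist (u 0) (u 1) * (‖a‖⁻¹ ^ 2) ^ n := by
    intro n
    induction n with
    | zero => simp
    | succ n ih =>
      calc dist (u (n + 1)) (u (n + 2)) = dist (φ (u n)) (φ (u (n + 1))) := by
            simp only [u, Function.iterate_succ_apply']
        _ ≤ ‖a‖⁻¹ ^ 2 * dist (u n) (u (n + 1)) := by
            rw [dist_eq_norm, dist_eq_norm]; exact hlip _ (hu n).1 _ (hu (n + 1)).1
        _ ≤ ‖a‖⁻¹ ^ 2 * (dist (u 0) (u 1) * (‖a‖⁻¹ ^ 2) ^ n) :=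
            mul_le_mul_of_nonneg_left ih (by positivity)
        _ = _ := by ring
  obtain ⟨r, hr⟩ := cauchySeq_tendsto_of_complete (cauchySeq_of_le_geometric _ _ hc hgeo)
  have hrB : r ∈ B := tendsto_nhds_unique hr.norm (tendsto_const_nhds.congr fun n => ((hu n).1).symm)
  have hfix : φ r = r := by
    refine tendsto_nhds_unique ?_ (hr.comp (tendsto_add_atTop_nat 1))
    rw [tendsto_iff_norm_sub_tendsto_zero]
    refine squeeze_zero (fun n => norm_nonneg _) (fun n => ?_)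
      (by simpa using (tendsto_iff_norm_sub_tendsto_zero.1 hr).const_mul (‖a‖⁻¹ ^ 2))
    simp only [Function.comp_apply, u, Function.iterate_succ_apply']
    exact hlip _ (hu n).1 _ hrB
  refine ⟨r, hS.mem_of_tendsto hr (.of_forall fun n => (hu n).2), hB0 r hrB, hB1 r hrB, ?_⟩
  rw [hJ.sval_eq (hB1 r hrB)]
  simp only [φ] at hfix
  conv_lhs => arg 1; rw [← hfix, inv_inv]
  ring

/-- `J - J(r)` is `q - r` times a unit of the bounded ring. -/
theorem exists_qsub_eq_mul {r : K} (hr0 : r ≠ 0) (hr : ‖r‖ < 1) :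
    ∃ z ∈ bddSubring K, (J - HahnSeries.C (sval r J)) * z = qsub r ∧
      ∃ w ∈ bddSubring K, z * w = 1 := by
  obtain ⟨y, hy, e⟩ := exists_div_of_isIntPow hr0 hr hJ.isIntPow_tail
  set U : LaurentSeries K := 1 - HahnSeries.single 1 r * y with hU
  have hUpow : IsIntPow U ∧ U.coeff 0 = 1 := by
    refine ⟨⟨bddBy_one.sub ((((bddBy_single 1 r).mono hr.le).mul hy.1).mono (by norm_num)),
      fun n hn => ?_⟩, ?_⟩
    · simp [hU, HahnSeries.coeff_one, hn.ne, HahnSeries.coeff_single_mul, hy.2 (n - 1) (by omega)]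
    · simp [hU, HahnSeries.coeff_one, HahnSeries.coeff_single_mul, show y.coeff (-1) = 0 from hy.2 (-1) (by omega)]
  obtain ⟨hV, -, hUV⟩ := inv_isIntPow hUpow.1 hUpow.2
  have key : J - HahnSeries.C (sval r J) = qsub r * (-HahnSeries.single (-1) r⁻¹ * U) := by
    have h1 : HahnSeries.single (-1) r⁻¹ * HahnSeries.single 1 r = (1 : LaurentSeries K) := by
      rw [HahnSeries.single_mul_single, inv_mul_cancel₀ hr0]; rfl
    have h2 : qsub r * HahnSeries.single (-1) r⁻¹ =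
        HahnSeries.C r⁻¹ - HahnSeries.single (-1 : ℤ) (1 : K) := by
      rw [qsub, qvar, sub_mul, HahnSeries.single_mul_single, HahnSeries.C_apply,
        HahnSeries.single_mul_single]
      simp [mul_inv_cancel₀ hr0]
    rw [hJ.sval_eq hr, map_add]
    linear_combination e + h2 - qsub r * y * h1 + qsub r * HahnSeries.single (-1) r⁻¹ * hU
  refine ⟨-HahnSeries.single 1 r * U⁻¹, mul_mem (neg_mem (bdd_single _ _)) ⟨_, hV.1⟩, ?_, ?_⟩
  · have h1 : HahnSeries.single (-1) r⁻¹ * HahnSeries.single 1 r = (1 : LaurentSeries K) := by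
      rw [HahnSeries.single_mul_single, inv_mul_cancel₀ hr0]; rfl
    rw [key]
    linear_combination qsub r * h1 * (U * U⁻¹) + qsub r * hUV
  · refine ⟨-HahnSeries.single (-1) r⁻¹ * U, mul_mem (neg_mem (bdd_single _ _)) ⟨_, hUpow.1.1⟩, ?_⟩
    have h1 : HahnSeries.single (-1) r⁻¹ * HahnSeries.single 1 r = (1 : LaurentSeries K) := by
      rw [HahnSeries.single_mul_single, inv_mul_cancel₀ hr0]; rfl
    linear_combination h1 * (U * U⁻¹) + hUV

omit [CompleteSpace K] in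
/-- For `‖a‖ ≤ 1` the series `J - a` is a unit of the bounded ring. -/
theorem exists_inv_of_norm_le_one {a : K} (ha : ‖a‖ ≤ 1) :
    ∃ z ∈ bddSubring K, (J - HahnSeries.C a) * z = 1 := by
  set U : LaurentSeries K := (J - HahnSeries.C a) * HahnSeries.single 1 1 with hU
  have hb : BddBy 1 U := by
    simpa [hU, HahnSeries.C_apply] using (hJ.bddBy.sub ((bddBy_C a).mono ha)).mul (bddBy_single (K := K) 1 1)
  have hc : ∀ n, U.coeff n = (J - HahnSeries.C a).coeff (n - 1) := fun n => by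
    rw [hU, mul_comm, HahnSeries.coeff_single_mul, one_mul]
  have h0 : U.coeff 0 = 1 := by
    simp [hc, hJ.coeff_neg_one, HahnSeries.C_apply, HahnSeries.coeff_single_of_ne]
  have hn : ∀ n < 0, U.coeff n = 0 := fun n hn => by
    simp [hc, hJ.coeff_lt (n - 1) (by omega), HahnSeries.C_apply,
      HahnSeries.coeff_single_of_ne (show n - 1 ≠ 0 by omega)]
  obtain ⟨hV, -, hUV⟩ := inv_isIntPow ⟨hb, hn⟩ h0
  refine ⟨HahnSeries.single 1 1 * U⁻¹, mul_mem (bdd_single _ _) ⟨_, hV.1⟩, ?_⟩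
  rw [← mul_assoc, ← hU, hUV]

end IsJSeries

end Fermat.Agent.Mazur.Immersion
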