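import Fermat.Agent.Mazur.Immersion.JDisc
import Fermat.Prelude.Def_ModularCurve_LaurentCoeff
import Mathlib.LinearAlgebra.Dimension.Constructions
import Mathlib.Algebra.BigOperators.Field
import Mathlib.FieldTheory.IntermediateField.Basic

/-!
# Reductions of functions with poles at infinity only

Let `R` be a ring of functions with poles only at infinity containing integral elements with unit
leading coefficients and pole orders `d` and `2d + 1`, such that no nonzero element vanishes at
infinity. If an element of `R` is integral and its reduction has no polar part then its reduction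
is constant.
-/

set_option autoImplicit false

noncomputable section

open ModularCurve

namespace Fermat.Agent.Mazur.Immersion

variable {L : Type*} [Field L] {K : Type*} [NormedField K] [IsUltrametricDist K] (ι : L →+* K)

/-- The image over `K` of a Laurent series over `L`. -/
abbrev serK (x : LaurentSeries L) : LaurentSeries K := coeffMap ι x

omit [IsUltrametricDist K] in
theorem bddBy_serK_iff {C : ℝ} {x : LaurentSeries L} :
    BddBy C (serK ι x) ↔ ∀ n, ‖ι (x.coeff n)‖ ≤ C := by
  simp [BddBy, coeffMap_coeff]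

/-- Integral with unit leading coefficient at `q ^ (-M)`. -/
structure HasUnitPole (x : LaurentSeries L) (M : ℕ) : Prop where
  bddBy : BddBy 1 (serK ι x)
  coeff_lt : ∀ n < -(M : ℤ), x.coeff n = 0
  coeff_eq : x.coeff (-(M : ℤ)) = 1

theorem HasUnitPole.one : HasUnitPole ι (1 : LaurentSeries L) 0 where
  bddBy := by simpa using bddBy_one (K := K)
  coeff_lt n hn := by simp [HahnSeries.coeff_one]; omega
  coeff_eq := by simp

theorem HasUnitPole.mul {x y : LaurentSeries L} {M N : ℕ} (hx : HasUnitPole ι x M)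
    (hy : HasUnitPole ι y N) : HasUnitPole ι (x * y) (M + N) where
  bddBy := by simpa using hx.bddBy.mul hy.bddBy
  coeff_lt n hn := by
    rw [HahnSeries.coeff_mul]
    refine Finset.sum_eq_zero fun ij hij => ?_
    obtain ⟨h1, h2, h3⟩ := Finset.mem_antidiagonal.1 hij
    rcases lt_or_ge ij.1 (-(M : ℤ)) with h | h
    · rw [hx.coeff_lt _ h, zero_mul]
    · rw [hy.coeff_lt _ (by omega), mul_zero]
  coeff_eq := by
    rw [HahnSeries.coeff_mul, Finset.sum_eq_single (-(M : ℤ), -(N : ℤ))]
    · simp [hx.coeff_eq, hy.coeff_eq]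
    · intro ij hij hne
      obtain ⟨h1, h2, h3⟩ := Finset.mem_antidiagonal.1 hij
      rcases lt_trichotomy ij.1 (-(M : ℤ)) with h | h | h
      · rw [hx.coeff_lt _ h, zero_mul]
      · exact absurd (Prod.ext h (by push_cast at h3; omega)) hne
      · rw [hy.coeff_lt _ (by push_cast at h3; omega), mul_zero]
    · intro h
      exact absurd (Finset.mem_antidiagonal.2 ⟨by simp [hx.coeff_eq], by simp [hy.coeff_eq],
        by push_cast; ring⟩) h

theorem HasUnitPole.pow {x : LaurentSeries L} {M : ℕ} (hx : HasUnitPole ι x M) (k : ℕ) :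
    HasUnitPole ι (x ^ k) (k * M) := by
  induction k with
  | zero => simpa using HasUnitPole.one ι
  | succ k ih => simpa [pow_succ, Nat.succ_mul] using ih.mul ι hx

omit [IsUltrametricDist K] in
theorem norm_sum_lt_one [IsUltrametricDist K] {α : Type*} (s : Finset α) {f : α → K}
    (h : ∀ i ∈ s, ‖f i‖ < 1) : ‖∑ i ∈ s, f i‖ < 1 :=
  Finset.sum_induction f (‖·‖ < 1)
    (fun _ _ ha hb => (IsUltrametricDist.norm_add_le_max _ _).trans_lt (max_lt ha hb)) (by simp) h

theorem coeff_pow_reduction {x : LaurentSeries K} (hx : BddBy 1 x) {e : ℤ}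
    (hlt : ∀ n < e, ‖x.coeff n‖ < 1) (he : ‖x.coeff e‖ = 1) (i : ℕ) :
    (∀ n < i * e, ‖(x ^ i).coeff n‖ < 1) ∧ ‖(x ^ i).coeff (i * e)‖ = 1 := by
  induction i with
  | zero => exact ⟨fun n hn => by simp only [Nat.cast_zero, zero_mul] at hn; simp [HahnSeries.coeff_one, hn.ne], by simp⟩
  | succ i ih =>
    have hxi : BddBy 1 (x ^ i) := by simpa using hx.pow i
    have small : ∀ a b : ℤ, (a < i * e ∨ b < e) → ‖(x ^ i).coeff a * x.coeff b‖ < 1 := by
      intro a b h
      rw [norm_mul]
      rcases h with h | h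
      · exact (mul_le_of_le_one_right (norm_nonneg _) (hx b)).trans_lt (ih.1 a h)
      · exact (mul_le_of_le_one_left (norm_nonneg _) (hxi a)).trans_lt (hlt b h)
    constructor
    · intro n hn
      rw [pow_succ, coeff_mul_eq_sum]
      refine norm_sum_lt_one _ fun ij hij => small _ _ ?_
      obtain ⟨-, -, h3⟩ := Finset.mem_antidiagonal.1 hij
      push_cast [add_mul] at hn
      omega
    · classical
      rw [pow_succ, coeff_mul_eq_sum, ← Finset.add_sum_erase _ _ (a := ((i : ℤ) * e, e))]
      · have h1 : ‖(x ^ i).coeff (i * e) * x.coeff e‖ = 1 := by rw [norm_mul, ih.2, he, one_mul]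
        have h2 : ‖∑ ij ∈ (Finset.antidiagonal (x ^ i).isPWO_support x.isPWO_support
            (((i + 1 : ℕ) : ℤ) * e)).erase ((i : ℤ) * e, e), (x ^ i).coeff ij.1 * x.coeff ij.2‖
            < 1 := by
          refine norm_sum_lt_one _ fun ij hij => small _ _ ?_
          obtain ⟨hne, hij⟩ := Finset.mem_erase.1 hij
          obtain ⟨-, -, h3⟩ := Finset.mem_antidiagonal.1 hij
          by_contra! h
          push_cast [add_mul] at h3
          exact hne (Prod.ext (by simp; omega) (by simp; omega))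
        rw [IsUltrametricDist.norm_add_eq_max_of_norm_ne_norm (by rw [h1]; exact h2.ne'), h1,
          max_eq_left h2.le]
      · exact Finset.mem_antidiagonal.2
          ⟨fun h => by simp [h] at ih, fun h => by simp [h] at he, by push_cast; ring⟩

variable {F : IntermediateField L (LaurentSeries L)} (R : Subring F)
  (hRL : ∀ c : L, algebraMap L F c ∈ R)

include hRL in
theorem exists_small_pole {d : ℕ} (hd : 0 < d) {u v : F} (huR : u ∈ R) (hvR : v ∈ R)
    (hu : HasUnitPole ι (u : LaurentSeries L) d)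
    (hv : HasUnitPole ι (v : LaurentSeries L) (2 * d + 1)) (M : ℕ) :
    ∀ g ∈ R, (∀ n < -(M : ℤ), (g : LaurentSeries L).coeff n = 0) →
      BddBy 1 (serK ι (g : LaurentSeries L)) →
      (∀ n < 0, ‖ι ((g : LaurentSeries L).coeff n)‖ < 1) →
      ∃ r ∈ R, (∀ n < -((d * (2 * d + 1) : ℕ) : ℤ), (r : LaurentSeries L).coeff n = 0) ∧
        ∀ n, ‖ι ((g : LaurentSeries L).coeff n) - ι ((r : LaurentSeries L).coeff n)‖ < 1 := by
  induction M using Nat.strong_induction_on with
  | _ M ih =>
  intro g hg hlow hb hneg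
  rcases le_or_gt M (d * (2 * d + 1)) with hM | hM
  · exact ⟨g, hg, fun n hn => hlow n (by omega), fun n => by simp⟩
  · obtain ⟨i, k, hik⟩ : ∃ i k, i * (2 * d + 1) + k * d = M := by
      have hdiv := Nat.div_add_mod M d
      have h1 : M % d * 2 ≤ M / d := by
        have hlt := Nat.mod_lt M hd
        by_contra! h
        have : d * (M / d) + M % d < d * (2 * d) + d :=
          Nat.add_lt_add_of_le_of_lt (Nat.mul_le_mul_left d (by omega)) hlt
        rw [hdiv] at this
        nlinarith
      obtain ⟨k, hk⟩ := Nat.exists_eq_add_of_le h1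
      refine ⟨M % d, k, ?_⟩
      rw [hk] at hdiv
      calc M % d * (2 * d + 1) + k * d = d * (M % d * 2 + k) + M % d := by ring
        _ = M := hdiv
    set c := (g : LaurentSeries L).coeff (-(M : ℤ))
    set mo : F := v ^ i * u ^ k
    have hmo : HasUnitPole ι (mo : LaurentSeries L) M := by
      simpa [mo, hik] using (hv.pow ι i).mul ι (hu.pow ι k)
    set g' : F := g - algebraMap L F c * mo with hg'
    have hco : ∀ n, (g' : LaurentSeries L).coeff n =
        (g : LaurentSeries L).coeff n - c * (mo : LaurentSeries L).coeff n := fun n => by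
      have : (g' : LaurentSeries L) =
          (g : LaurentSeries L) - HahnSeries.single 0 c * (mo : LaurentSeries L) := by
        simp [hg', algebraMap_laurentSeries_eq_single]
      rw [this, HahnSeries.coeff_sub, HahnSeries.coeff_single_mul, sub_zero]
    have hc : ‖ι c‖ < 1 := hneg _ (by omega)
    have hdiff : ∀ n, ‖ι ((g : LaurentSeries L).coeff n) - ι ((g' : LaurentSeries L).coeff n)‖ < 1 := by
      intro n
      rw [hco, map_sub, sub_sub_cancel, map_mul, norm_mul]
      exact (mul_le_of_le_one_right (norm_nonneg _) (by simpa [coeffMap_coeff] using hmo.bddBy n)).trans_lt hc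
    obtain ⟨M', rfl⟩ : ∃ M', M = M' + 1 := ⟨M - 1, by omega⟩
    obtain ⟨r, hr, hr1, hr2⟩ : ∃ r ∈ R,
        (∀ n < -((d * (2 * d + 1) : ℕ) : ℤ), (r : LaurentSeries L).coeff n = 0) ∧
        ∀ n, ‖ι ((g' : LaurentSeries L).coeff n) - ι ((r : LaurentSeries L).coeff n)‖ < 1 := by
      refine ih M' (by omega) g'
        (sub_mem hg (mul_mem (hRL c) (mul_mem (pow_mem hvR i) (pow_mem huR k))))
        (fun n hn => ?_) (fun n => ?_) (fun n hn => ?_)
      · rw [hco]
        rcases lt_or_ge n (-((M' + 1 : ℕ) : ℤ)) with h | h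
        · simp [hlow n h, hmo.coeff_lt n h]
        · obtain rfl : n = -((M' + 1 : ℕ) : ℤ) := by push_cast at h ⊢; omega
          simp only [hmo.coeff_eq, mul_one, c, sub_self]
      · have h1 : ‖ι ((g : LaurentSeries L).coeff n)‖ ≤ 1 := by simpa [coeffMap_coeff] using hb n
        have := (hdiff n).le
        rw [norm_sub_rev] at this
        calc ‖(serK ι (g' : LaurentSeries L)).coeff n‖
            = ‖(ι ((g' : LaurentSeries L).coeff n) - ι ((g : LaurentSeries L).coeff n)) +
                ι ((g : LaurentSeries L).coeff n)‖ := by simp [coeffMap_coeff]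
          _ ≤ 1 := (IsUltrametricDist.norm_add_le_max _ _).trans (max_le this h1)
      · rw [← sub_add_cancel (ι ((g' : LaurentSeries L).coeff n)) (ι ((g : LaurentSeries L).coeff n))]
        exact (IsUltrametricDist.norm_add_le_max _ _).trans_lt
          (max_lt (by rw [norm_sub_rev]; exact hdiff n) (hneg n hn))
    refine ⟨r, hr, hr1, fun n => ?_⟩
    rw [← sub_add_sub_cancel _ (ι ((g' : LaurentSeries L).coeff n))]
    exact (IsUltrametricDist.norm_add_le_max _ _).trans_lt (max_lt (hdiff n) (hr2 n))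

include hRL in
/-- The reduction of an integral element of `R` without polar part is constant. -/
theorem norm_coeff_lt_one_of_pos
    (hR : ∀ g ∈ R, (∀ n ≤ (0 : ℤ), (g : LaurentSeries L).coeff n = 0) → g = 0)
    {d : ℕ} (hd : 0 < d) {u v : F} (huR : u ∈ R) (hvR : v ∈ R)
    (hu : HasUnitPole ι (u : LaurentSeries L) d)
    (hv : HasUnitPole ι (v : LaurentSeries L) (2 * d + 1)) {g : F} (hg : g ∈ R)
    (hb : BddBy 1 (serK ι (g : LaurentSeries L)))
    (hneg : ∀ n < 0, ‖ι ((g : LaurentSeries L).coeff n)‖ < 1) {n : ℤ} (hn : 0 < n) :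
    ‖ι ((g : LaurentSeries L).coeff n)‖ < 1 := by
  classical
  by_contra! hbig
  have hex : ∃ e : ℕ, 1 ≤ ‖ι ((g : LaurentSeries L).coeff ((e : ℤ) + 1))‖ :=
    ⟨(n - 1).toNat, by rwa [show (((n - 1).toNat : ℕ) : ℤ) + 1 = n by omega]⟩
  set e : ℤ := (Nat.find hex : ℤ) + 1
  set h : F := g - algebraMap L F ((g : LaurentSeries L).coeff 0)
  have hcoe : ∀ m, (h : LaurentSeries L).coeff m =
      (g : LaurentSeries L).coeff m - if m = 0 then (g : LaurentSeries L).coeff 0 else 0 := by
    intro m
    have : (h : LaurentSeries L) = (g : LaurentSeries L) -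
        HahnSeries.single 0 ((g : LaurentSeries L).coeff 0) := by
      simp [h, algebraMap_laurentSeries_eq_single]
    rw [this, HahnSeries.coeff_sub, HahnSeries.coeff_single]
    congr
  set x := serK ι (h : LaurentSeries L)
  have hx : BddBy 1 x := fun m => by
    simp only [x, coeffMap_coeff, hcoe]
    rcases eq_or_ne m 0 with rfl | hm
    · simp
    · simpa [hm, coeffMap_coeff] using hb m
  have hlt : ∀ m < e, ‖x.coeff m‖ < 1 := fun m hm => by
    simp only [x, coeffMap_coeff, hcoe]
    rcases lt_trichotomy m 0 with h0 | rfl | h0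
    · simpa [h0.ne] using hneg m h0
    · simp
    · have := Nat.find_min hex (m := (m - 1).toNat) (by omega)
      rw [show (((m - 1).toNat : ℕ) : ℤ) + 1 = m by omega, not_le] at this
      simpa [h0.ne'] using this
  have he : ‖x.coeff e‖ = 1 := by
    refine le_antisymm (hx e) ?_
    simp only [x, coeffMap_coeff, hcoe, if_neg (show e ≠ 0 by omega), sub_zero]
    exact Nat.find_spec hex
  set G0 := d * (2 * d + 1)
  have hex_r : ∀ i : Fin (G0 + 2), ∃ r ∈ R,
      (∀ m < -(G0 : ℤ), (r : LaurentSeries L).coeff m = 0) ∧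
      ∀ m, ‖(x ^ ((i : ℕ) + 1)).coeff m - ι ((r : LaurentSeries L).coeff m)‖ < 1 := by
    intro i
    have hpow : ∀ m, (x ^ ((i : ℕ) + 1)).coeff m =
        ι (((h ^ ((i : ℕ) + 1) : F) : LaurentSeries L).coeff m) := fun m => by
      simp [x, ← map_pow, coeffMap_coeff]
    obtain ⟨r, hr, h1, h2⟩ := exists_small_pole ι R hRL hd huR hvR hu hv
      (-((h ^ ((i : ℕ) + 1) : F) : LaurentSeries L).order).toNat (h ^ ((i : ℕ) + 1))
      (pow_mem (sub_mem hg (hRL _)) _)
      (fun m hm => HahnSeries.coeff_eq_zero_of_lt_order (by omega))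
      (fun m => by rw [coeffMap_coeff, ← hpow]; exact ((hx.pow ((i : ℕ) + 1)).mono (le_of_eq (one_pow _))) m)
      (fun m hm => by
        rw [← hpow]
        exact (coeff_pow_reduction hx hlt he _).1 m (hm.trans_le (by positivity)))
    exact ⟨r, hr, h1, fun m => by rw [hpow]; exact h2 m⟩
  choose r hrR hrlow hrdiff using hex_r
  let vec : Fin (G0 + 2) → (Fin (G0 + 1) → L) := fun i k =>
    (r i : LaurentSeries L).coeff (-((k : ℕ) : ℤ))
  have hdep : ¬LinearIndependent L vec := fun hli => by
    simpa using hli.fintype_card_le_finrank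
  obtain ⟨c, hsum, i₁, hi₁⟩ := Fintype.not_linearIndependent_iff.1 hdep
  have hzero : ∀ m, ∑ i, c i * (r i : LaurentSeries L).coeff m = 0 := by
    have hco : ∀ m, ((∑ i, algebraMap L F (c i) * r i : F) : LaurentSeries L).coeff m =
        ∑ i, c i * (r i : LaurentSeries L).coeff m := fun m => by
      simp [algebraMap_laurentSeries_eq_single, HahnSeries.coeff_sum, HahnSeries.coeff_single_mul]
    intro m
    rw [← hco, hR _ (sum_mem fun i _ => mul_mem (hRL _) (hrR i)) fun k hk => ?_]
    · simp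
    rw [hco]
    rcases lt_or_ge k (-(G0 : ℤ)) with h' | h'
    · exact Finset.sum_eq_zero fun i _ => by rw [hrlow i k h', mul_zero]
    · have hk' : -k.natAbs = (k : ℤ) := by omega
      have := congrFun hsum ⟨k.natAbs, by omega⟩
      simp only [vec, Finset.sum_apply, Pi.smul_apply, smul_eq_mul, Pi.zero_apply, hk'] at this
      exact this
  obtain ⟨iM, -, hiM⟩ := Finset.exists_max_image Finset.univ (fun i => ‖ι (c i)‖) ⟨i₁, Finset.mem_univ _⟩
  have hM0 : 0 < ‖ι (c iM)‖ :=
    (norm_pos_iff.2 ((map_ne_zero ι).2 hi₁)).trans_le (hiM i₁ (Finset.mem_univ _))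
  let μ : Fin (G0 + 2) → K := fun i => ι (c i) / ι (c iM)
  have hμ : ∀ i, ‖μ i‖ ≤ 1 := fun i => by
    simp only [μ, norm_div]
    exact div_le_one_of_le₀ (hiM i (Finset.mem_univ _)) hM0.le
  obtain ⟨i₀, hi₀, hmin⟩ : ∃ i₀, ‖μ i₀‖ = 1 ∧ ∀ i < i₀, ‖μ i‖ < 1 := by
    let S := Finset.univ.filter fun i => ‖μ i‖ = 1
    have hS : S.Nonempty := ⟨iM, Finset.mem_filter.2 ⟨Finset.mem_univ _, by
      simp [μ, norm_div, hM0.ne']⟩⟩
    refine ⟨S.min' hS, (Finset.mem_filter.1 (S.min'_mem hS)).2, fun i hi => (hμ i).lt_of_ne fun h' => ?_⟩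
    exact hi.not_ge (S.min'_le i (Finset.mem_filter.2 ⟨Finset.mem_univ _, h'⟩))
  set m : ℤ := (((i₀ : ℕ) + 1 : ℕ) : ℤ) * e
  have hz : ∑ i, μ i * ι ((r i : LaurentSeries L).coeff m) = 0 := by
    simp only [μ, div_mul_eq_mul_div, ← Finset.sum_div, ← map_mul, ← map_sum, hzero m, map_zero,
      zero_div]
  have hsmall : ‖∑ i ∈ Finset.univ.erase i₀, μ i * ι ((r i : LaurentSeries L).coeff m)‖ < 1 := by
    refine norm_sum_lt_one _ fun i hi => ?_
    have hri : ‖ι ((r i : LaurentSeries L).coeff m)‖ ≤ 1 := by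
      rw [← sub_sub_cancel ((x ^ ((i : ℕ) + 1)).coeff m) (ι _), sub_eq_add_neg]
      refine (IsUltrametricDist.norm_add_le_max _ _).trans (max_le ?_ ?_)
      · simpa using (hx.pow ((i : ℕ) + 1)) m
      · rw [norm_neg]; exact (hrdiff i m).le
    rw [norm_mul]
    rcases lt_trichotomy i i₀ with h' | h' | h'
    · exact (mul_le_of_le_one_right (norm_nonneg _) hri).trans_lt (hmin i h')
    · exact absurd h' (Finset.ne_of_mem_erase hi)
    · refine (mul_le_of_le_one_left (norm_nonneg _) (hμ i)).trans_lt ?_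
      have hlow : ‖(x ^ ((i : ℕ) + 1)).coeff m‖ < 1 :=
        (coeff_pow_reduction hx hlt he _).1 m <|
          mul_lt_mul_of_pos_right (by exact_mod_cast Nat.add_lt_add_right h' 1) (by omega)
      rw [← sub_sub_cancel ((x ^ ((i : ℕ) + 1)).coeff m) (ι _), sub_eq_add_neg]
      exact (IsUltrametricDist.norm_add_le_max _ _).trans_lt
        (max_lt hlow (by rw [norm_neg]; exact hrdiff i m))
  have hbig' : ‖μ i₀ * ι ((r i₀ : LaurentSeries L).coeff m)‖ = 1 := by
    rw [norm_mul, hi₀, one_mul]
    have h1 := (coeff_pow_reduction hx hlt he ((i₀ : ℕ) + 1)).2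
    rw [← sub_sub_cancel ((x ^ ((i₀ : ℕ) + 1)).coeff m) (ι _), sub_eq_add_neg,
      IsUltrametricDist.norm_add_eq_max_of_norm_ne_norm, norm_neg, h1, max_eq_left (hrdiff i₀ m).le]
    rw [norm_neg, h1]
    exact (hrdiff i₀ m).ne'
  rw [← Finset.add_sum_erase _ _ (Finset.mem_univ i₀), add_eq_zero_iff_eq_neg] at hz
  rw [hz, norm_neg] at hbig'
  exact hsmall.ne hbig'

end Fermat.Agent.Mazur.Immersion
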