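import Fermat.Agent.Mazur.Immersion.Regular

/-!
# Functions with a pole at `∞` only have no residue against cusp forms
-/

set_option autoImplicit false

noncomputable section

open UpperHalfPlane hiding I
open Filter ModularCurve AlgebraicCurve CongruenceSubgroup Polynomial WithZero
open scoped Manifold MatrixGroups ModularForm Topology

namespace Fermat.Agent.Mazur.Immersion

open Fermat.Agent.Modular

local notation "ιC" => Fermat.Agent.Reduction.qbarToComplex
local notation "Qb" => AlgebraicClosure ℚ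

/-- A root of a monic polynomial with coefficients of norm at most `C` has norm at most
`1 + n C`. -/
theorem norm_root_le {n : ℕ} {c : ℕ → ℂ} {x : ℂ} {C : ℝ} (hC : 0 ≤ C)
    (hc : ∀ i < n, ‖c i‖ ≤ C) (h : x ^ n + ∑ i ∈ Finset.range n, c i * x ^ i = 0) :
    ‖x‖ ≤ 1 + n * C := by
  by_contra! hlt
  have hnC : (0 : ℝ) ≤ n * C := by positivity
  have h1 : 1 ≤ ‖x‖ := by linarith
  rcases n with _ | m
  · simp at h
  · have key : ‖x‖ ^ (m + 1) ≤ ((m + 1 : ℕ) : ℝ) * C * ‖x‖ ^ m := by
      rw [← norm_pow, eq_neg_of_add_eq_zero_left h, norm_neg]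
      refine (norm_sum_le _ _).trans ((Finset.sum_le_card_nsmul _ _ (C * ‖x‖ ^ m) fun i hi => ?_).trans
        (by simp; ring_nf; rfl))
      rw [norm_mul, norm_pow]
      have hi' := Finset.mem_range.1 hi
      exact mul_le_mul (hc i hi') (pow_le_pow_right₀ h1 (by omega)) (by positivity) hC
    rw [pow_succ'] at key
    have := le_of_mul_le_mul_right key (by positivity)
    linarith

theorem isBoundedAtImInfty_of_root {n : ℕ} {c : ℕ → ℍ → ℂ} {G : ℍ → ℂ}
    (hc : ∀ i < n, IsBoundedAtImInfty (c i))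
    (h : ∀ z, G z ^ n + ∑ i ∈ Finset.range n, c i z * G z ^ i = 0) : IsBoundedAtImInfty G := by
  choose M hM using fun i : Fin n => (Asymptotics.isBigO_iff.1 (hc i i.2))
  set C := ∑ i : Fin n, |M i|
  refine Asymptotics.isBigO_iff.2 ⟨1 + n * C, ?_⟩
  filter_upwards [eventually_all.2 hM] with z hz
  rw [Pi.one_apply, norm_one, mul_one]
  refine norm_root_le (c := fun i => c i z) (Finset.sum_nonneg fun i _ => abs_nonneg _)
    (fun i hi => ?_) (h z)
  have := hz ⟨i, hi⟩
  rw [Pi.one_apply, norm_one, mul_one] at this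
  exact this.trans ((le_abs_self _).trans
    (Finset.single_le_sum (fun j _ => abs_nonneg (M j)) (Finset.mem_univ (⟨i, hi⟩ : Fin n))))

variable (p : ℕ) [NeZero p] [Fact p.Prime]

omit [Fact p.Prime] in
theorem evalBar_hasQExp {f : modularFunctionFieldBar p} {G : Hol}
    (hG : evalBar p f = algebraMap Hol Mero G) (hinv : ∀ g ∈ Gamma0 p, g • G = G) :
    HasQExp 1 (G : ℍ → ℂ) (coeffMap ιC (f : LaurentSeries Qb)) := by
  obtain ⟨a, b, hb, e⟩ := IsFractionRing.div_surjective (A := RC p) (toFC p ιC f)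
  have hb0 : b ≠ 0 := nonZeroDivisors.ne_zero hb
  have hbc : (b : LaurentSeries ℂ) ≠ 0 := fun h => hb0 (Subtype.ext h)
  have hbh : algebraMap Hol Mero (evalHol p b) ≠ 0 := by
    rw [map_ne_zero_iff _ (IsFractionRing.injective Hol Mero)]
    exact (map_ne_zero_iff _ (evalHol_injective p)).mpr hb0
  have hAB : G * evalHol p b = evalHol p a := by
    apply IsFractionRing.injective Hol Mero
    rw [map_mul, ← hG, show evalBar p f = evalMero p (toFC p ιC f) from rfl, ← e, map_div₀,
      evalMero_algebraMap, evalMero_algebraMap, div_mul_cancel₀ _ hbh]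
  have hper : Function.Periodic ((G : ℍ → ℂ) ∘ ofComplex) 1 := by
    have hT : (ModularGroup.T)⁻¹ ∈ Gamma0 p := inv_mem (by simp [Gamma0_mem, ModularGroup.coe_T])
    intro w
    by_cases hw : 0 < w.im
    · have hw' : 0 < (w + 1).im := by simpa using hw
      have h := congrArg (fun F : Hol => F.1 ⟨w, hw⟩) (hinv _ hT)
      simp only [smul_hol_apply, inv_inv, UpperHalfPlane.modular_T_smul] at h
      simp only [Function.comp_apply, ofComplex_apply_of_im_pos hw, ofComplex_apply_of_im_pos hw']
      convert! h using 2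
      ext
      simp [add_comm]
    · have hw' : (w + 1).im ≤ 0 := by simpa using hw
      simp only [Function.comp_apply, ofComplex_apply_of_im_nonpos (not_lt.mp hw),
        ofComplex_apply_of_im_nonpos hw']
  set m := ((a : LaurentSeries ℂ)).order
  set k := ((b : LaurentSeries ℂ)).order
  have ta := (hasQExp_evalHol p a).tendsto one_pos (m := m)
    fun n hn => HahnSeries.coeff_eq_zero_of_lt_order hn
  have tb := (hasQExp_evalHol p b).tendsto one_pos (m := k)
    fun n hn => HahnSeries.coeff_eq_zero_of_lt_order hn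
  have hck := HahnSeries.coeff_order_eq_zero.not.2 hbc
  have hbd : IsBoundedAtImInfty fun τ : ℍ =>
      Function.Periodic.qParam (1 : ℝ) τ ^ (k - m) * G.1 τ := by
    refine ((ta.div tb hck).congr' ?_).isBigO_one ℝ
    filter_upwards [tb.eventually_ne hck] with τ hτ
    have hq : Function.Periodic.qParam (1 : ℝ) (τ : ℂ) ≠ 0 := Function.Periodic.qParam_ne_zero _
    have hb1 : (evalHol p b).1 τ ≠ 0 := left_ne_zero_of_mul hτ
    have hA := congrArg (fun F : Hol => F.1 τ) hAB
    simp only [Subalgebra.coe_mul, Pi.mul_apply] at hA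
    simp only [Pi.div_apply, ← hA, zpow_sub₀ hq]
    field_simp
  obtain ⟨z, hz, -⟩ := HasQExp.exists_of_isBoundedAtImInfty_mul (f := (G : ℍ → ℂ)) one_pos
    (by simpa using hper) G.2 _ hbd
  have hzx : z * (b : LaurentSeries ℂ) = (a : LaurentSeries ℂ) :=
    ((hz.mul (hasQExp_evalHol p b)).congr fun τ => congrArg (fun F : Hol => F.1 τ) hAB).unique
      (hasQExp_evalHol p a) one_pos
  have hx : coeffMap ιC (f : LaurentSeries Qb) = (a : LaurentSeries ℂ) / (b : LaurentSeries ℂ) := by
    rw [← coe_toFC, ← e]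
    rfl
  rwa [hx, ← hzx, mul_div_cancel_right₀ _ hbc]

set_option maxHeartbeats 1600000 in
set_option synthInstance.maxHeartbeats 100000 in
/-- A function regular away from `∞` is holomorphic on `ℍ` and bounded at the cusp `0`. -/
theorem exists_hol_of_mem_regularAway {f : modularFunctionFieldBar p}
    (hf : f ∈ regularAway (cuspInfty p)) :
    ∃ G : Hol, HasQExp 1 (G : ℍ → ℂ) (coeffMap ιC (f : LaurentSeries Qb)) ∧
      (∀ g ∈ Gamma0 p, g • G = G) ∧
      ∀ g : SL(2, ℤ), g ∉ Gamma0 p → IsBoundedAtImInfty ((g • G : Hol) : ℍ → ℂ) := by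
  set A := Algebra.adjoin Qb ({uBar p} : Set (modularFunctionFieldBar p))
  have hint : IsIntegral A f := (Fermat.Agent.Curve.isIntegral_adjoin_iff _ f).2 fun Q hQ => by
    rcases eq_or_ne Q (cuspInfty p) with rfl | hne
    · exact absurd (hQ _ (Set.mem_singleton _)) (not_mem_cuspInfty_uBar p)
    · exact hf Q hne
  obtain ⟨R, hm, hR⟩ := hint
  let E := evalBar p
  have hcoef : ∀ c ∈ A, ∃ C : Hol, E c = algebraMap Hol Mero C ∧
      ∀ g : SL(2, ℤ), g ∉ Gamma0 p → IsBoundedAtImInfty ((g • C : Hol) : ℍ → ℂ) := by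
    intro c hc
    induction hc using Algebra.adjoin_induction with
    | mem y hy =>
      obtain rfl := Set.mem_singleton_iff.1 hy
      refine ⟨uHol p, evalBar_eq_of_hasQExp p (hasQExp_uBar p), fun g hg => ?_⟩
      obtain ⟨x, hx, hx0⟩ := exists_hasQExp_uHol_smul p hg
      exact hx.isBoundedAtImInfty (Nat.cast_pos.mpr (NeZero.pos p))
        fun n hn => hx0 n (by have := NeZero.pos p; omega)
    | algebraMap a =>
      refine ⟨algebraMap ℂ Hol (ιC a), ?_, fun g _ => ?_⟩
      · rw [show E _ = _ from evalFL_algebraMap p ιC a, IsScalarTower.algebraMap_apply ℂ Hol Mero]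
      · rw [smul_algebraMap_hol]
        exact Filter.const_boundedAtFilter atImInfty (ιC a)
    | add x y _ _ hx hy =>
      obtain ⟨X, hX, hXb⟩ := hx
      obtain ⟨Y, hY, hYb⟩ := hy
      refine ⟨X + Y, by rw [map_add, hX, hY, map_add], fun g hg => ?_⟩
      rw [smul_add]
      exact (hXb g hg).add (hYb g hg)
    | mul x y _ _ hx hy =>
      obtain ⟨X, hX, hXb⟩ := hx
      obtain ⟨Y, hY, hYb⟩ := hy
      refine ⟨X * Y, by rw [map_mul, hX, hY, map_mul], fun g hg => ?_⟩
      rw [smul_mul']
      exact (hXb g hg).mul (hYb g hg)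
  choose C hC hCb using fun i : ℕ => hcoef (R.coeff i) (R.coeff i).2
  have hroot : E f ^ R.natDegree +
      ∑ i ∈ Finset.range R.natDegree, algebraMap Hol Mero (C i) * E f ^ i = 0 := by
    have h := congrArg E hR
    rw [Polynomial.eval₂_eq_sum_range, Finset.sum_range_succ, hm.coeff_natDegree, map_one, one_mul,
      map_add, map_sum, map_zero, map_pow] at h
    rw [add_comm, ← h]
    congr 1
    refine Finset.sum_congr rfl fun i _ => ?_
    rw [map_mul, map_pow, ← hC]
    rfl
  obtain ⟨G, hG⟩ := exists_algebraMap_eq_of_forall_ordVal_le_one (φ := E f) fun z => by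
    by_contra! hlt
    have hlow : ordVal z (∑ i ∈ Finset.range R.natDegree, algebraMap Hol Mero (C i) * E f ^ i) <
        ordVal z (E f ^ R.natDegree) := by
      refine Valuation.map_sum_lt _ (Valuation.ne_zero_iff _ |>.2 (pow_ne_zero _ ?_)) fun i hi => ?_
      · intro h0
        rw [h0, map_zero] at hlt
        exact not_lt.2 zero_le_one hlt
      · rw [map_mul, map_pow, map_pow]
        refine lt_of_le_of_lt (mul_le_of_le_one_left' ?_)
          (pow_lt_pow_right₀ hlt (Finset.mem_range.1 hi))
        rw [ordVal_algebraMap]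
        rcases eq_or_ne (C i) 0 with h0 | h0
        · simp [h0]
        · rw [holVal_apply h0, ← exp_zero, exp_le_exp]; omega
    have h2 := Valuation.map_add_eq_of_lt_left (v := ordVal z) hlow
    rw [hroot, map_zero] at h2
    rw [← h2] at hlow
    exact not_lt.2 zero_le hlow
  have hinv : ∀ g ∈ Gamma0 p, g • G = G := fun g hg => IsFractionRing.injective Hol Mero <| by
    rw [← translate_algebraMap, hG]
    exact translate_evalMero p hg _
  refine ⟨G, evalBar_hasQExp p hG.symm hinv, hinv, fun g hg => ?_⟩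
  refine isBoundedAtImInfty_of_root (n := R.natDegree) (c := fun i => (g • C i : Hol).1)
    (fun i _ => hCb i g hg) fun z => ?_
  rw [← hG] at hroot
  have h0 : G ^ R.natDegree + ∑ i ∈ Finset.range R.natDegree, C i * G ^ i = 0 :=
    IsFractionRing.injective Hol Mero (by simpa using hroot)
  have := congrArg (fun F : Hol => F.1 (g⁻¹ • z)) h0
  simpa [Finset.sum_apply] using this

/-- **Residue theorem at `∞`.** -/
theorem coeff_zero_mul_qExpansion {f : modularFunctionFieldBar p}
    (hf : f ∈ regularAway (cuspInfty p)) (φ : CuspForm (CongruenceSubgroup.Gamma0 p) 2) :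
    (coeffMap ιC (f : LaurentSeries Qb) *
      HahnSeries.ofPowerSeries ℤ ℂ (qExpansion 1 (φ : ℍ → ℂ))).coeff 0 = 0 := by
  obtain ⟨G, hG, hinv, hb⟩ := exists_hol_of_mem_regularAway p hf
  exact coeff_zero_mul_cuspForm hinv hG hb φ

end Fermat.Agent.Mazur.Immersion
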