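import Mathlib.RingTheory.LaurentSeries
import Mathlib.Analysis.Normed.Field.Basic
import Mathlib.Analysis.Normed.Group.Ultra
import Mathlib.Topology.Algebra.InfiniteSum.Nonarchimedean
import Mathlib.Analysis.SpecificLimits.Normed

/-!
# Bounded Laurent series over a nonarchimedean field

For a complete nonarchimedean field `K`, Laurent series with bounded coefficients converge on the
punctured open unit disc. We set up evaluation at `r` as a multiplicative map, the division of a
series vanishing at `r` by `q - r`, and the identity theorem.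
-/

set_option autoImplicit false

noncomputable section

open Filter Topology

namespace Fermat.Agent.Mazur.Immersion

variable {K : Type*} [NormedField K]

/-- All coefficients of `x` have norm at most `C`. -/
def BddBy (C : ℝ) (x : LaurentSeries K) : Prop := ∀ n : ℤ, ‖x.coeff n‖ ≤ C

/-- The coefficients of `x` are bounded. -/
def Bdd (x : LaurentSeries K) : Prop := ∃ C, BddBy C x

theorem BddBy.nonneg {C : ℝ} {x : LaurentSeries K} (h : BddBy C x) : 0 ≤ C :=
  (norm_nonneg _).trans (h 0)

theorem BddBy.mono {C D : ℝ} {x : LaurentSeries K} (h : BddBy C x) (hCD : C ≤ D) : BddBy D x :=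
  fun n => (h n).trans hCD

theorem bddBy_zero {C : ℝ} (hC : 0 ≤ C) : BddBy C (0 : LaurentSeries K) := fun n => by simpa

theorem bddBy_single (m : ℤ) (c : K) : BddBy ‖c‖ (HahnSeries.single m c) := fun n => by
  rcases eq_or_ne n m with rfl | h
  · simp
  · simp [HahnSeries.coeff_single_of_ne h]

theorem bddBy_C (c : K) : BddBy ‖c‖ (HahnSeries.C c : LaurentSeries K) := bddBy_single 0 c

theorem bddBy_one : BddBy 1 (1 : LaurentSeries K) := by
  simpa using bddBy_single (K := K) 0 1

theorem BddBy.neg {C : ℝ} {x : LaurentSeries K} (h : BddBy C x) : BddBy C (-x) := fun n => by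
  simpa using h n

theorem coeff_mul_eq_sum (x y : LaurentSeries K) (n : ℤ) : (x * y).coeff n =
    ∑ ij ∈ Finset.antidiagonal x.isPWO_support y.isPWO_support n, x.coeff ij.1 * y.coeff ij.2 :=
  HahnSeries.coeff_mul

variable [IsUltrametricDist K]

theorem BddBy.add {C : ℝ} {x y : LaurentSeries K} (hx : BddBy C x) (hy : BddBy C y) :
    BddBy C (x + y) := fun n => by
  rw [HahnSeries.coeff_add]
  exact (IsUltrametricDist.norm_add_le_max _ _).trans (max_le (hx n) (hy n))

theorem BddBy.sub {C : ℝ} {x y : LaurentSeries K} (hx : BddBy C x) (hy : BddBy C y) :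
    BddBy C (x - y) := by
  rw [sub_eq_add_neg]; exact hx.add hy.neg

theorem bddBy_sum {C : ℝ} (hC : 0 ≤ C) {ι : Type*} (s : Finset ι) {x : ι → LaurentSeries K}
    (h : ∀ i ∈ s, BddBy C (x i)) : BddBy C (∑ i ∈ s, x i) :=
  Finset.sum_induction x (BddBy C) (fun _ _ => BddBy.add) (bddBy_zero hC) h

theorem BddBy.mul {C D : ℝ} {x y : LaurentSeries K} (hx : BddBy C x) (hy : BddBy D y) :
    BddBy (C * D) (x * y) := fun n => by
  rw [coeff_mul_eq_sum]
  refine IsUltrametricDist.norm_sum_le_of_forall_le_of_nonneg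
    (mul_nonneg hx.nonneg hy.nonneg) fun ij _ => ?_
  rw [norm_mul]
  exact mul_le_mul (hx _) (hy _) (norm_nonneg _) hx.nonneg

theorem BddBy.pow {C : ℝ} {x : LaurentSeries K} (hx : BddBy C x) (m : ℕ) :
    BddBy (C ^ m) (x ^ m) := by
  induction m with
  | zero => simpa using bddBy_one
  | succ m ih => rw [pow_succ, pow_succ]; exact ih.mul hx

theorem bddBy_prod {ι : Type*} (s : Finset ι) {x : ι → LaurentSeries K}
    (h : ∀ i ∈ s, BddBy 1 (x i)) : BddBy 1 (∏ i ∈ s, x i) :=
  Finset.prod_induction x (BddBy 1) (fun _ _ ha hb => by simpa using ha.mul hb) bddBy_one h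

variable (K) in
/-- The ring of Laurent series with bounded coefficients. -/
def bddSubring : Subring (LaurentSeries K) where
  carrier := {x | Bdd x}
  zero_mem' := ⟨0, bddBy_zero le_rfl⟩
  one_mem' := ⟨1, bddBy_one⟩
  add_mem' := fun ⟨C, hC⟩ ⟨D, hD⟩ =>
    ⟨max C D, (hC.mono (le_max_left _ _)).add (hD.mono (le_max_right _ _))⟩
  neg_mem' := fun ⟨C, hC⟩ => ⟨C, hC.neg⟩
  mul_mem' := fun ⟨C, hC⟩ ⟨D, hD⟩ => ⟨C * D, hC.mul hD⟩

omit [IsUltrametricDist K] in
theorem mem_bddSubring [IsUltrametricDist K] {x : LaurentSeries K} :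
    x ∈ bddSubring K ↔ Bdd x := Iff.rfl

theorem bdd_single (m : ℤ) (c : K) : HahnSeries.single m c ∈ bddSubring K := ⟨_, bddBy_single m c⟩

theorem bdd_C (c : K) : (HahnSeries.C c : LaurentSeries K) ∈ bddSubring K := bdd_single 0 c

/-! ### Evaluation -/

/-- The value of a series at `r`. -/
def sval (r : K) (x : LaurentSeries K) : K := ∑' n : ℤ, x.coeff n * r ^ n

omit [IsUltrametricDist K] in
theorem sval_single (r : K) (m : ℤ) (c : K) : sval r (HahnSeries.single m c) = c * r ^ m := by
  rw [sval, tsum_eq_single m fun n hn => by simp [HahnSeries.coeff_single_of_ne hn]]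
  simp

omit [IsUltrametricDist K] in
theorem sval_C (r c : K) : sval r (HahnSeries.C c) = c := by
  simpa using sval_single r 0 c

omit [IsUltrametricDist K] in
@[simp] theorem sval_one (r : K) : sval r 1 = 1 := by simpa using sval_C r 1

omit [IsUltrametricDist K] in
@[simp] theorem sval_zero (r : K) : sval r 0 = 0 := by simp [sval]

omit [IsUltrametricDist K] in
theorem tendsto_term {r : K} (hr : ‖r‖ < 1) {x : LaurentSeries K} (hx : Bdd x) :
    Tendsto (fun n : ℤ => x.coeff n * r ^ n) cofinite (𝓝 0) := by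
  obtain ⟨C, hC⟩ := hx
  rw [NormedAddGroup.tendsto_nhds_zero]
  intro ε hε
  obtain ⟨N, hN⟩ := ((tendsto_pow_atTop_nhds_zero_of_lt_one (norm_nonneg r) hr).const_mul C
    |>.eventually (eventually_lt_nhds (show C * 0 < ε by simpa using hε))).exists_forall_of_atTop
  refine (Set.finite_Ico (min x.order 0) N).subset fun n hn => ?_
  replace hn : ε ≤ ‖x.coeff n * r ^ n‖ := le_of_not_gt hn
  refine ⟨?_, ?_⟩
  · by_contra! h
    rw [HahnSeries.coeff_eq_zero_of_lt_order (h.trans_le (min_le_left _ _))] at hn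
    simp at hn
    linarith
  · by_contra! h
    obtain ⟨m, rfl⟩ := Int.eq_ofNat_of_zero_le ((Int.natCast_nonneg N).trans h)
    refine absurd (hN m (by exact_mod_cast h)) (not_lt.2 (hn.trans ?_))
    rw [norm_mul, zpow_natCast, norm_pow]
    exact mul_le_mul_of_nonneg_right (hC _) (by positivity)

theorem nonarchimedeanRing : NonarchimedeanRing K :=
  { is_nonarchimedean := NonarchimedeanAddGroup.is_nonarchimedean }

attribute [local instance] nonarchimedeanRing

variable [CompleteSpace K] {r : K}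

theorem summable_term (hr : ‖r‖ < 1) {x : LaurentSeries K} (hx : Bdd x) :
    Summable fun n : ℤ => x.coeff n * r ^ n :=
  NonarchimedeanAddGroup.summable_of_tendsto_cofinite_zero (tendsto_term hr hx)

theorem hasSum_sval (hr : ‖r‖ < 1) {x : LaurentSeries K} (hx : Bdd x) :
    HasSum (fun n : ℤ => x.coeff n * r ^ n) (sval r x) :=
  (summable_term hr hx).hasSum

theorem sval_add (hr : ‖r‖ < 1) {x y : LaurentSeries K} (hx : Bdd x) (hy : Bdd y) :
    sval r (x + y) = sval r x + sval r y := by
  refine HasSum.tsum_eq ?_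
  simpa [add_mul] using (hasSum_sval hr hx).add (hasSum_sval hr hy)

omit [IsUltrametricDist K] [CompleteSpace K] in
theorem hasSum_antidiag (x y : LaurentSeries K) (n : ℤ) :
    HasSum (fun i => x.coeff i * y.coeff (n - i)) ((x * y).coeff n) := by
  have key : (x * y).coeff n = ∑ i ∈ (Finset.antidiagonal x.isPWO_support y.isPWO_support n).image
      Prod.fst, x.coeff i * y.coeff (n - i) := by
    rw [coeff_mul_eq_sum, Finset.sum_image]
    · refine Finset.sum_congr rfl fun ij hij => ?_
      obtain ⟨-, -, hn⟩ := Finset.mem_antidiagonal.1 hij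
      rw [show n - ij.1 = ij.2 by omega]
    · intro a ha b hb hab
      obtain ⟨-, -, ha⟩ := Finset.mem_antidiagonal.1 ha
      obtain ⟨-, -, hb⟩ := Finset.mem_antidiagonal.1 hb
      exact Prod.ext hab (by omega)
  rw [key]
  refine hasSum_sum_of_ne_finset_zero fun i hi => ?_
  by_contra hne
  obtain ⟨hx, hy⟩ := mul_ne_zero_iff.1 hne
  exact hi (Finset.mem_image.2 ⟨(i, n - i),
    Finset.mem_antidiagonal.2 ⟨hx, hy, by simp⟩, rfl⟩)

theorem sval_mul (hr0 : r ≠ 0) (hr : ‖r‖ < 1) {x y : LaurentSeries K} (hx : Bdd x) (hy : Bdd y) :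
    sval r (x * y) = sval r x * sval r y := by
  refine HasSum.tsum_eq ?_
  have hs := (hasSum_sval hr hx).mul_of_nonarchimedean (hasSum_sval hr hy)
  let e : ℤ × ℤ ≃ ℤ × ℤ :=
    ⟨fun p => (p.2, p.1 - p.2), fun p => (p.1 + p.2, p.1), fun p => by ext <;> simp,
      fun p => by ext <;> simp⟩
  refine HasSum.prod_fiberwise (e.hasSum_iff.2 hs) fun n => ?_
  refine ((hasSum_antidiag x y n).mul_right (r ^ n)).congr_fun fun i => ?_
  show x.coeff i * r ^ i * (y.coeff (n - i) * r ^ (n - i)) = _
  rw [mul_mul_mul_comm, ← zpow_add₀ hr0, add_sub_cancel]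

/-- Evaluation at a point of the punctured open unit disc, as a ring homomorphism. -/
def svalHom (hr0 : r ≠ 0) (hr : ‖r‖ < 1) : bddSubring K →+* K where
  toFun x := sval r x.1
  map_one' := sval_one r
  map_zero' := sval_zero r
  map_add' x y := sval_add hr x.2 y.2
  map_mul' x y := sval_mul hr0 hr x.2 y.2

@[simp] theorem svalHom_apply (hr0 : r ≠ 0) (hr : ‖r‖ < 1) (x : bddSubring K) :
    svalHom hr0 hr x = sval r x.1 := rfl

/-! ### Division by `q - r` -/

variable (K) in
/-- The variable `q`. -/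
def qvar : LaurentSeries K := HahnSeries.single 1 1

/-- `q - r`. -/
def qsub (r : K) : LaurentSeries K := qvar K - HahnSeries.C r

omit [IsUltrametricDist K] [CompleteSpace K] in
theorem coeff_qsub_mul (r : K) (y : LaurentSeries K) (n : ℤ) :
    (qsub r * y).coeff n = y.coeff (n - 1) - r * y.coeff n := by
  rw [qsub, qvar, sub_mul, HahnSeries.coeff_sub, HahnSeries.coeff_single_mul, one_mul,
    HahnSeries.C_mul_eq_smul, HahnSeries.coeff_smul, smul_eq_mul]

omit [IsUltrametricDist K] [CompleteSpace K] in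
theorem qsub_ne_zero (r : K) : qsub r ≠ 0 := fun h => by
  have := congrArg (fun x : LaurentSeries K => x.coeff 1) h
  simp [qsub, qvar, HahnSeries.C_apply] at this

omit [CompleteSpace K] in
theorem bdd_qsub (r : K) : qsub r ∈ bddSubring K := sub_mem (bdd_single _ _) (bdd_C r)

theorem sval_qsub (hr : ‖r‖ < 1) (s : K) : sval r (qsub s) = r - s := by
  rw [qsub, qvar, sub_eq_add_neg, sval_add hr (bdd_single _ _) (neg_mem (bdd_C s)), sval_single,
    ← map_neg, sval_C]
  simp [sub_eq_add_neg]

/-- The coefficients of `x / (q - r)` when `x` vanishes at `r`. -/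
def divCoeff (r : K) (x : LaurentSeries K) (n : ℤ) : K :=
  ∑' k : ℕ, x.coeff (n + 1 + k) * r ^ k

omit [IsUltrametricDist K] in
theorem summable_divCoeff [IsUltrametricDist K] (hr : ‖r‖ < 1) {x : LaurentSeries K} (hx : Bdd x)
    (n : ℤ) : Summable fun k : ℕ => x.coeff (n + 1 + k) * r ^ k := by
  obtain ⟨C, hC⟩ := hx
  refine NonarchimedeanAddGroup.summable_of_tendsto_cofinite_zero ?_
  rw [Nat.cofinite_eq_atTop]
  refine squeeze_zero_norm (fun k => ?_)
    (by simpa using (tendsto_pow_atTop_nhds_zero_of_lt_one (norm_nonneg r) hr).const_mul C)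
  rw [norm_mul, norm_pow]
  exact mul_le_mul_of_nonneg_right (hC _) (by positivity)

omit [CompleteSpace K] in
theorem norm_divCoeff_le (hr : ‖r‖ < 1) {C : ℝ} {x : LaurentSeries K} (hx : BddBy C x) (n : ℤ) :
    ‖divCoeff r x n‖ ≤ C := by
  refine IsUltrametricDist.norm_tsum_le_of_forall_le_of_nonneg hx.nonneg fun k => ?_
  rw [norm_mul, norm_pow]
  exact (mul_le_of_le_one_right (norm_nonneg _) (pow_le_one₀ (norm_nonneg r) hr.le)).trans (hx _)

theorem divCoeff_eq_zero (hr0 : r ≠ 0) (hr : ‖r‖ < 1) {x : LaurentSeries K} (hx : Bdd x)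
    (h0 : sval r x = 0) {n : ℤ} (hn : n + 1 ≤ x.order) : divCoeff r x n = 0 := by
  have hinj : Function.Injective fun k : ℕ => n + 1 + (k : ℤ) := fun a b h => by simpa using h
  have hzero : ∀ m : ℤ, m ∉ Set.range (fun k : ℕ => n + 1 + (k : ℤ)) →
      x.coeff m * r ^ m = 0 := by
    intro m hm
    rw [HahnSeries.coeff_eq_zero_of_lt_order, zero_mul]
    by_contra! h
    exact hm ⟨(m - (n + 1)).toNat, by simp only; omega⟩
  have h1 := (hinj.hasSum_iff hzero).2 (hasSum_sval hr hx)
  rw [h0] at h1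
  have h2 := (summable_divCoeff hr hx n).hasSum.mul_left (r ^ (n + 1))
  have h3 : (fun k : ℕ => r ^ (n + 1) * (x.coeff (n + 1 + k) * r ^ k)) =
      (fun m : ℤ => x.coeff m * r ^ m) ∘ fun k : ℕ => n + 1 + (k : ℤ) := by
    ext k
    simp only [Function.comp_apply, zpow_add₀ hr0 (n + 1), zpow_natCast]
    ring
  rw [h3] at h2
  exact (mul_eq_zero.1 (h2.unique h1)).resolve_left (zpow_ne_zero _ hr0)

/-- A bounded series vanishing at `r` is `(q - r)` times a series with the same bound. -/
theorem exists_eq_qsub_mul (hr0 : r ≠ 0) (hr : ‖r‖ < 1) {C : ℝ} {x : LaurentSeries K}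
    (hC : BddBy C x) (h0 : sval r x = 0) :
    ∃ y, BddBy C y ∧ (∀ n, n + 1 ≤ x.order → y.coeff n = 0) ∧ x = qsub r * y := by
  have hb : BddBelow (Function.support (divCoeff r x)) := ⟨x.order, fun n hn => by
    by_contra! h
    exact hn (divCoeff_eq_zero hr0 hr ⟨C, hC⟩ h0 (by omega))⟩
  refine ⟨HahnSeries.ofSuppBddBelow _ hb, fun n => norm_divCoeff_le hr hC n,
    fun n hn => divCoeff_eq_zero hr0 hr ⟨C, hC⟩ h0 hn, ?_⟩
  ext n
  rw [coeff_qsub_mul]
  have h := (summable_divCoeff hr ⟨C, hC⟩ (n - 1)).tsum_eq_zero_add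
  simp only [Nat.cast_zero, add_zero, sub_add_cancel, pow_zero, mul_one] at h
  show _ = divCoeff r x (n - 1) - r * divCoeff r x n
  rw [divCoeff, divCoeff, show (∑' k : ℕ, x.coeff (n - 1 + 1 + k) * r ^ k) =
    x.coeff n + r * ∑' k : ℕ, x.coeff (n + 1 + k) * r ^ k from ?_]
  · ring
  simp only [sub_add_cancel]
  rw [h, ← tsum_mul_left]
  congr 1
  refine tsum_congr fun k => ?_
  push_cast
  rw [pow_succ, show n + ((k : ℤ) + 1) = n + 1 + k by ring]
  ring

omit [CompleteSpace K] [IsUltrametricDist K] in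
theorem exists_pos_bound (C : ℝ) (hr : ‖r‖ < 1) (M : ℕ) :
    Tendsto (fun m : ℕ => C * ‖r‖ ^ (m - M)) atTop (𝓝 0) := by
  have := ((tendsto_pow_atTop_nhds_zero_of_lt_one (norm_nonneg r) hr).comp
    (tendsto_sub_atTop_nat M)).const_mul C
  simpa using this

omit [CompleteSpace K] in
theorem norm_coeff_qsub_pow_mul_le (hr : ‖r‖ < 1) {C : ℝ} {y : LaurentSeries K} (hy : BddBy C y)
    {o : ℤ} (ho : ∀ n, n < o → y.coeff n = 0) (m : ℕ) (n : ℤ) :
    ‖(qsub r ^ m * y).coeff n‖ ≤ C * ‖r‖ ^ (m - (n - o).toNat) := by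
  induction m generalizing n with
  | zero => simpa using hy n
  | succ m ih =>
    rw [pow_succ', mul_assoc, coeff_qsub_mul, sub_eq_add_neg]
    refine (IsUltrametricDist.norm_add_le_max _ _).trans (max_le ?_ ?_)
    · rcases le_or_gt n o with hn | hn
      · have : (qsub r ^ m * y).coeff (n - 1) = 0 := by
          clear ih
          induction m generalizing n with
          | zero => simpa using ho _ (by omega)
          | succ m ih =>
            rw [pow_succ', mul_assoc, coeff_qsub_mul, ih (n := n - 1) (by omega), ih (n := n) hn]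
            simp
        rw [this, norm_zero]
        exact mul_nonneg hy.nonneg (by positivity)
      · exact (ih (n - 1)).trans_eq (by rw [show (n - 1 - o).toNat = (n - o).toNat - 1 by omega,
          show m - ((n - o).toNat - 1) = m + 1 - (n - o).toNat by omega])
    · rw [norm_neg, norm_mul]
      calc ‖r‖ * ‖(qsub r ^ m * y).coeff n‖ ≤ ‖r‖ * (C * ‖r‖ ^ (m - (n - o).toNat)) :=
            mul_le_mul_of_nonneg_left (ih n) (norm_nonneg r)
        _ ≤ C * ‖r‖ ^ (m + 1 - (n - o).toNat) := by
            rw [mul_left_comm, ← pow_succ']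
            exact mul_le_mul_of_nonneg_left
              (pow_le_pow_of_le_one (norm_nonneg r) hr.le (by omega)) hy.nonneg

/-- Identity theorem: a nonzero bounded series is not infinitely divisible by `q - r`. -/
theorem exists_eq_qsub_pow_mul (hr0 : r ≠ 0) (hr : ‖r‖ < 1) {C : ℝ} {x : LaurentSeries K}
    (hC : BddBy C x) (hx : x ≠ 0) :
    ∃ (m : ℕ) (y : LaurentSeries K), BddBy C y ∧ x = qsub r ^ m * y ∧ sval r y ≠ 0 := by
  by_contra! hall
  have step : ∀ m : ℕ, ∃ y, BddBy C y ∧ (∀ n, n < x.order → y.coeff n = 0) ∧ x = qsub r ^ m * y := by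
    intro m
    induction m with
    | zero => exact ⟨x, hC, fun n => HahnSeries.coeff_eq_zero_of_lt_order, by simp⟩
    | succ m ih =>
      obtain ⟨y, hy, hlow, e⟩ := ih
      obtain ⟨z, hz, hzlow, rfl⟩ := exists_eq_qsub_mul hr0 hr hy (hall m y hy e)
      refine ⟨z, hz, fun n hn => ?_, by rw [e, pow_succ, mul_assoc]⟩
      rcases eq_or_ne (qsub r * z) 0 with h | h
      · simp [(mul_eq_zero.1 h).resolve_left (qsub_ne_zero r)]
      · refine hzlow n ?_
        by_contra! hlt
        exact HahnSeries.coeff_order_eq_zero.not.2 h (hlow _ (by omega))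
  refine hx (HahnSeries.ext (funext fun n => norm_le_zero_iff.1 ?_))
  refine le_of_tendsto_of_tendsto' tendsto_const_nhds
    (exists_pos_bound C hr (n - x.order).toNat) fun m => ?_
  obtain ⟨y, hy, hlow, e⟩ := step m
  conv_lhs => rw [e]
  exact norm_coeff_qsub_pow_mul_le hr hy hlow m n

end Fermat.Agent.Mazur.Immersion
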