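import Fermat.Agent.Mazur.Immersion.Residue
import Mathlib.NumberTheory.Padics.Complex
import Mathlib.NumberTheory.Padics.ProperSpace
import Mathlib.Analysis.Normed.Module.FiniteDimension

/-!
# The disc of the cusp `∞` of `X₀(p)` over `ℂ_l`
-/

set_option autoImplicit false

noncomputable section

open ModularCurve AlgebraicCurve UpperHalfPlane Filter CongruenceSubgroup
open scoped Topology IntermediateField

namespace Fermat.Agent.Mazur.Immersion

local notation "Qb" => AlgebraicClosure ℚ

variable (l : ℕ) [Fact l.Prime]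

/-- An embedding of `ℚ̄` in `ℂ_l`. -/
def embPadic : Qb →+* PadicComplex l :=
  haveI : Algebra.IsAlgebraic ℚ Qb := AlgebraicClosure.isAlgebraic ℚ
  (IsAlgClosed.lift (R := ℚ) (S := Qb) (M := PadicComplex l)).toRingHom

theorem norm_natCast_padicComplex (m : ℕ) :
    ‖(m : PadicComplex l)‖ = ‖(m : ℚ_[l])‖ := by
  rw [← PadicComplex.norm_extends' l (m : ℚ_[l])]
  congr 1
  simp [map_natCast]

theorem natNormBound_padicComplex : NatNormBound (PadicComplex l) := fun m hm => by
  rw [norm_natCast_padicComplex]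
  obtain ⟨v, u, hu, rfl⟩ := Nat.exists_eq_pow_mul_and_not_dvd hm l (Fact.out : l.Prime).ne_one
  have h1 : ‖(u : ℚ_[l])‖ = 1 := (Padic.norm_natCast_eq_one_iff).2
    ((Fact.out : l.Prime).coprime_iff_not_dvd.2 hu)
  have hl : (0 : ℝ) < l := by exact_mod_cast (Fact.out : l.Prime).pos
  have hu1 : (1 : ℝ) ≤ u := by exact_mod_cast Nat.pos_of_ne_zero (right_ne_zero_of_mul hm)
  push_cast
  rw [norm_mul, norm_pow, h1, Padic.norm_p, mul_one, inv_pow, mul_right_comm,
    mul_inv_cancel₀ (pow_ne_zero _ hl.ne'), one_mul]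
  exact hu1

variable (p : ℕ) [NeZero p]

/-- `f` is bounded up to a denominator in `ℚ̄[j]`. -/
def IsFrac (f : modularFunctionFieldBar p) : Prop :=
  ∃ A : modularFunctionFieldBar p, Bdd (serK (embPadic l) (A : LaurentSeries Qb)) ∧
    ∃ B : Polynomial Qb, Polynomial.aeval (jBar p) B ≠ 0 ∧ f * Polynomial.aeval (jBar p) B = A

/-- Functions with bounded expansion. -/
def bddBar : Subring (modularFunctionFieldBar p) :=
  (bddSubring (PadicComplex l)).comap
    ((coeffMap (embPadic l)).comp (modularFunctionFieldBar p).val.toRingHom)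

theorem algebraMap_mem_bddBar (c : Qb) : algebraMap Qb _ c ∈ bddBar l p := by
  show coeffMap (embPadic l) (algebraMap Qb (LaurentSeries Qb) c) ∈ bddSubring (PadicComplex l)
  rw [algebraMap_laurentSeries_eq_single, coeffMap_single]
  exact bdd_single _ _

theorem aeval_jBar_mem_bddBar (B : Polynomial Qb) : Polynomial.aeval (jBar p) B ∈ bddBar l p := by
  rw [Polynomial.aeval_eq_sum_range]
  exact sum_mem fun i _ => by
    rw [Algebra.smul_def]
    exact mul_mem (algebraMap_mem_bddBar l p _)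
      (pow_mem (show jBar p ∈ bddBar l p from ⟨1, (hasUnitPole_jBar p (embPadic l)).bddBy⟩) i)

theorem bddBy_jNBar : BddBy 1 (serK (embPadic l) (jNBar p : LaurentSeries Qb)) := by
  refine bddBy_serK_of_int _ (y := qExpand ℤ p (jqModC ℤ)) ?_
  rw [coeffMap_qExpand, coeffMap_jqModC]
  show _ = coeffEmb Qb (qExpand ℚ p jq)
  rw [coeffEmb, coeffMap_qExpand, ← jqModC_rat, coeffMap_jqModC]

theorem isFrac_all (f : modularFunctionFieldBar p) : IsFrac l p f := by
  set ιC := Fermat.Agent.Reduction.qbarToComplex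
  have hmem : ∀ x : Qb⟮jBar p⟯, IsFrac l p (x : modularFunctionFieldBar p) := fun x => by
    obtain ⟨r, s, h⟩ := IntermediateField.mem_adjoin_simple_iff Qb (x : modularFunctionFieldBar p)
      |>.1 x.2
    rcases eq_or_ne (Polynomial.aeval (jBar p) s) 0 with h0 | h0
    · exact ⟨0, zero_mem (bddBar l p), 1, by simp, by rw [h, h0, div_zero, zero_mul]⟩
    · exact ⟨_, aeval_jBar_mem_bddBar l p r, s, h0, by rw [h, div_mul_cancel₀ _ h0]⟩
  have hone : IsFrac l p 1 := ⟨1, one_mem (bddBar l p), 1, by simp, by simp⟩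
  have hadd : ∀ x y, IsFrac l p x → IsFrac l p y → IsFrac l p (x + y) := by
    rintro x y ⟨A, hA, B, hB, e⟩ ⟨A', hA', B', hB', e'⟩
    refine ⟨A * Polynomial.aeval (jBar p) B' + A' * Polynomial.aeval (jBar p) B,
      add_mem (mul_mem (show A ∈ bddBar l p from hA) (aeval_jBar_mem_bddBar l p _))
        (mul_mem (show A' ∈ bddBar l p from hA') (aeval_jBar_mem_bddBar l p _)),
      B * B', by rw [map_mul]; exact mul_ne_zero hB hB', by rw [map_mul, ← e, ← e']; ring⟩
  have hmul : ∀ x y, IsFrac l p x → IsFrac l p y → IsFrac l p (x * y) := by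
    rintro x y ⟨A, hA, B, hB, e⟩ ⟨A', hA', B', hB', e'⟩
    exact ⟨A * A', mul_mem (show A ∈ bddBar l p from hA) (show A' ∈ bddBar l p from hA'), B * B',
      by rw [map_mul]; exact mul_ne_zero hB hB', by rw [map_mul, ← e, ← e']; ring⟩
  have hint : IsIntegral Qb⟮jBar p⟯ (jNBar p) :=
    (Modular.natDegree_minpoly_jdL p ιC).1
  have htop : f ∈ IntermediateField.adjoin Qb⟮jBar p⟯ ({jNBar p} : Set (modularFunctionFieldBar p)) := by
    rw [show IntermediateField.adjoin Qb⟮jBar p⟯ ({jNBar p} : Set (modularFunctionFieldBar p)) = ⊤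
      from Modular.adjoin_jdL_eq_top p ιC]
    exact IntermediateField.mem_top
  rw [← IntermediateField.mem_toSubalgebra,
    IntermediateField.adjoin_simple_toSubalgebra_of_isAlgebraic hint.isAlgebraic] at htop
  induction htop using Algebra.adjoin_induction with
  | mem x hx =>
    obtain rfl := Set.mem_singleton_iff.1 hx
    exact ⟨_, ⟨1, bddBy_jNBar l p⟩, 1, by simp, by simp⟩
  | algebraMap x => exact hmem x
  | add x y _ _ hx hy => exact hadd x y hx hy
  | mul x y _ _ hx hy => exact hmul x y hx hy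

/-- The disc of `∞`. -/
def discX0 : DiscData (embPadic l) (modularFunctionFieldBar p) where
  jF := jBar p
  isJ := isJSeries_jBar p (embPadic l)
  frac := isFrac_all l p

/-! ### Coefficients lie in number fields -/

theorem exists_finite_coeff (f : modularFunctionFieldBar p) :
    ∃ M : IntermediateField ℚ Qb, FiniteDimensional ℚ M ∧
      ∀ n, (f : LaurentSeries Qb).coeff n ∈ M := by
  classical
  suffices h : ∀ x ∈ modularFunctionFieldBar p, ∃ M : IntermediateField ℚ Qb,
      FiniteDimensional ℚ M ∧ x ∈ (coeffMap (M.val.toRingHom : M →+* Qb)).fieldRange by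
    obtain ⟨M, hM, y, hy⟩ := h _ f.2
    exact ⟨M, hM, fun n => by rw [← hy, coeffMap_coeff]; exact (y.coeff n).2⟩
  intro x hx
  have hmono : ∀ {M M' : IntermediateField ℚ Qb}, M ≤ M' → ∀ {x : LaurentSeries Qb},
      x ∈ (coeffMap (M.val.toRingHom : M →+* Qb)).fieldRange →
        x ∈ (coeffMap (M'.val.toRingHom : M' →+* Qb)).fieldRange := by
    rintro M M' hle x ⟨y, rfl⟩
    refine ⟨coeffMap (IntermediateField.inclusion hle).toRingHom y, ?_⟩
    rw [coeffMap_coeffMap]
    rfl
  rw [mem_laurentBaseChange_iff] at hx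
  induction hx using Subfield.closure_induction with
  | mem y hy =>
    rcases hy with ⟨a, rfl⟩ | ⟨z, -, rfl⟩
    · haveI : Algebra.IsAlgebraic ℚ Qb := AlgebraicClosure.isAlgebraic ℚ
      refine ⟨ℚ⟮a⟯, IntermediateField.adjoin.finiteDimensional
        (Algebra.IsIntegral.isIntegral a), HahnSeries.single 0
          ⟨a, IntermediateField.mem_adjoin_simple_self ℚ a⟩, ?_⟩
      rw [coeffMap_single, algebraMap_laurentSeries_eq_single]
      rfl
    · refine ⟨⊥, inferInstance, coeffMap (algebraMap ℚ (⊥ : IntermediateField ℚ Qb)) z, ?_⟩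
      rw [coeffEmb, coeffMap_coeffMap]
      exact coeffMap_congr (Subsingleton.elim _ _) z
  | one => exact ⟨⊥, inferInstance, one_mem _⟩
  | add a b _ _ ha hb =>
    obtain ⟨M, hM, ha⟩ := ha
    obtain ⟨M', hM', hb⟩ := hb
    exact ⟨M ⊔ M', inferInstance, add_mem (hmono le_sup_left ha) (hmono le_sup_right hb)⟩
  | neg a _ ha =>
    obtain ⟨M, hM, ha⟩ := ha
    exact ⟨M, hM, neg_mem ha⟩
  | inv a _ ha =>
    obtain ⟨M, hM, ha⟩ := ha
    exact ⟨M, hM, inv_mem ha⟩
  | mul a b _ _ ha hb =>
    obtain ⟨M, hM, ha⟩ := ha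
    obtain ⟨M', hM', hb⟩ := hb
    exact ⟨M ⊔ M', inferInstance, mul_mem (hmono le_sup_left ha) (hmono le_sup_right hb)⟩

theorem exists_gap (f : modularFunctionFieldBar p)
    (hf : ∀ n, ‖embPadic l ((f : LaurentSeries Qb).coeff n)‖ < 1) :
    ∃ δ < (1 : ℝ), ∀ n, ‖embPadic l ((f : LaurentSeries Qb).coeff n)‖ ≤ δ := by
  obtain ⟨M, hM, hfM⟩ := exists_finite_coeff p f
  let b := Module.finBasis ℚ M
  let W : Submodule ℚ_[l] (PadicComplex l) :=
    Submodule.span ℚ_[l] (Set.range fun i => embPadic l (b i : Qb))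
  have : FiniteDimensional ℚ_[l] W := FiniteDimensional.span_of_finite ℚ_[l] (Set.finite_range _)
  have : ProperSpace W := FiniteDimensional.proper ℚ_[l] W
  have hcast : ∀ (c : ℚ) (y : PadicComplex l), (c : ℚ_[l]) • y = (c : PadicComplex l) * y := by
    intro c y
    rw [Algebra.smul_def, map_ratCast]
  have hmem : ∀ x : M, embPadic l (x : Qb) ∈ W := fun x => by
    rw [← b.sum_repr x]
    simp only [AddSubmonoidClass.coe_finsetSum, SetLike.val_smul, map_sum]
    refine W.sum_mem fun i _ => ?_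
    rw [Rat.smul_def, map_mul, map_ratCast, ← hcast]
    exact W.smul_mem _ (Submodule.subset_span ⟨i, rfl⟩)
  have hcpt : IsCompact (Metric.ball (0 : W) 1) :=
    Metric.isCompact_of_isClosed_isBounded (IsUltrametricDist.isClosed_ball _ _)
      Metric.isBounded_ball
  obtain ⟨w, hw, hmax⟩ := hcpt.exists_isMaxOn ⟨0, Metric.mem_ball_self one_pos⟩
    continuous_norm.continuousOn
  refine ⟨‖w‖, mem_ball_zero_iff.1 hw, fun n => ?_⟩
  exact hmax (show (⟨_, hmem ⟨_, hfM n⟩⟩ : W) ∈ Metric.ball (0 : W) 1 from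
    mem_ball_zero_iff.2 (hf n))

/-! ### The residue identity over `ℂ_l` -/

variable [Fact p.Prime]

theorem tsum_coeff_eq_zero {f : modularFunctionFieldBar p}
    (hf : f ∈ regularAway (cuspInfty p)) (φ : CuspForm (CongruenceSubgroup.Gamma0 p) 2) (z : ℕ → ℤ)
    (hz : ∀ n, ModularFormClass.qCoeff φ n = (z n : ℂ)) :
    ∑' n : ℕ, (z n : PadicComplex l) *
      embPadic l ((f : LaurentSeries Qb).coeff (-(n : ℤ))) = 0 := by
  set ιC := Fermat.Agent.Reduction.qbarToComplex
  set x := (f : LaurentSeries Qb)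
  set M := (-x.order).toNat + 1
  have hzero : ∀ n, M ≤ n → x.coeff (-(n : ℤ)) = 0 := fun n hn =>
    HahnSeries.coeff_eq_zero_of_lt_order (by omega)
  rw [tsum_eq_sum (s := Finset.range M) fun n hn => by
    rw [hzero n (by simpa using hn), map_zero, mul_zero]]
  have hs : ∑ n ∈ Finset.range M, (z n : Qb) * x.coeff (-(n : ℤ)) = 0 := by
    apply ιC.injective
    rw [map_sum, map_zero, ← coeff_zero_mul_qExpansion p hf φ]
    set y := HahnSeries.ofPowerSeries ℤ ℂ (qExpansion 1 (φ : ℍ → ℂ))
    refine HasSum.unique ?_ (hasSum_antidiag (coeffMap ιC x) y 0)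
    have hinj : Function.Injective fun n : ℕ => -(n : ℤ) := fun a b h => by simpa using h
    refine (hinj.hasSum_iff fun i hi => ?_).1 ?_
    · have : 0 < i := by
        by_contra! hc
        exact hi ⟨(-i).toNat, by simp only; omega⟩
      rw [show y.coeff (0 - i) = 0 from ModularCurve.ofPowerSeries_coeff_of_neg _ (by omega),
        mul_zero]
    · refine (hasSum_sum_of_ne_finset_zero (s := Finset.range M) fun n hn => ?_).congr_fun
        fun n => ?_
      · rw [hzero n (by simpa using hn), mul_zero, map_zero]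
      · simp only [Function.comp_apply, y, zero_sub, neg_neg, coeffMap_coeff, map_mul, map_intCast,
          HahnSeries.ofPowerSeries_apply_coeff]
        rw [show (qExpansion 1 (φ : ℍ → ℂ)).coeff n = (z n : ℂ) from hz n, mul_comm]
  have := congrArg (embPadic l) hs
  simpa using this

/-- **Abel's theorem** in the disc of `∞` of `X₀(p)`. -/
theorem sum_logSum_disc {f : modularFunctionFieldBar p} (hf : f ≠ 0)
    (φ : CuspForm (CongruenceSubgroup.Gamma0 p) 2) (z : ℕ → ℤ)
    (hz : ∀ n, ModularFormClass.qCoeff φ n = (z n : ℂ)) (D₀ : (discX0 l p).Pt →₀ ℤ)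
    (hdiv : ∀ Q, Q ≠ cuspInfty p → Q.ord f = D₀.mapDomain DiscData.Pt.place Q)
    (horder : (f : LaurentSeries Qb).order = -∑ P ∈ D₀.support, D₀ P) :
    ∑ P ∈ D₀.support, (D₀ P : PadicComplex l) * logSum (fun n => (z n : PadicComplex l)) P.r = 0 :=
  (discX0 l p).sum_logSum_eq_zero (fun g hg => EichlerShimura.ord_cuspPlace _ hg)
    (natNormBound_padicComplex l) (d := p - 1)
    (by have := (Fact.out : p.Prime).two_le; omega)
    (uBar_mem_regularAway p) (vBar_mem_regularAway p)
    (hasUnitPole_uBar p _) (hasUnitPole_vBar p _) (exists_gap l p)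
    (fun n => IsUltrametricDist.norm_intCast_le_one _ _)
    (by
      have := hz 0
      rw [Periods.qCoeff_zero_eq_zero φ] at this
      exact_mod_cast congrArg (fun k : ℤ => (k : PadicComplex l)) (Int.cast_eq_zero.1 this.symm))
    (fun _ hg => tsum_coeff_eq_zero l p hg φ z hz) hf D₀ hdiv horder

end Fermat.Agent.Mazur.Immersion
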