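import Fermat.Agent.Mazur.Immersion.Poles
import Fermat.Agent.Mazur.Immersion.Forms
import Fermat.Agent.Igusa.EtaExpansions
import Fermat.Agent.Reduction.UnitField
import Fermat.Agent.EichlerShimura.FiniteLevelX0
import Fermat.Agent.Modular.GAGA
import Fermat.Agent.Modular.CuspForms

/-!
# The functions `u = Δ(τ)/Δ(pτ)` and `v = j u²`

Their expansions at `∞` are integral with unit poles of order `p - 1` and `2 p - 1`, and they are
bounded at every other cusp.
-/

set_option autoImplicit false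

noncomputable section

open UpperHalfPlane hiding I
open Filter ModularCurve AlgebraicCurve CongruenceSubgroup
open scoped Manifold MatrixGroups Topology

namespace Fermat.Agent.Mazur.Immersion

open Fermat.Agent.Modular Fermat.Agent.Igusa

instance isFunctionField1Bar (N : ℕ) [NeZero N] :
    Curve.IsFunctionField1 (AlgebraicClosure ℚ) (modularFunctionFieldBar N) :=
  EichlerShimura.isFunctionField1_modularFunctionFieldBar N

/-- An element with the expansion of a holomorphic function evaluates to it. -/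
theorem evalMero_eq_of_hasQExp {N : ℕ} [NeZero N] {f : FC N} {F : Hol}
    (h : HasQExp 1 (F : ℍ → ℂ) (f : LaurentSeries ℂ)) : evalMero N f = algebraMap Hol Mero F := by
  obtain ⟨a, b, hb, rfl⟩ := IsFractionRing.div_surjective (A := RC N) f
  have hb0 : b ≠ 0 := nonZeroDivisors.ne_zero hb
  have hbc : (b : LaurentSeries ℂ) ≠ 0 := fun h => hb0 (Subtype.ext h)
  have h1 : HasQExp 1 ((F * evalHol N b : Hol) : ℍ → ℂ) (a : LaurentSeries ℂ) := by
    have := h.mul (hasQExp_evalHol N b)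
    rw [show ((algebraMap (RC N) (FC N) a / algebraMap (RC N) (FC N) b : FC N) : LaurentSeries ℂ) =
      (a : LaurentSeries ℂ) / (b : LaurentSeries ℂ) from rfl, div_mul_cancel₀ _ hbc] at this
    exact this
  have h2 : F * evalHol N b = evalHol N a := (evalHolFun_eq N h1).symm
  rw [map_div₀, evalMero_algebraMap, evalMero_algebraMap, div_eq_iff, ← h2, map_mul]
  rw [map_ne_zero_iff _ (IsFractionRing.injective Hol Mero)]
  exact (map_ne_zero_iff _ (evalHol_injective N)).mpr hb0

variable (p : ℕ) [NeZero p]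

/-- The series of `Δ(τ)/Δ(pτ)`. -/
def uSeries (R : Type*) [CommRing R] : LaurentSeries R := ((ratioUnit R p)⁻¹ : (LaurentSeries R)ˣ)

theorem uSeries_mul_ratioUnit (R : Type*) [CommRing R] :
    uSeries p R * (ratioUnit R p : LaurentSeries R) = 1 := Units.inv_mul _

theorem coeffMap_uSeries {R R' : Type*} [CommRing R] [CommRing R'] (f : R →+* R') :
    coeffMap f (uSeries p R) = uSeries p R' := by
  have h : Units.map (coeffMap f).toMonoidHom (ratioUnit R p) = ratioUnit R' p := by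
    rw [ratioUnit, ratioUnit, map_div]
    congr 1 <;> ext1 <;> simp [coeffMap_qExpand, coeffMap_deltaSeries]
  show (Units.map (coeffMap f).toMonoidHom (ratioUnit R p)⁻¹ : LaurentSeries R') = _
  rw [map_inv, h]
  rfl

theorem hasLead_uSeries (R : Type*) [CommRing R] :
    HasLead (uSeries p R) (1 - (p : ℤ)) 1 := by
  have h1 : HasLead ((Units.map (qExpand R p).toMonoidHom (deltaUnitOne R))⁻¹ * deltaUnitOne R :
      (LaurentSeries R)ˣ).val (1 - (p : ℤ)) 1 := by
    rw [Units.val_mul, coe_deltaUnitOne]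
    refine (HasLead.inv_unit (c := 1) (m := (p : ℤ)) ?_).mul' hasLead_deltaSeries (by ring) (by simp)
    simpa using (hasLead_deltaSeries (R := R)).qExpand p
  rw [uSeries, ratioUnit, inv_div, div_eq_inv_mul]
  exact h1

theorem uSeries_mem : uSeries p (AlgebraicClosure ℚ) ∈ modularFunctionFieldBar p := by
  have hr : ((ratioUnit (AlgebraicClosure ℚ) p : (LaurentSeries (AlgebraicClosure ℚ))ˣ) :
      LaurentSeries (AlgebraicClosure ℚ)) ∈ modularFunctionFieldBar p := by
    show _ ∈ laurentBaseChange (AlgebraicClosure ℚ) (modularFunctionFieldFull p)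
    rw [← Reduction.fullC_le_base, ratioUnit, Units.val_div_eq_div_val]
    simpa using Reduction.deltaRatio_mem (k := AlgebraicClosure ℚ) p p dvd_rfl
      (Nat.cast_ne_zero.2 (NeZero.ne p)) (Reduction.isIntegral_jqd _ p).isAlgebraic
  rw [uSeries, Units.val_inv_eq_inv_val]
  exact inv_mem hr

/-- `u = Δ(τ)/Δ(pτ)`. -/
def uBar : modularFunctionFieldBar p := ⟨_, uSeries_mem p⟩

/-- `v = j u²`. -/
def vBar : modularFunctionFieldBar p := jBar p * uBar p ^ 2

theorem coe_jBar : (jBar p : LaurentSeries (AlgebraicClosure ℚ)) = jqModC (AlgebraicClosure ℚ) := by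
  show coeffEmb (AlgebraicClosure ℚ) jq = _
  rw [coeffEmb, ← jqModC_rat, coeffMap_jqModC]

section Pole

variable {K : Type*} [NormedField K] [IsUltrametricDist K] (ι : AlgebraicClosure ℚ →+* K)

theorem bddBy_serK_of_int {x : LaurentSeries (AlgebraicClosure ℚ)} {y : LaurentSeries ℤ}
    (h : coeffMap (Int.castRingHom (AlgebraicClosure ℚ)) y = x) : BddBy 1 (serK ι x) := fun n => by
  subst h
  simpa [coeffMap_coeff] using IsUltrametricDist.norm_intCast_le_one K (y.coeff n)

theorem hasUnitPole_uBar :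
    HasUnitPole ι (uBar p : LaurentSeries (AlgebraicClosure ℚ)) (p - 1) := by
  have hp : ((p - 1 : ℕ) : ℤ) = p - 1 := by have := NeZero.pos p; omega
  have hl := hasLead_uSeries p (AlgebraicClosure ℚ)
  refine ⟨bddBy_serK_of_int ι (coeffMap_uSeries p _), fun n hn => hl.below n (by omega), ?_⟩
  rw [hp, neg_sub]
  exact hl.coeff_eq

theorem hasUnitPole_jBar :
    HasUnitPole ι (jBar p : LaurentSeries (AlgebraicClosure ℚ)) 1 := by
  rw [coe_jBar]
  exact ⟨bddBy_serK_of_int ι (coeffMap_jqModC _), fun n hn => hasLead_jqModC.below n hn,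
    hasLead_jqModC.coeff_eq⟩

theorem hasUnitPole_vBar :
    HasUnitPole ι (vBar p : LaurentSeries (AlgebraicClosure ℚ)) (2 * (p - 1) + 1) := by
  rw [vBar, add_comm]
  exact (hasUnitPole_jBar p ι).mul ι ((hasUnitPole_uBar p ι).pow ι 2)

theorem isJSeries_jBar : IsJSeries (serK ι (jBar p : LaurentSeries (AlgebraicClosure ℚ))) := by
  have h := hasUnitPole_jBar p ι
  exact ⟨h.bddBy, by simpa [coeffMap_coeff] using congrArg ι h.coeff_eq,
    fun n hn => by simp [coeffMap_coeff, h.coeff_lt n hn]⟩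

end Pole

/-! ### The analytic side -/

/-- `Δ(τ)/Δ(pτ)` on the upper half plane. -/
def uHol : Hol :=
  ⟨fun τ => ModularForm.discriminant τ / ModularForm.discriminant (mulH p τ),
    (Fermat.Agent.Modular.hasQExp_discriminant.div
      (Fermat.Agent.Modular.hasQExp_discriminant.comp_mulH p) one_pos
      fun _ => ModularForm.discriminant_ne_zero _).mdifferentiable one_pos⟩

theorem uHol_apply (τ : ℍ) : (uHol p : ℍ → ℂ) τ = (p : ℂ) ^ 12 * (discRatio p τ)⁻¹ := by
  have h0 : (p : ℂ) ^ 12 ≠ 0 := pow_ne_zero _ (NeZero.ne _)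
  have h1 := ModularForm.discriminant_ne_zero (mulH p τ)
  show ModularForm.discriminant τ / ModularForm.discriminant (mulH p τ) = _
  have hp : (p : ℂ) ≠ 0 := NeZero.ne _
  rw [discRatio]
  field_simp

theorem hasQExp_uHol : HasQExp 1 (uHol p : ℍ → ℂ) (uSeries p ℂ) := by
  have h := Fermat.Agent.Modular.hasQExp_discriminant.div
    (Fermat.Agent.Modular.hasQExp_discriminant.comp_mulH p) one_pos
    fun _ => ModularForm.discriminant_ne_zero _
  have e : uSeries p ℂ = deltaSeries ℂ / qExpand ℂ p (deltaSeries ℂ) := by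
    rw [uSeries, ratioUnit, inv_div, Units.val_div_eq_div_val]
    simp
  rw [e]
  exact h

theorem smul_uHol {g : SL(2, ℤ)} (hg : g ∈ Gamma0 p) : g • uHol p = uHol p := by
  refine Subtype.ext (funext fun τ => ?_)
  rw [smul_hol_apply, uHol_apply, uHol_apply,
    discRatio_smul_of_dvd g⁻¹ p ((ZMod.intCast_zmod_eq_zero_iff_dvd _ _).mp
      (Gamma0_mem.mp ((Gamma0 p).inv_mem hg)))]

theorem kleinJ_hol_apply (g : SL(2, ℤ)) (τ : ℍ) : (g • holJ : Hol).1 τ = kleinJ τ := by
  rw [smul_hol_apply, holJ_apply, kleinJ_smul]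

variable [Fact p.Prime]

/-- Expansions of `u` at the cusps other than `∞`. -/
theorem exists_hasQExp_uHol_smul {g : SL(2, ℤ)} (hg : g ∉ Gamma0 p) :
    ∃ x : LaurentSeries ℂ, HasQExp (p : ℝ) ((g • uHol p : Hol) : ℍ → ℂ) x ∧
      ∀ n < (p : ℤ) - 1, x.coeff n = 0 := by
  have hpp : p.Prime := Fact.out
  have hgcd : Nat.gcd p (g⁻¹ 1 0).natAbs = 1 := (hpp.coprime_iff_not_dvd.mpr fun hd =>
    hg ((inv_mem_iff (H := Gamma0 p)).mp (Gamma0_mem.mpr
      ((ZMod.intCast_zmod_eq_zero_iff_dvd _ _).mpr (Int.natCast_dvd.mpr hd))))).gcd_eq_one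
  obtain ⟨x, c, hx, hl⟩ := (hasUnitExp_discRatio (N := p) (S := (⊤ : Subring ℂ))
    (fun z _ => trivial) trivial g⁻¹ p dvd_rfl).inv fun τ => div_ne_zero
      (mul_ne_zero (pow_ne_zero _ (NeZero.ne _)) (ModularForm.discriminant_ne_zero _))
      (ModularForm.discriminant_ne_zero _)
  rw [hgcd, Nat.div_self hpp.pos] at hl
  refine ⟨HahnSeries.C ((p : ℂ) ^ 12) * coeffMap (⊤ : Subring ℂ).subtype x,
    (hx.const_mul ((p : ℂ) ^ 12)).congr fun τ => ?_, fun n hn => ?_⟩
  · rw [smul_hol_apply, uHol_apply]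
  · rw [HahnSeries.C_mul_eq_smul, HahnSeries.coeff_smul, coeffMap_coeff,
      hl.below n (by push_cast; omega), map_zero, smul_zero]

theorem exists_hasQExp_uHol_all (g : SL(2, ℤ)) :
    ∃ x : LaurentSeries ℂ, HasQExp (p : ℝ) ((g • uHol p : Hol) : ℍ → ℂ) x := by
  by_cases hg : g ∈ Gamma0 p
  · rw [smul_uHol p hg]
    exact ⟨_, by simpa using (hasQExp_uHol p).dilate_period one_ne_zero p⟩
  · obtain ⟨x, hx, -⟩ := exists_hasQExp_uHol_smul p hg
    exact ⟨x, hx⟩

/-- `j u²` on the upper half plane. -/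
def vHol : Hol := holJ * uHol p ^ 2

omit [Fact p.Prime] in
theorem hasQExp_vHol : HasQExp 1 (vHol p : ℍ → ℂ) (jqModC ℂ * uSeries p ℂ ^ 2) :=
  (hasQExp_kleinJ.mul ((hasQExp_uHol p).pow 2)).congr fun τ => rfl

omit [Fact p.Prime] in
theorem smul_vHol {g : SL(2, ℤ)} (hg : g ∈ Gamma0 p) : g • vHol p = vHol p := by
  rw [vHol, smul_mul', smul_pow', smul_uHol p hg, smul_holJ]

theorem exists_hasQExp_vHol_smul {g : SL(2, ℤ)} (hg : g ∉ Gamma0 p) :
    ∃ x : LaurentSeries ℂ, HasQExp (p : ℝ) ((g • vHol p : Hol) : ℍ → ℂ) x ∧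
      ∀ n < 0, x.coeff n = 0 := by
  obtain ⟨x, hx, hx0⟩ := exists_hasQExp_uHol_smul p hg
  have hj : HasQExp (p : ℝ) kleinJ (qExpand ℂ p (jqModC ℂ)) := by
    simpa using hasQExp_kleinJ.dilate_period one_ne_zero p
  refine ⟨qExpand ℂ p (jqModC ℂ) * x ^ 2, (hj.mul (hx.pow 2)).congr fun τ => ?_, fun n hn => ?_⟩
  · rw [vHol, smul_mul', smul_pow', smul_holJ]
    rfl
  · have hp : (2 : ℤ) ≤ p := by exact_mod_cast (Fact.out : p.Prime).two_le
    have h1 : HasLead (qExpand ℂ p (jqModC ℂ)) (-(p : ℤ)) 1 := by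
      simpa using (hasLead_jqModC (R := ℂ)).qExpand p
    have h2 : HasLead x ((p : ℤ) - 1) (x.coeff ((p : ℤ) - 1)) := ⟨hx0, rfl⟩
    exact ((h1.mul (h2.pow 2))).below n (by push_cast; omega)

theorem exists_hasQExp_vHol_all (g : SL(2, ℤ)) :
    ∃ x : LaurentSeries ℂ, HasQExp (p : ℝ) ((g • vHol p : Hol) : ℍ → ℂ) x := by
  by_cases hg : g ∈ Gamma0 p
  · rw [smul_vHol p hg]
    exact ⟨_, by simpa using (hasQExp_vHol p).dilate_period one_ne_zero p⟩
  · obtain ⟨x, hx, -⟩ := exists_hasQExp_vHol_smul p hg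
    exact ⟨x, hx⟩

end Fermat.Agent.Mazur.Immersion
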