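import Mathlib.NumberTheory.ModularForms.LevelOne.DimensionFormula
import Fermat.Agent.Modular.DiffToForms
import Fermat.Agent.Modular.PoleClearing
import Fermat.Agent.Reduction.DeltaRatio

/-!
# Weakly holomorphic forms of weight two and level one

Their constant terms vanish: they are derivatives of polynomials in `j`.
-/

set_option autoImplicit false

noncomputable section

open UpperHalfPlane hiding I
open Filter ModularCurve Complex
open scoped Real Manifold MatrixGroups ModularForm Topology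

namespace Fermat.Agent.Mazur.Immersion

open Fermat.Agent.Modular

/-- Weight two invariance under `SL₂(ℤ)`. -/
def IsWeightTwo (H : Hol) : Prop := ∀ g : SL(2, ℤ), g⁻¹ • H * autFactor g = H

theorem IsWeightTwo.holDeriv {P : Hol} (hP : ∀ g : SL(2, ℤ), g • P = P) :
    IsWeightTwo (Modular.holDeriv P) := fun g => by
  rw [← holDeriv_smul_inv, hP]

theorem IsWeightTwo.sub_const_mul {H G : Hol} (hH : IsWeightTwo H) (hG : IsWeightTwo G) (c : ℂ) :
    IsWeightTwo (H - algebraMap ℂ Hol c * G) := fun g => by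
  show g⁻¹ • (H - algebraMap ℂ Hol c * G) * autFactor g = _
  rw [smul_sub, smul_mul', smul_algebraMap_hol, sub_mul, mul_assoc, hH g, hG g]

/-- The expansion of the derivative. -/
theorem hasQExp_holDeriv {F : Hol} {x : LaurentSeries ℂ} (hF : HasQExp 1 (F : ℍ → ℂ) x) :
    HasQExp 1 (Modular.holDeriv F : ℍ → ℂ)
      (HahnSeries.C (2 * π * I) * Fermat.Agent.Reduction.qDeriv x) := by
  refine ((Fermat.Agent.Reduction.hasQExp_qDeriv hF).const_mul (2 * π * I)).congr fun τ => ?_
  have h2 : (2 * π * I : ℂ) ≠ 0 := by simp [Real.pi_ne_zero]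
  simp only [Derivative.normalizedDerivOfComplex, holDeriv_apply]
  field_simp

theorem eq_zero_of_bounded {H : Hol} (hH : IsWeightTwo H)
    (hb : IsBoundedAtImInfty (H : ℍ → ℂ)) : H = 0 := by
  have hslash : ∀ g : SL(2, ℤ), (H : ℍ → ℂ) ∣[(2 : ℤ)] g = (H : ℍ → ℂ) := fun g => by
    rw [slash_two_eq, hH g]
  let G : ModularForm 𝒮ℒ 2 :=
    { toFun := H
      slash_action_eq' := by
        rintro _ ⟨γ, rfl⟩
        exact hslash γ
      holo' := H.2
      bdd_at_cusps' := fun {c} hc => by
        rw [Subgroup.IsArithmetic.isCusp_iff_isCusp_SL2Z] at hc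
        rw [OnePoint.isBoundedAt_iff_forall_SL2Z hc]
        intro γ _
        rw [hslash γ]
        exact hb }
  have h0 : G = 0 := rank_zero_iff_forall_zero.mp ModularForm.levelOne_weight_two_rank_zero G
  exact Subtype.ext (congrArg DFunLike.coe h0)

theorem coeff_zero_of_weightTwo_aux (m : ℕ) : ∀ (H : Hol) (x : LaurentSeries ℂ), IsWeightTwo H →
    HasQExp 1 (H : ℍ → ℂ) x → (∀ n < -(m : ℤ), x.coeff n = 0) → x.coeff 0 = 0 := by
  induction m with
  | zero =>
    intro H x hH hx hm
    have := eq_zero_of_bounded hH (hx.isBoundedAtImInfty one_pos (by simpa using hm))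
    rw [(hx.eq_zero_iff one_pos).1 (by simp [this]), HahnSeries.coeff_zero]
  | succ m ih =>
    intro H x hH hx hm
    set J : LaurentSeries ℂ := jqModC ℂ ^ (m + 1)
    have hJ : HasQExp 1 ((holJ ^ (m + 1) : Hol) : ℍ → ℂ) J := by
      have : HasQExp 1 kleinJ (jqModC ℂ) := hasQExp_kleinJ
      exact (this.pow (m + 1)).congr fun τ => rfl
    set y := HahnSeries.C (2 * π * I) * Fermat.Agent.Reduction.qDeriv J
    have hy : HasQExp 1 (Modular.holDeriv (holJ ^ (m + 1)) : ℍ → ℂ) y := hasQExp_holDeriv hJ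
    have hyc : ∀ n, y.coeff n = 2 * π * I * (n * J.coeff n) := fun n => by
      simp only [y]; rw [HahnSeries.C_mul_eq_smul, HahnSeries.coeff_smul, Fermat.Agent.Reduction.qDeriv_coeff,
        smul_eq_mul]
    have hJlow : ∀ n < -((m + 1 : ℕ) : ℤ), J.coeff n = 0 := fun n hn =>
      coeff_jqModC_pow_of_lt (K := ℂ) hn
    have hJtop : J.coeff (-((m + 1 : ℕ) : ℤ)) = 1 := coeff_jqModC_pow_self _ _
    have hlead : y.coeff (-((m + 1 : ℕ) : ℤ)) ≠ 0 := by
      rw [hyc, hJtop, mul_one]
      refine mul_ne_zero (by simp [Real.pi_ne_zero]) ?_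
      exact Int.cast_ne_zero.2 (by omega)
    set c := x.coeff (-((m + 1 : ℕ) : ℤ)) / y.coeff (-((m + 1 : ℕ) : ℤ))
    have key := ih (H - algebraMap ℂ Hol c * Modular.holDeriv (holJ ^ (m + 1)))
      (x - HahnSeries.C c * y)
      (hH.sub_const_mul (IsWeightTwo.holDeriv fun g => by rw [smul_pow', smul_holJ]) c)
      ((hx.sub (hy.const_mul c)).congr fun τ => rfl) fun n hn => by
        rw [HahnSeries.coeff_sub, HahnSeries.C_mul_eq_smul, HahnSeries.coeff_smul, smul_eq_mul]
        rcases lt_or_ge n (-((m + 1 : ℕ) : ℤ)) with h | h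
        · rw [hm n h, hyc, hJlow n h]; ring
        · obtain rfl : n = -((m + 1 : ℕ) : ℤ) := by omega
          rw [div_mul_cancel₀ _ hlead, sub_self]
    rwa [HahnSeries.coeff_sub, HahnSeries.C_mul_eq_smul, HahnSeries.coeff_smul, hyc,
      Int.cast_zero, zero_mul, mul_zero, smul_zero, sub_zero] at key

/-- A weakly holomorphic form of weight two and level one has no constant term. -/
theorem coeff_zero_of_weightTwo {H : Hol} {x : LaurentSeries ℂ} (hH : IsWeightTwo H)
    (hx : HasQExp 1 (H : ℍ → ℂ) x) : x.coeff 0 = 0 := by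
  obtain ⟨m, hm⟩ := HasQExp.exists_forall_lt_coeff_eq_zero x
  exact coeff_zero_of_weightTwo_aux (-m).toNat H x hH hx fun n hn => hm n (by omega)

end Fermat.Agent.Mazur.Immersion
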